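import Mathlib.NumberTheory.RamificationInertia.Galois
import Mathlib.NumberTheory.NumberField.Basic
import Mathlib.RingTheory.DedekindDomain.Ideal.Lemmas
import Mathlib.RingTheory.UniqueFactorizationDomain.Multiplicity
import Mathlib.RingTheory.Ideal.Norm.AbsNorm
import Mathlib.RingTheory.DedekindDomain.Factorization
import Mathlib.RingTheory.RamificationInertia.Ramification
import Mathlib.FieldTheory.Galois.IsGaloisGroup
import Mathlib.LinearAlgebra.FreeModule.IdealQuotient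

/-!
# Exponents of primes in ideals and powers
-/

set_option autoImplicit false

noncomputable section

open NumberField

namespace FA.Ext

variable {R : Type*} [CommRing R] [IsDedekindDomain R]

/-- In a Dedekind domain, the exponent of a prime is well defined. -/
theorem pow_mul_unique {P A B : Ideal R} (hP : Prime P) {a b : ℕ} (hA : ¬ P ∣ A) (hB : ¬ P ∣ B)
    (h : P ^ a * A = P ^ b * B) : a = b ∧ A = B := by
  rcases le_total a b with hab | hab
  · obtain ⟨k, rfl⟩ := Nat.exists_eq_add_of_le hab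
    rw [pow_add, mul_assoc] at h
    have h' := mul_left_cancel₀ (pow_ne_zero _ hP.ne_zero) h
    rcases Nat.eq_zero_or_pos k with rfl | hk
    · simpa using h'
    · exact absurd (h' ▸ Dvd.dvd.mul_right (dvd_pow_self P hk.ne') B) hA
  · obtain ⟨k, rfl⟩ := Nat.exists_eq_add_of_le hab
    rw [pow_add, mul_assoc] at h
    have h' := mul_left_cancel₀ (pow_ne_zero _ hP.ne_zero) h
    rcases Nat.eq_zero_or_pos k with rfl | hk
    · simpa using h'
    · exact absurd (h' ▸ Dvd.dvd.mul_right (dvd_pow_self P hk.ne') A) hB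

/-- An ideal all of whose exponents are divisible by `p` is a `p`-th power. -/
theorem exists_eq_pow_of_forall_dvd {p : ℕ} {I : Ideal R} (hI : I ≠ 0)
    (h : ∀ (P C : Ideal R) (k : ℕ), Prime P → ¬ P ∣ C → I = P ^ k * C → p ∣ k) :
    ∃ J : Ideal R, J ≠ 0 ∧ I = J ^ p := by
  revert hI h
  refine wellFounded_dvdNotUnit.induction (α := Ideal R) (C := fun I : Ideal R => I ≠ 0 →
    (∀ (P C : Ideal R) (k : ℕ), Prime P → ¬ P ∣ C → I = P ^ k * C → p ∣ k) →
      ∃ J : Ideal R, J ≠ 0 ∧ I = J ^ p) I ?_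
  intro I ih hI h
  by_cases hu : IsUnit I
  · exact ⟨1, one_ne_zero, by rw [one_pow]; exact isUnit_iff_eq_one.mp hu⟩
  obtain ⟨P, hP, hPI⟩ := WfDvdMonoid.exists_irreducible_factor hu hI
  obtain ⟨k, C, hPC, hIC⟩ := WfDvdMonoid.max_power_factor hI hP
  have hP' : Prime P := irreducible_iff_prime.mp hP
  obtain ⟨j, hj⟩ := h P C k hP' hPC hIC
  have hk : k ≠ 0 := by
    rintro rfl
    rw [pow_zero, one_mul] at hIC
    exact hPC (hIC ▸ hPI)
  have hC : C ≠ 0 := fun h0 => hI (by rw [hIC, h0, mul_zero])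
  have hd : DvdNotUnit C I :=
    ⟨hC, P ^ k, fun hu' => hP.not_isUnit ((isUnit_pow_iff hk).mp hu'), by rw [hIC, mul_comm]⟩
  have hCp : ∀ (Q D : Ideal R) (i : ℕ), Prime Q → ¬ Q ∣ D → C = Q ^ i * D → p ∣ i := by
    intro Q D i hQ hQD hCD
    rcases Nat.eq_zero_or_pos i with rfl | hi
    · exact dvd_zero p
    refine h Q (P ^ k * D) i hQ (fun hd' => ?_) (by rw [hIC, hCD, mul_left_comm])
    rcases hQ.dvd_or_dvd hd' with h1 | h1
    · have : Q = P :=
        associated_iff_eq.mp (hQ.associated_of_dvd hP' (hQ.dvd_of_dvd_pow h1))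
      exact hPC (this ▸ hCD ▸ Dvd.dvd.mul_right (dvd_pow_self Q hi.ne') D)
    · exact hQD h1
  obtain ⟨J, hJ0, hJ⟩ := ih C hd hC hCp
  exact ⟨P ^ j * J, mul_ne_zero (pow_ne_zero _ hP.ne_zero) hJ0,
    by rw [hIC, hJ, mul_pow, ← pow_mul, hj, mul_comm p j]⟩

variable {K L : Type*} [Field K] [NumberField K] [Field L] [NumberField L] [Algebra K L]
  [IsGalois K L]

/-- Trivial inertia means exponent one. -/
theorem exists_map_eq_mul_of_inertia_trivial (w : IsDedekindDomain.HeightOneSpectrum (𝓞 K))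
    (P : Ideal (𝓞 L)) [P.IsPrime] [P.LiesOver w.asIdeal]
    (h : ∀ σ ∈ P.inertia (L ≃ₐ[K] L), σ = 1) :
    ∃ C, ¬ P ∣ C ∧ w.asIdeal.map (algebraMap (𝓞 K) (𝓞 L)) = P * C := by
  set I := w.asIdeal.map (algebraMap (𝓞 K) (𝓞 L))
  have hI : I ≠ ⊥ := Ideal.map_ne_bot_of_ne_bot w.ne_bot
  have hP0 : P ≠ ⊥ :=
    ne_bot_of_le_ne_bot hI (Ideal.map_le_of_le_comap (P.over_def w.asIdeal).le)
  have hbot : (P.inertia (L ≃ₐ[K] L)) = ⊥ := by
    rw [Subgroup.eq_bot_iff_forall]; exact h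
  have : w.asIdeal.IsMaximal := w.isMaximal
  have : Finite (𝓞 K ⧸ w.asIdeal) := Ideal.finiteQuotientOfFreeOfNeBot w.asIdeal w.ne_bot
  have hcard := Ideal.card_inertia_eq_ramificationIdxIn (G := L ≃ₐ[K] L) w.asIdeal P
  rw [hbot, Subgroup.card_bot, Ideal.ramificationIdxIn_eq_ramificationIdx w.asIdeal P (L ≃ₐ[K] L),
    Ideal.IsDedekindDomain.ramificationIdx_eq_multiplicity w.asIdeal P hI] at hcard
  have hP : Prime P := Ideal.prime_of_isPrime hP0 inferInstance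
  obtain ⟨k, C, hC, hIC⟩ := WfDvdMonoid.max_power_factor hI hP.irreducible
  have hk : k = 1 := by
    rw [hcard]
    refine (multiplicity_eq_of_dvd_of_not_dvd ⟨C, hIC⟩ fun ⟨D, hD⟩ => hC ?_).symm
    rw [hIC, pow_succ, mul_assoc] at hD
    rw [mul_left_cancel₀ (pow_ne_zero _ hP0) hD]
    exact dvd_mul_right P D
  exact ⟨C, hC, by rw [hIC, hk, pow_one]⟩

/-- If `(x)` becomes an `n`-th power in an extension unramified at `w`, then `n` divides the
exponent of `w` in `(x)`. -/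
theorem dvd_exponent_of_map_eq_pow (w : IsDedekindDomain.HeightOneSpectrum (𝓞 K))
    (P : Ideal (𝓞 L)) [P.IsPrime] [P.LiesOver w.asIdeal]
    (h : ∀ σ ∈ P.inertia (L ≃ₐ[K] L), σ = 1) {I C : Ideal (𝓞 K)} {k n : ℕ}
    (hC : ¬ w.asIdeal ∣ C) (hI : I = w.asIdeal ^ k * C) {B : Ideal (𝓞 L)} (hB : B ≠ ⊥)
    (hmap : I.map (algebraMap (𝓞 K) (𝓞 L)) = B ^ n) : n ∣ k := by
  obtain ⟨D, hD, hwD⟩ := exists_map_eq_mul_of_inertia_trivial w P h
  have hP0 : P ≠ ⊥ := by
    rintro rfl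
    exact Ideal.map_ne_bot_of_ne_bot (S := 𝓞 L) w.ne_bot (hwD.trans (Ideal.bot_mul _))
  have hP : Prime P := Ideal.prime_of_isPrime hP0 inferInstance
  obtain ⟨j, E, hE, hBE⟩ := WfDvdMonoid.max_power_factor hB hP.irreducible
  have hCP : ¬ P ∣ C.map (algebraMap (𝓞 K) (𝓞 L)) := fun hd =>
    hC (Ideal.dvd_iff_le.mpr
      ((Ideal.map_le_iff_le_comap.mp (Ideal.dvd_iff_le.mp hd)).trans (P.over_def w.asIdeal).ge))
  rw [hI, Ideal.map_mul, Ideal.map_pow, hwD, hBE, mul_pow, mul_pow, ← pow_mul, mul_assoc] at hmap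
  have h1 : ¬ P ∣ D ^ k * C.map (algebraMap (𝓞 K) (𝓞 L)) := fun hd =>
    (hP.dvd_or_dvd hd).elim (fun h1 => hD (hP.dvd_of_dvd_pow h1)) hCP
  have h2 : ¬ P ∣ E ^ n := fun hd => hE (hP.dvd_of_dvd_pow hd)
  obtain ⟨hk, -⟩ := pow_mul_unique hP h1 h2 hmap
  exact ⟨j, by rw [hk, mul_comm]⟩

end FA.Ext
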