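import Fermat.Agent.ExtVanish.Cyclo
import Fermat.Agent.ExtVanish.Ramif
import Mathlib.NumberTheory.NumberField.Cyclotomic.Ideal
import Mathlib.FieldTheory.Finite.Basic

/-!
# Degree one primes of cyclotomic fields
-/

set_option autoImplicit false

noncomputable section

open NumberField IsDedekindDomain
open scoped Classical

namespace FA.Ext

variable {K : Type*} [Field K] [NumberField K]

theorem natCast_mem_of_absNorm_eq {v : Ideal (𝓞 K)} {q : ℕ} (hv : Ideal.absNorm v = q) :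
    (q : 𝓞 K) ∈ v := hv ▸ Ideal.absNorm_mem v

/-- Residues modulo a degree one prime are integers. -/
theorem exists_nat_sub_mem {v : Ideal (𝓞 K)} {q : ℕ} (hq : q.Prime)
    (hv : Ideal.absNorm v = q) (x : 𝓞 K) : ∃ n : ℕ, x - (n : 𝓞 K) ∈ v := by
  have hne : v ≠ ⊥ := fun h => hq.ne_zero (by rw [← hv, h, Ideal.absNorm_bot])
  have : Finite (𝓞 K ⧸ v) := Ideal.finiteQuotientOfFreeOfNeBot v hne
  have : Fintype (𝓞 K ⧸ v) := Fintype.ofFinite _
  have hcard : Fintype.card (𝓞 K ⧸ v) = q := by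
    rw [← hv, Ideal.absNorm_apply, Submodule.cardQuot_apply, Nat.card_eq_fintype_card]
  have : CharP (𝓞 K ⧸ v) q :=
    have : Fact q.Prime := ⟨hq⟩
    charP_of_card_eq_prime hcard
  have : NeZero q := ⟨hq.ne_zero⟩
  obtain ⟨a, ha⟩ := (ZMod.castHom_bijective (𝓞 K ⧸ v) hcard).2 (Ideal.Quotient.mk v x)
  refine ⟨a.val, ?_⟩
  rw [← Ideal.Quotient.eq_zero_iff_mem, map_sub, map_natCast, ← ha, sub_eq_zero,
    ← map_natCast (ZMod.castHom dvd_rfl (𝓞 K ⧸ v)) a.val, ZMod.natCast_zmod_val]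

/-- A primitive `ℓ`-th root congruent to `1` modulo a prime forces `ℓ` to lie in it. -/
theorem natCast_mem_of_primitiveRoot_sub_one_mem {ℓ : ℕ} [Fact ℓ.Prime] {η : 𝓞 K}
    (hη : IsPrimitiveRoot η ℓ) {v : Ideal (𝓞 K)} (h : η - 1 ∈ v) : (ℓ : 𝓞 K) ∈ v := by
  have hℓ : ℓ.Prime := Fact.out
  have hev := Polynomial.eval_one_cyclotomic_prime (R := 𝓞 K) (p := ℓ)
  rw [Polynomial.cyclotomic_eq_prod_X_sub_primitiveRoots hη, Polynomial.eval_prod] at hev
  rw [← hev, Finset.prod_eq_mul_prod_sdiff_singleton_of_mem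
    ((mem_primitiveRoots hℓ.pos).mpr hη)]
  refine v.mul_mem_right _ ?_
  simp only [Polynomial.eval_sub, Polynomial.eval_X, Polynomial.eval_C]
  rw [← neg_sub]
  exact v.neg_mem h

/-- Distinct powers of a primitive root are incongruent modulo primes not containing its order. -/
theorem pow_eq_of_sub_mem {ℓ : ℕ} [Fact ℓ.Prime] {η : 𝓞 K} (hη : IsPrimitiveRoot η ℓ)
    {v : Ideal (𝓞 K)} [v.IsPrime] (hℓv : (ℓ : 𝓞 K) ∉ v) {i j : ℕ} (hi : i < ℓ) (hj : j < ℓ)
    (h : η ^ i - η ^ j ∈ v) : i = j := by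
  have hℓ : ℓ.Prime := Fact.out
  wlog hle : j ≤ i generalizing i j with H
  · exact (H hj hi (by rw [← neg_sub]; exact v.neg_mem h) (not_le.mp hle).le).symm
  by_contra hne
  obtain ⟨k, rfl⟩ := Nat.exists_eq_add_of_le hle
  have hk : k ≠ 0 := by omega
  rw [show η ^ (j + k) - η ^ j = η ^ j * (η ^ k - 1) by ring] at h
  rcases Ideal.IsPrime.mem_or_mem ‹v.IsPrime› h with h1 | h1
  · exact Ideal.IsPrime.ne_top ‹v.IsPrime›
      (Ideal.eq_top_of_isUnit_mem _ h1 ((hη.isUnit hℓ.ne_zero).pow j))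
  · refine hℓv (natCast_mem_of_primitiveRoot_sub_one_mem (hη.pow_of_coprime k ?_) h1)
    exact (hℓ.coprime_iff_not_dvd.mpr fun hd =>
      absurd (Nat.le_of_dvd (by omega) hd) (by omega)).symm

/-- `q` is `1` modulo `p`. -/
theorem dvd_absNorm_sub_one {p : ℕ} [Fact p.Prime] {η : 𝓞 K} (hη : IsPrimitiveRoot η p)
    (v : HeightOneSpectrum (𝓞 K)) (hvp : (p : 𝓞 K) ∉ v.asIdeal) :
    p ∣ Ideal.absNorm v.asIdeal - 1 := by
  have hp : p.Prime := Fact.out
  have : v.asIdeal.IsMaximal := v.isMaximal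
  have : Finite (𝓞 K ⧸ v.asIdeal) := Ideal.finiteQuotientOfFreeOfNeBot _ v.ne_bot
  have : Fintype (𝓞 K ⧸ v.asIdeal) := Fintype.ofFinite _
  let := Ideal.Quotient.field v.asIdeal
  have hcard : Fintype.card (𝓞 K ⧸ v.asIdeal) = Ideal.absNorm v.asIdeal := by
    rw [Ideal.absNorm_apply, Submodule.cardQuot_apply, Nat.card_eq_fintype_card]
  set e := Ideal.Quotient.mk v.asIdeal η
  have he : orderOf e = p := by
    refine orderOf_eq_prime (by rw [← map_pow, hη.pow_eq_one, map_one]) fun h1 => hvp ?_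
    refine natCast_mem_of_primitiveRoot_sub_one_mem hη ?_
    rw [← Ideal.Quotient.eq_zero_iff_mem, map_sub, map_one]
    exact sub_eq_zero.mpr h1
  rw [← hcard, ← he]
  refine orderOf_dvd_of_pow_eq_one (FiniteField.pow_card_sub_one_eq_one e fun h0 => ?_)
  rw [h0, orderOf_zero] at he
  exact hp.ne_zero he.symm

/-- The image of a prime under a ring automorphism. -/
def conjPrime (e : 𝓞 K ≃+* 𝓞 K) (v : HeightOneSpectrum (𝓞 K)) : HeightOneSpectrum (𝓞 K) where
  asIdeal := v.asIdeal.map (e : 𝓞 K →+* 𝓞 K)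
  isPrime := Ideal.map_isPrime_of_equiv e
  ne_bot := fun h => v.ne_bot ((Ideal.map_eq_bot_iff_of_injective e.injective).mp h)

theorem mem_conjPrime {e : 𝓞 K ≃+* 𝓞 K} {v : HeightOneSpectrum (𝓞 K)} {x : 𝓞 K} :
    x ∈ (conjPrime e v).asIdeal ↔ e.symm x ∈ v.asIdeal := by
  show x ∈ v.asIdeal.map (e : 𝓞 K →+* 𝓞 K) ↔ _
  rw [Ideal.mem_map_iff_of_surjective (e : 𝓞 K →+* 𝓞 K) e.surjective]
  exact ⟨fun ⟨y, hy, hxy⟩ => by simpa [← hxy] using hy, fun h => ⟨_, h, by simp⟩⟩

theorem absNorm_conjPrime (e : 𝓞 K ≃+* 𝓞 K) (v : HeightOneSpectrum (𝓞 K)) :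
    Ideal.absNorm (conjPrime e v).asIdeal = Ideal.absNorm v.asIdeal := by
  simp only [Ideal.absNorm_apply, Submodule.cardQuot_apply]
  exact (Nat.card_congr (Ideal.quotientEquiv v.asIdeal _ e rfl).toEquiv).symm

theorem eq_of_dvd_of_absNorm_eq {I J : Ideal (𝓞 K)} (h : I ∣ J) (hI : I ≠ ⊥)
    (hN : Ideal.absNorm I = Ideal.absNorm J) : I = J := by
  obtain ⟨X, rfl⟩ := h
  have h0 : Ideal.absNorm I ≠ 0 := fun h => hI (Ideal.absNorm_eq_zero_iff.mp h)
  rw [map_mul, left_eq_mul₀ h0, Ideal.absNorm_eq_one_iff] at hN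
  rw [hN, Ideal.mul_top]

variable (p : ℕ) [Fact p.Prime] [IsCyclotomicExtension {p} ℚ K]

theorem sigma_symm_apply (d : (ZMod p)ˣ) (x : 𝓞 K) :
    (sigma p K d).symm x = sigma p K d⁻¹ x := by
  apply (sigma p K d).injective
  rw [RingEquiv.apply_symm_apply, ← sigma_mul_apply, mul_inv_cancel, sigma_one_apply]

/-- The conjugates of a degree one prime are distinct. -/
theorem conjPrime_injective (v : HeightOneSpectrum (𝓞 K)) (hvp : (p : 𝓞 K) ∉ v.asIdeal)
    (hv : (Ideal.absNorm v.asIdeal).Prime) :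
    Function.Injective fun d : (ZMod p)ˣ => conjPrime (sigma p K d) v := by
  intro d e h
  simp only at h
  have key : ∀ x, sigma p K d⁻¹ x ∈ v.asIdeal ↔ sigma p K e⁻¹ x ∈ v.asIdeal := fun x => by
    rw [← sigma_symm_apply, ← sigma_symm_apply, ← mem_conjPrime, ← mem_conjPrime, h]
  set c := d⁻¹ * e with hc
  obtain ⟨n, hn⟩ := exists_nat_sub_mem hv rfl (zetaInt p K)
  have h1 : sigma p K c (zetaInt p K - (n : 𝓞 K)) ∈ v.asIdeal := by
    rw [hc, sigma_mul_apply, key, sigma_inv_apply]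
    exact hn
  rw [map_sub, map_natCast, sigma_zetaInt] at h1
  have h2 : zetaInt p K ^ (c : ZMod p).val - zetaInt p K ^ 1 ∈ v.asIdeal := by
    rw [pow_one]
    have := v.asIdeal.sub_mem h1 hn
    rwa [sub_sub_sub_cancel_right] at this
  have h3 := pow_eq_of_sub_mem (v := v.asIdeal) (zetaInt_spec p K) hvp (ZMod.val_lt _)
    (Fact.out : p.Prime).one_lt h2
  have h4 : c = 1 := Units.ext (by rw [← ZMod.natCast_zmod_val (c : ZMod p), h3, Nat.cast_one,
    Units.val_one])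
  exact inv_mul_eq_one.mp h4

/-- A degree one prime splits the rational prime below it completely. -/
theorem prod_conjPrime (v : HeightOneSpectrum (𝓞 K)) (hvp : (p : 𝓞 K) ∉ v.asIdeal)
    (hv : (Ideal.absNorm v.asIdeal).Prime) :
    ∏ d : (ZMod p)ˣ, (conjPrime (sigma p K d) v).asIdeal =
      Ideal.span {((Ideal.absNorm v.asIdeal : ℕ) : 𝓞 K)} := by
  set q := Ideal.absNorm v.asIdeal
  have hinj : Set.InjOn (fun d : (ZMod p)ˣ => (conjPrime (sigma p K d) v).asIdeal)
      (Finset.univ : Finset (ZMod p)ˣ) :=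
    fun d _ e _ h => conjPrime_injective p v hvp hv (HeightOneSpectrum.ext h)
  refine eq_of_dvd_of_absNorm_eq ?_ ?_ ?_
  · rw [← Finset.prod_image (f := fun I : Ideal (𝓞 K) => I) hinj]
    refine Finset.prod_primes_dvd _ ?_ ?_
    · intro I hI
      obtain ⟨d, -, rfl⟩ := Finset.mem_image.mp hI
      exact (conjPrime _ v).prime
    · intro I hI
      obtain ⟨d, -, rfl⟩ := Finset.mem_image.mp hI
      rw [Ideal.dvd_span_singleton]
      exact natCast_mem_of_absNorm_eq (absNorm_conjPrime _ v)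
  · exact Finset.prod_ne_zero_iff.mpr fun d _ => (conjPrime _ v).ne_bot
  · rw [map_prod, Finset.prod_congr rfl fun d _ => absNorm_conjPrime (sigma p K d) v,
      Finset.prod_const, Finset.card_univ, Ideal.absNorm_span_singleton,
      show (q : 𝓞 K) = algebraMap ℤ (𝓞 K) q by simp, Algebra.norm_algebraMap,
      RingOfIntegers.rank, IsCyclotomicExtension.Rat.finrank (k := p), ZMod.card_units p,
      Nat.totient_prime Fact.out, Int.natAbs_pow, Int.natAbs_natCast]

/-- Splitting off given primes from an ideal. -/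
theorem exists_prime_decomposition {R : Type*} [CommRing R] [IsDedekindDomain R] {ι : Type*}
    (s : Finset ι) (P : ι → Ideal R) (hP : ∀ i ∈ s, Prime (P i))
    (hinj : Set.InjOn P s) {I : Ideal R} (hI : I ≠ 0) :
    ∃ (k : ι → ℕ) (C : Ideal R), I = (∏ i ∈ s, P i ^ k i) * C ∧ ∀ i ∈ s, ¬ P i ∣ C := by
  induction s using Finset.induction_on generalizing I with
  | empty => exact ⟨fun _ => 0, I, by simp, by simp⟩
  | @insert j s hj ih =>
    simp only [Finset.mem_insert, forall_eq_or_imp] at hP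
    obtain ⟨k, C, hk, hC⟩ := ih hP.2 (hinj.mono (Finset.coe_subset.mpr (Finset.subset_insert _ _))) hI
    have hC0 : C ≠ 0 := fun h => hI (by rw [hk, h, mul_zero])
    obtain ⟨m, D, hD, hCD⟩ := WfDvdMonoid.max_power_factor hC0 hP.1.irreducible
    refine ⟨Function.update k j m, D, ?_, ?_⟩
    · rw [Finset.prod_insert hj, Function.update_self,
        Finset.prod_congr rfl (fun i hi => by rw [Function.update_of_ne (ne_of_mem_of_not_mem hi hj)]),
        hk, hCD]
      ac_rfl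
    · intro i hi hd
      rcases Finset.mem_insert.mp hi with rfl | hi
      · exact hD hd
      · exact hC i hi (hCD ▸ Dvd.dvd.mul_left hd _)

end FA.Ext
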