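import Fermat.Agent.ExtVanish.ClassZeta
import Mathlib.Analysis.SpecialFunctions.Complex.CircleAddChar
import Mathlib.RingTheory.DedekindDomain.Factorization
import Mathlib.RingTheory.RootsOfUnity.PrimitiveRoots
import Mathlib.RingTheory.UniqueFactorizationDomain.Multiplicity
import Mathlib.RingTheory.Polynomial.Cyclotomic.Basic
import Mathlib.Analysis.PSeries
import Mathlib.Analysis.Normed.Group.Tannery

/-!
# Euler products over ideals and bounds for sums over primes
-/

set_option autoImplicit false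

noncomputable section

open NumberField IsDedekindDomain Module Filter Topology Ideal
open scoped nonZeroDivisors Classical

namespace FA.Ext

variable {K : Type*} [Field K] [NumberField K]

/-- A height one prime as a nonzero ideal. -/
def primeIdeal (v : HeightOneSpectrum (𝓞 K)) : (Ideal (𝓞 K))⁰ :=
  ⟨v.asIdeal, mem_nonZeroDivisors_iff_ne_zero.mpr v.ne_bot⟩

/-- Ideals supported on a finite set of primes. -/
def supportedOn (T : Finset (HeightOneSpectrum (𝓞 K))) : Set (Ideal (𝓞 K))⁰ :=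
  {I | ∀ v : HeightOneSpectrum (𝓞 K), v.asIdeal ∣ I.1 → v ∈ T}

theorem supportedOn_empty :
    supportedOn (∅ : Finset (HeightOneSpectrum (𝓞 K))) = {1} := by
  ext I
  simp only [supportedOn, Finset.notMem_empty, imp_false, Set.mem_setOf_eq,
    Set.mem_singleton_iff]
  constructor
  · intro h
    by_contra h1
    have h2 : I.1 ≠ ⊤ := fun h' => h1 (Subtype.ext (h'.trans Ideal.one_eq_top.symm))
    obtain ⟨m, hm, hle⟩ := Ideal.exists_le_maximal _ h2
    have hm0 : m ≠ ⊥ := fun h' => nonZeroDivisors.coe_ne_zero I (le_bot_iff.mp (h' ▸ hle))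
    exact h ⟨m, hm.isPrime, hm0⟩ (Ideal.dvd_iff_le.mpr hle)
  · rintro rfl v hv
    exact v.isPrime.ne_top (Ideal.isUnit_iff.mp (isUnit_of_dvd_one hv))

theorem mem_supportedOn_insert {T : Finset (HeightOneSpectrum (𝓞 K))}
    {v : HeightOneSpectrum (𝓞 K)} (n : ℕ) {J : (Ideal (𝓞 K))⁰} (hJ : J ∈ supportedOn T) :
    primeIdeal v ^ n * J ∈ supportedOn (insert v T) := by
  intro w hw
  rw [Submonoid.coe_mul, SubmonoidClass.coe_pow] at hw
  rcases w.prime.dvd_or_dvd hw with h | h
  · have h2 : w.asIdeal ∣ v.asIdeal := w.prime.dvd_of_dvd_pow h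
    have : v.asIdeal = w.asIdeal :=
      (v.isMaximal.eq_of_le w.isPrime.ne_top (Ideal.dvd_iff_le.mp h2))
    exact Finset.mem_insert.mpr (Or.inl (HeightOneSpectrum.ext this.symm))
  · exact Finset.mem_insert_of_mem (hJ w h)

theorem supportedOn_insert_bijective {T : Finset (HeightOneSpectrum (𝓞 K))}
    {v : HeightOneSpectrum (𝓞 K)} (hv : v ∉ T) :
    Function.Bijective (fun nJ : ℕ × supportedOn T =>
      (⟨primeIdeal v ^ nJ.1 * nJ.2.1, mem_supportedOn_insert nJ.1 nJ.2.2⟩ :
        supportedOn (insert v T))) := by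
  constructor
  · suffices H : ∀ (n m : ℕ) (J J' : supportedOn T), n ≤ m →
        primeIdeal v ^ n * J.1 = primeIdeal v ^ m * J'.1 → n = m ∧ J = J' by
      rintro ⟨n, J⟩ ⟨m, J'⟩ h
      have h' := congrArg Subtype.val h
      rcases le_total n m with hle | hle
      · obtain ⟨rfl, rfl⟩ := H n m J J' hle h'; rfl
      · obtain ⟨rfl, rfl⟩ := H m n J' J hle h'.symm; rfl
    intro n m J J' hle h
    obtain ⟨k, rfl⟩ := Nat.exists_eq_add_of_le hle
    rw [pow_add, mul_assoc] at h
    have h' : J.1 = primeIdeal v ^ k * J'.1 := mul_left_cancel h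
    rcases Nat.eq_zero_or_pos k with rfl | hk
    · exact ⟨rfl, Subtype.ext (by rw [h', pow_zero, one_mul])⟩
    · refine absurd (J.2 v ?_) hv
      rw [h', Submonoid.coe_mul, SubmonoidClass.coe_pow]
      exact Dvd.dvd.mul_right (dvd_pow_self _ hk.ne') _
  · rintro ⟨I, hI⟩
    obtain ⟨n, a, hna, ha⟩ := WfDvdMonoid.max_power_factor (nonZeroDivisors.coe_ne_zero I)
      v.irreducible
    have ha0 : a ≠ 0 := fun h => nonZeroDivisors.coe_ne_zero I (by rw [ha, h, mul_zero])
    have hJ : (⟨a, mem_nonZeroDivisors_iff_ne_zero.mpr ha0⟩ : (Ideal (𝓞 K))⁰) ∈ supportedOn T := by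
      intro w hw
      have hwI : w.asIdeal ∣ I.1 := by rw [ha]; exact Dvd.dvd.mul_left hw _
      rcases Finset.mem_insert.mp (hI w hwI) with rfl | h
      · exact absurd hw hna
      · exact h
    exact ⟨(n, ⟨_, hJ⟩), Subtype.ext (Subtype.ext ha.symm)⟩

/-- Finite Euler product. -/
theorem hasSum_supportedOn (f : (Ideal (𝓞 K))⁰ →* ℂ) (hf : Summable fun I => ‖f I‖)
    (hlt : ∀ v, ‖f (primeIdeal v)‖ < 1) (T : Finset (HeightOneSpectrum (𝓞 K))) :
    ∑' I : supportedOn T, f I.1 = ∏ v ∈ T, (1 - f (primeIdeal v))⁻¹ := by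
  induction T using Finset.induction_on with
  | empty =>
    rw [supportedOn_empty, tsum_singleton (1 : (Ideal (𝓞 K))⁰) (fun I => f I), map_one,
      Finset.prod_empty]
  | @insert v T hv ih =>
    rw [Finset.prod_insert hv, ← ih, ← (Equiv.ofBijective _
      (supportedOn_insert_bijective hv)).tsum_eq fun I : supportedOn (insert v T) => f I.1,
      ← tsum_geometric_of_norm_lt_one (hlt v)]
    simp only [Equiv.ofBijective_apply, map_mul, map_pow]
    have h1 : Summable fun n : ℕ => ‖f (primeIdeal v) ^ n‖ := by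
      simp only [norm_pow]
      exact summable_geometric_of_lt_one (norm_nonneg _) (hlt v)
    exact (tsum_mul_tsum_of_summable_norm h1
      (hf.comp_injective Subtype.val_injective)).symm

/-- The Euler product converges to the sum. -/
theorem tendsto_eulerProduct (f : (Ideal (𝓞 K))⁰ →* ℂ) (hf : Summable fun I => ‖f I‖)
    (hlt : ∀ v, ‖f (primeIdeal v)‖ < 1) :
    Tendsto (fun T => ∏ v ∈ T, (1 - f (primeIdeal v))⁻¹) atTop (𝓝 (∑' I, f I)) := by
  have key : ∀ T, ∏ v ∈ T, (1 - f (primeIdeal v))⁻¹ = ∑' I, (supportedOn T).indicator f I := by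
    intro T
    rw [← hasSum_supportedOn f hf hlt T, tsum_subtype (supportedOn T) f]
  simp only [key]
  refine tendsto_tsum_of_dominated_convergence hf (fun I => ?_)
    (Eventually.of_forall fun T I => norm_indicator_le_norm_self _ _)
  have hfin := Ideal.finite_factors (nonZeroDivisors.coe_ne_zero I)
  refine tendsto_nhds_of_eventually_eq ?_
  filter_upwards [eventually_ge_atTop hfin.toFinset] with T hT
  exact Set.indicator_of_mem (s := supportedOn T)
    (show I ∈ supportedOn T from fun v hv => hT (hfin.mem_toFinset.mpr hv)) f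

theorem two_le_absNorm (v : HeightOneSpectrum (𝓞 K)) :
    2 ≤ absNorm v.asIdeal := by
  rcases Nat.lt_or_ge (absNorm v.asIdeal) 2 with h | h
  · exfalso
    rcases (show absNorm v.asIdeal = 0 ∨ absNorm v.asIdeal = 1 by omega) with h' | h'
    · exact v.ne_bot (absNorm_eq_zero_iff.mp h')
    · exact v.isPrime.ne_top (absNorm_eq_one_iff.mp h')
  · exact h

theorem zN_primeIdeal (s : ℝ) (v : HeightOneSpectrum (𝓞 K)) :
    zN s (primeIdeal v) = (absNorm v.asIdeal : ℝ) ^ (-s) := rfl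

theorem zN_primeIdeal_le_half {s : ℝ} (hs : 1 ≤ s) (v : HeightOneSpectrum (𝓞 K)) :
    zN s (primeIdeal v) ≤ 1 / 2 := by
  have h2 : (2 : ℝ) ≤ absNorm v.asIdeal := by exact_mod_cast two_le_absNorm v
  rw [zN_primeIdeal]
  calc (absNorm v.asIdeal : ℝ) ^ (-s) ≤ (absNorm v.asIdeal : ℝ) ^ (-1 : ℝ) :=
        Real.rpow_le_rpow_of_exponent_le (by linarith) (by linarith)
    _ ≤ 1 / 2 := by
        rw [Real.rpow_neg_one, one_div]
        exact inv_anti₀ two_pos h2

theorem zN_primeIdeal_pos (s : ℝ) (v : HeightOneSpectrum (𝓞 K)) : 0 < zN s (primeIdeal v) :=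
  Real.rpow_pos_of_pos (Nat.cast_pos.mpr (zero_lt_two.trans_le (two_le_absNorm v))) _

/-- `I ↦ χ(class of I) N(I)^(-s)`. -/
def twistHom (χ : ClassGroup (𝓞 K) →* ℂ) (s : ℝ) : (Ideal (𝓞 K))⁰ →* ℂ where
  toFun I := χ (ClassGroup.mk0 I) * (zN s I : ℂ)
  map_one' := by simp [zN]
  map_mul' I J := by rw [map_mul, map_mul, zN_mul]; push_cast; ring

theorem twistHom_apply (χ : ClassGroup (𝓞 K) →* ℂ) (s : ℝ) (I : (Ideal (𝓞 K))⁰) :
    twistHom χ s I = χ (ClassGroup.mk0 I) * (zN s I : ℂ) := rfl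

theorem norm_char (χ : ClassGroup (𝓞 K) →* ℂ) (C : ClassGroup (𝓞 K)) : ‖χ C‖ = 1 :=
  Complex.norm_eq_one_of_pow_eq_one
    (by rw [← map_pow, pow_orderOf_eq_one, map_one]) (orderOf_pos C).ne'

theorem norm_twistHom (χ : ClassGroup (𝓞 K) →* ℂ) (s : ℝ) (I : (Ideal (𝓞 K))⁰) :
    ‖twistHom χ s I‖ = zN s I := by
  rw [twistHom_apply, norm_mul, norm_char, one_mul, Complex.norm_real,
    Real.norm_of_nonneg (zN_nonneg s I)]

theorem summable_norm_twistHom (χ : ClassGroup (𝓞 K) →* ℂ) {s : ℝ} (hs : 1 < s) :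
    Summable fun I => ‖twistHom χ s I‖ := by
  simp only [norm_twistHom]; exact summable_zN hs

theorem norm_twistHom_lt_one (χ : ClassGroup (𝓞 K) →* ℂ) {s : ℝ} (hs : 1 ≤ s)
    (v : HeightOneSpectrum (𝓞 K)) : ‖twistHom χ s (primeIdeal v)‖ < 1 := by
  rw [norm_twistHom]; linarith [zN_primeIdeal_le_half hs v]

/-- The `L`-series of a class group character. -/
def classL (χ : ClassGroup (𝓞 K) →* ℂ) (s : ℝ) : ℂ := ∑' I, twistHom χ s I

theorem classL_one (s : ℝ) : classL (1 : ClassGroup (𝓞 K) →* ℂ) s = (idealZeta K s : ℂ) := by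
  rw [classL, idealZeta, Complex.ofReal_tsum]
  exact tsum_congr fun I => by simp [twistHom_apply]

theorem exists_norm_classL_le {χ : ClassGroup (𝓞 K) →* ℂ} (hχ : χ ≠ 1) :
    ∃ M : ℝ, ∀ s ∈ Set.Ioc (1 : ℝ) 2, ‖classL χ s‖ ≤ M := by
  choose M hM using fun C : ClassGroup (𝓞 K) => exists_classZeta_sub_le C 1
  refine ⟨∑ C, M C, fun s hs => ?_⟩
  have hsum : Summable (twistHom χ s) := (summable_norm_twistHom χ hs.1).of_norm
  have h' : Summable fun c => twistHom χ s
      ((Equiv.sigmaFiberEquiv (ClassGroup.mk0 (R := 𝓞 K))) c) :=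
    (Equiv.sigmaFiberEquiv _).summable_iff.mpr hsum
  have hL : classL χ s = ∑ C : ClassGroup (𝓞 K), χ C * (classZeta C s : ℂ) := by
    rw [classL, ← (Equiv.sigmaFiberEquiv (ClassGroup.mk0 (R := 𝓞 K))).tsum_eq,
      Summable.tsum_sigma h', tsum_fintype]
    refine Finset.sum_congr rfl fun C _ => ?_
    rw [classZeta, Complex.ofReal_tsum, ← tsum_mul_left]
    refine tsum_congr fun I => ?_
    simp [twistHom_apply, I.2]
  have hzero : ∑ C : ClassGroup (𝓞 K), χ C = 0 := by
    obtain ⟨C₀, hC₀⟩ : ∃ C₀, χ C₀ ≠ 1 := by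
      by_contra h; push Not at h; exact hχ (MonoidHom.ext h)
    have h1 : χ C₀ * ∑ C, χ C = ∑ C, χ C := by
      rw [Finset.mul_sum]
      exact Fintype.sum_equiv (Equiv.mulLeft C₀) _ _ fun C => by simp
    exact (mul_eq_zero.mp (by rw [sub_mul, one_mul, h1, sub_self] :
      (χ C₀ - 1) * ∑ C, χ C = 0)).resolve_left (sub_ne_zero.mpr hC₀)
  have hL' : classL χ s =
      ∑ C : ClassGroup (𝓞 K), χ C * ((classZeta C s - classZeta (1 : ClassGroup (𝓞 K)) s : ℝ) : ℂ) := by
    rw [hL]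
    push_cast
    simp only [mul_sub, Finset.sum_sub_distrib, ← Finset.sum_mul, hzero, zero_mul, sub_zero]
  rw [hL']
  refine (norm_sum_le _ _).trans (Finset.sum_le_sum fun C _ => ?_)
  rw [norm_mul, norm_char, one_mul, Complex.norm_real]
  exact hM C s hs

variable {p : ℕ} [NeZero p]

/-- The complex character attached to `a • φ`. -/
def charOf (φ : ClassGroup (𝓞 K) →* Multiplicative (ZMod p)) (a : ZMod p) :
    ClassGroup (𝓞 K) →* ℂ where
  toFun C := ZMod.stdAddChar (a * Multiplicative.toAdd (φ C))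
  map_one' := by simp
  map_mul' C D := by simp [mul_add, AddChar.map_add_eq_mul]

theorem prod_one_sub_char [Fact p.Prime] (k : ZMod p) (hk : k ≠ 0) (x : ℂ) :
    ∏ a : ZMod p, (1 - ZMod.stdAddChar (a * k) * x) = 1 - x ^ p := by
  have hp : p.Prime := Fact.out
  set ψ : AddChar (ZMod p) ℂ := ZMod.stdAddChar
  rw [Fintype.prod_equiv (Equiv.mulRight₀ k hk) (fun a => 1 - ψ (a * k) * x)
    (fun a => 1 - ψ a * x) (fun a => rfl)]
  have hmem : ∀ a : ZMod p, ψ a ∈ Polynomial.nthRootsFinset p (1 : ℂ) := fun a => by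
    rw [Polynomial.mem_nthRootsFinset hp.pos, ← AddChar.map_nsmul_eq_pow, nsmul_eq_mul,
      ZMod.natCast_self, zero_mul, AddChar.map_zero_eq_one]
  have hprim : IsPrimitiveRoot (ψ 1) p := by
    have : orderOf (ψ 1) = p := by
      refine orderOf_eq_prime ?_ ?_
      · rw [← AddChar.map_nsmul_eq_pow, nsmul_eq_mul, ZMod.natCast_self, zero_mul,
          AddChar.map_zero_eq_one]
      · rw [← AddChar.map_zero_eq_one ψ]
        exact ZMod.injective_stdAddChar.ne one_ne_zero
    have h2 := IsPrimitiveRoot.orderOf (ψ 1)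
    rwa [this] at h2
  have himg : Finset.univ.image ψ = Polynomial.nthRootsFinset p (1 : ℂ) := by
    refine Finset.eq_of_subset_of_card_le (by simpa [Finset.image_subset_iff] using hmem) ?_
    rw [hprim.card_nthRootsFinset, Finset.card_image_of_injective _ ZMod.injective_stdAddChar,
      Finset.card_univ, ZMod.card]
  have h := hprim.pow_sub_pow_eq_prod_sub_mul 1 x hp.pos
  rw [one_pow, ← himg, Finset.prod_image ZMod.injective_stdAddChar.injOn] at h
  exact h.symm

/-- Finite Euler products over all characters dominate the primes in the kernel. -/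
theorem exp_le_prod_norm [Fact p.Prime] (φ : ClassGroup (𝓞 K) →* Multiplicative (ZMod p))
    {s : ℝ} (hs : 1 ≤ s) (T : Finset (HeightOneSpectrum (𝓞 K))) :
    Real.exp (p * ∑ v ∈ T.filter (fun v => φ (ClassGroup.mk0 (primeIdeal v)) = 1),
        zN s (primeIdeal v)) ≤
      ∏ a : ZMod p, ‖∏ v ∈ T, (1 - twistHom (charOf φ a) s (primeIdeal v))⁻¹‖ := by
  simp only [norm_prod]
  rw [Finset.prod_comm, Finset.mul_sum, Real.exp_sum, Finset.prod_filter]
  refine Finset.prod_le_prod (fun v _ => by split_ifs <;> positivity) fun v _ => ?_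
  set x := zN s (primeIdeal v)
  have hx0 : 0 < x := zN_primeIdeal_pos s v
  have hx1 : x ≤ 1 / 2 := zN_primeIdeal_le_half hs v
  set k := Multiplicative.toAdd (φ (ClassGroup.mk0 (primeIdeal v)))
  have hterm : ∀ a : ZMod p, twistHom (charOf φ a) s (primeIdeal v) =
      ZMod.stdAddChar (a * k) * (x : ℂ) := fun a => rfl
  simp only [hterm, norm_inv]
  split_ifs with hφ
  · have hk : k = 0 := by simp [k, hφ]
    simp only [hk, mul_zero, AddChar.map_zero_eq_one, one_mul]
    rw [show ‖(1 : ℂ) - x‖ = 1 - x by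
      rw [← Complex.ofReal_one, ← Complex.ofReal_sub, Complex.norm_real,
        Real.norm_of_nonneg (by linarith)],
      Finset.prod_const, Finset.card_univ, ZMod.card, Real.exp_nat_mul]
    refine pow_le_pow_left₀ (Real.exp_pos _).le ?_ _
    rw [le_inv_comm₀ (Real.exp_pos _) (by linarith), ← Real.exp_neg]
    linarith [Real.add_one_le_exp (-x)]
  · have hk : k ≠ 0 := fun h => hφ (toAdd_eq_zero.mp h)
    rw [Finset.prod_inv_distrib, ← norm_prod, prod_one_sub_char k hk]
    have hp : x ^ p ≤ x := pow_le_of_le_one hx0.le (by linarith) (NeZero.ne p)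
    rw [← Complex.ofReal_one, ← Complex.ofReal_pow, ← Complex.ofReal_sub, Complex.norm_real,
      Real.norm_of_nonneg (by linarith), one_le_inv₀ (by linarith)]
    linarith [pow_pos hx0 p]

/-- Upper bound for sums over primes in the kernel of a class group character. -/
theorem exists_sum_ker_le [Fact p.Prime] (φ : ClassGroup (𝓞 K) →* Multiplicative (ZMod p))
    (hφ : φ ≠ 1) :
    ∃ M : ℝ, ∀ s ∈ Set.Ioc (1 : ℝ) 2, ∀ T : Finset (HeightOneSpectrum (𝓞 K)),
      (∀ v ∈ T, φ (ClassGroup.mk0 (primeIdeal v)) = 1) →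
      p * ∑ v ∈ T, zN s (primeIdeal v) ≤ Real.log (1 / (s - 1)) + M := by
  have hne : ∀ a : ZMod p, a ≠ 0 → charOf φ a ≠ 1 := by
    intro a ha h
    refine hφ (MonoidHom.ext fun C => toAdd_eq_zero.mp ?_)
    have h' : ZMod.stdAddChar (a * Multiplicative.toAdd (φ C)) = (1 : ℂ) := DFunLike.congr_fun h C
    rw [← AddChar.map_zero_eq_one (ZMod.stdAddChar (N := p))] at h'
    exact (mul_eq_zero.mp (ZMod.injective_stdAddChar h')).resolve_left ha
  have hM : ∀ a : ZMod p, ∃ M, a ≠ 0 → ∀ s ∈ Set.Ioc (1 : ℝ) 2, ‖classL (charOf φ a) s‖ ≤ M :=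
    fun a => if ha : a = 0 then ⟨0, fun h => absurd ha h⟩ else
      (exists_norm_classL_le (hne a ha)).imp fun _ h _ => h
  choose M hM using hM
  obtain ⟨A, hA⟩ := exists_sub_one_mul_idealZeta_le K
  set P : ℝ := max A 1 * ∏ a ∈ (Finset.univ : Finset (ZMod p)).erase 0, max (M a) 1
  have hP : 0 < P := mul_pos (by positivity) (Finset.prod_pos fun a _ => by positivity)
  refine ⟨Real.log P, fun s hs T hT => ?_⟩
  have hs1 : 0 < s - 1 := by linarith [hs.1]
  rw [← Real.log_mul (by positivity) hP.ne',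
    Real.le_log_iff_exp_le (by positivity)]
  have hlim : Tendsto (fun T : Finset (HeightOneSpectrum (𝓞 K)) => ∏ a : ZMod p,
      ‖∏ v ∈ T, (1 - twistHom (charOf φ a) s (primeIdeal v))⁻¹‖) atTop
      (𝓝 (∏ a : ZMod p, ‖classL (charOf φ a) s‖)) :=
    tendsto_finsetProd _ fun a _ => (tendsto_eulerProduct _ (summable_norm_twistHom _ hs.1)
      (norm_twistHom_lt_one _ hs.1.le)).norm
  refine (ge_of_tendsto hlim ?_).trans ?_
  · filter_upwards [eventually_ge_atTop T] with T' hTT'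
    refine le_trans ?_ (exp_le_prod_norm φ hs.1.le T')
    refine Real.exp_le_exp.mpr (mul_le_mul_of_nonneg_left ?_ (by positivity))
    exact Finset.sum_le_sum_of_subset_of_nonneg
      (fun v hv => Finset.mem_filter.mpr ⟨hTT' hv, hT v hv⟩) fun v _ _ => zN_nonneg _ _
  · rw [← Finset.mul_prod_erase _ _ (Finset.mem_univ (0 : ZMod p))]
    have h0 : ‖classL (charOf φ 0) s‖ ≤ 1 / (s - 1) * max A 1 := by
      have h1 : charOf φ 0 = 1 := MonoidHom.ext fun C => by simp [charOf]
      rw [h1, classL_one, Complex.norm_real,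
        Real.norm_of_nonneg (show 0 ≤ idealZeta K s from tsum_nonneg (zN_nonneg s)), one_div,
        ← div_eq_inv_mul,
        le_div_iff₀' hs1]
      exact (hA s hs).trans (le_max_left _ _)
    calc ‖classL (charOf φ 0) s‖ * ∏ a ∈ Finset.univ.erase 0, ‖classL (charOf φ a) s‖
        ≤ (1 / (s - 1) * max A 1) *
            ∏ a ∈ (Finset.univ : Finset (ZMod p)).erase 0, max (M a) 1 :=
          mul_le_mul h0 (Finset.prod_le_prod (fun a _ => norm_nonneg _)
            fun a ha => (hM a (Finset.ne_of_mem_erase ha) s hs).trans (le_max_left _ _))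
            (Finset.prod_nonneg fun a _ => norm_nonneg _) (by positivity)
      _ = 1 / (s - 1) * P := by rw [mul_assoc]

variable (K) in
theorem tendsto_realEulerProduct {s : ℝ} (hs : 1 < s) :
    Tendsto (fun T : Finset (HeightOneSpectrum (𝓞 K)) => ∏ v ∈ T, (1 - zN s (primeIdeal v))⁻¹)
      atTop (𝓝 (idealZeta K s)) := by
  have h := (Complex.continuous_re.tendsto _).comp (tendsto_eulerProduct _
    (summable_norm_twistHom (1 : ClassGroup (𝓞 K) →* ℂ) hs) (norm_twistHom_lt_one 1 hs.le))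
  rw [show (∑' I, twistHom (1 : ClassGroup (𝓞 K) →* ℂ) s I) = (idealZeta K s : ℂ) from
    classL_one s, Complex.ofReal_re] at h
  refine h.congr fun T => ?_
  have : ∏ v ∈ T, (1 - twistHom (1 : ClassGroup (𝓞 K) →* ℂ) s (primeIdeal v))⁻¹ =
      ((∏ v ∈ T, (1 - zN s (primeIdeal v))⁻¹ : ℝ) : ℂ) := by
    push_cast
    exact Finset.prod_congr rfl fun v _ => by simp [twistHom_apply]
  rw [Function.comp_apply, this, Complex.ofReal_re]

variable (K) in
/-- Upper bound for sums over all primes. -/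
theorem exists_sum_le :
    ∃ M : ℝ, ∀ s ∈ Set.Ioc (1 : ℝ) 2, ∀ T : Finset (HeightOneSpectrum (𝓞 K)),
      ∑ v ∈ T, zN s (primeIdeal v) ≤ Real.log (1 / (s - 1)) + M := by
  obtain ⟨A, hA⟩ := exists_sub_one_mul_idealZeta_le K
  refine ⟨Real.log (max A 1), fun s hs T => ?_⟩
  have hs1 : 0 < s - 1 := by linarith [hs.1]
  rw [← Real.log_mul (by positivity) (by positivity), Real.le_log_iff_exp_le (by positivity),
    Real.exp_sum]
  refine (ge_of_tendsto (tendsto_realEulerProduct K hs.1) ?_).trans ?_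
  · filter_upwards [eventually_ge_atTop T] with T' hTT'
    have h1 : ∀ v : HeightOneSpectrum (𝓞 K),
        Real.exp (zN s (primeIdeal v)) ≤ (1 - zN s (primeIdeal v))⁻¹ := fun v => by
      rw [le_inv_comm₀ (Real.exp_pos _) (by linarith [zN_primeIdeal_le_half hs.1.le v]),
        ← Real.exp_neg]
      linarith [Real.add_one_le_exp (-zN s (primeIdeal v))]
    refine (Finset.prod_le_prod (fun v _ => (Real.exp_pos _).le) fun v _ => h1 v).trans ?_
    exact Finset.prod_le_prod_of_subset_of_one_le hTT'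
      (fun v _ => (Real.exp_pos _).le.trans (h1 v))
      (fun v _ _ => (Real.one_le_exp (zN_nonneg _ _)).trans (h1 v))
  · rw [one_div, ← div_eq_inv_mul, le_div_iff₀' hs1]
    exact (hA s hs).trans (le_max_left _ _)

theorem exists_rat_prime_mem (v : HeightOneSpectrum (𝓞 K)) :
    ∃ ℓ : ℕ, ℓ.Prime ∧ (ℓ : 𝓞 K) ∈ v.asIdeal := by
  have hN := two_le_absNorm v
  have h := Ideal.absNorm_mem v.asIdeal
  rw [← Nat.prod_primeFactorsList (by omega : absNorm v.asIdeal ≠ 0), ← Multiset.prod_coe,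
    Nat.cast_multiset_prod, v.isPrime.multiset_prod_mem_iff_exists_mem] at h
  obtain ⟨a, ha, hav⟩ := h
  obtain ⟨ℓ, hℓ, rfl⟩ := Multiset.mem_map.mp ha
  exact ⟨ℓ, Nat.prime_of_mem_primeFactorsList (Multiset.mem_coe.mp hℓ), hav⟩

theorem sum_inv_sq_le {ι : Type*} (T : Finset ι) (f : ι → ℕ) (hf : ∀ i ∈ T, 0 < f i) (d : ℕ)
    (hd : ∀ ℓ, (T.filter fun i => f i = ℓ).card ≤ d) :
    ∑ i ∈ T, ((f i : ℝ) ^ 2)⁻¹ ≤ d * ∑' n : ℕ, ((n : ℝ) ^ 2)⁻¹ := by
  rw [← Finset.sum_fiberwise_of_maps_to (g := f) (t := T.image f)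
    fun i hi => Finset.mem_image_of_mem f hi]
  calc ∑ ℓ ∈ T.image f, ∑ i ∈ T.filter (fun i => f i = ℓ), ((f i : ℝ) ^ 2)⁻¹
      ≤ ∑ ℓ ∈ T.image f, (d : ℝ) * ((ℓ : ℝ) ^ 2)⁻¹ := Finset.sum_le_sum fun ℓ _ => by
        rw [Finset.sum_congr rfl fun i hi => by rw [(Finset.mem_filter.mp hi).2],
          Finset.sum_const, nsmul_eq_mul]
        exact mul_le_mul_of_nonneg_right (by exact_mod_cast hd ℓ) (by positivity)
    _ ≤ _ := by
        rw [← Finset.mul_sum]
        refine mul_le_mul_of_nonneg_left ?_ (by positivity)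
        exact (Real.summable_nat_pow_inv.mpr one_lt_two).sum_le_tsum _ fun n _ => by positivity

variable (K) in
theorem exists_lower_bound :
    ∃ M : ℝ, ∀ s ∈ Set.Ioc (1 : ℝ) 2, ∃ T : Finset (HeightOneSpectrum (𝓞 K)),
      (∀ v ∈ T, (absNorm v.asIdeal).Prime) ∧
      Real.log (1 / (s - 1)) - M ≤ ∑ v ∈ T, zN s (primeIdeal v) := by
  -- bound from below for the zeta function
  obtain ⟨A₁, hA₁⟩ : ∃ c : ℝ, 0 < c ∧ ∀ s ∈ Set.Ioc (1 : ℝ) 2, c ≤ (s - 1) * idealZeta K s := by
    have hpos := dedekindZeta_residue_pos K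
    have h := (tendsto_sub_one_mul_idealZeta (K := K)).eventually
      (eventually_ge_nhds (show dedekindZeta_residue K / 2 < dedekindZeta_residue K by linarith))
    rw [eventually_nhdsWithin_iff, Metric.eventually_nhds_iff] at h
    obtain ⟨δ, hδ, h⟩ := h
    refine ⟨min (dedekindZeta_residue K / 2) δ, lt_min (by linarith) hδ, fun s hs => ?_⟩
    by_cases hsδ : s < 1 + δ
    · refine min_le_of_left_le (h ?_ hs.1)
      rw [Real.dist_eq, abs_of_pos (by linarith [hs.1])]
      linarith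
    · refine min_le_of_right_le ?_
      calc δ ≤ (s - 1) * 1 := by linarith
        _ ≤ _ := mul_le_mul_of_nonneg_left (one_le_idealZeta hs.1) (by linarith [hs.1])
  obtain ⟨hc0, hc⟩ := hA₁
  set d : ℕ := finrank ℚ K
  set B₂ : ℝ := idealZeta K 2
  set B₁ : ℝ := d * ∑' n : ℕ, ((n : ℝ) ^ 2)⁻¹
  refine ⟨2 * B₂ + B₁ - Real.log (A₁ / 2), fun s hs => ?_⟩
  have hs1 : 0 < s - 1 := by linarith [hs.1]
  have hZ : 0 < idealZeta K s := zero_lt_one.trans_le (one_le_idealZeta hs.1)
  obtain ⟨T, hT⟩ := ((tendsto_realEulerProduct K hs.1).eventually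
    (eventually_ge_nhds (show idealZeta K s / 2 < idealZeta K s by linarith))).exists
  refine ⟨T.filter fun v => (absNorm v.asIdeal).Prime,
    fun v hv => (Finset.mem_filter.mp hv).2, ?_⟩
  -- `1/(1-x) ≤ exp (x + 2 x^2)`
  have hle : ∀ v : HeightOneSpectrum (𝓞 K), (1 - zN s (primeIdeal v))⁻¹ ≤
      Real.exp (zN s (primeIdeal v) + 2 * zN s (primeIdeal v) ^ 2) := fun v => by
    set x := zN s (primeIdeal v)
    have hx : x ≤ 1 / 2 := zN_primeIdeal_le_half hs.1.le v
    have hx0 : 0 ≤ x := zN_nonneg _ _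
    calc (1 - x)⁻¹ = x / (1 - x) + 1 := by
          rw [div_add_one (by linarith : (1:ℝ) - x ≠ 0), add_sub_cancel, one_div]
      _ ≤ Real.exp (x / (1 - x)) := Real.add_one_le_exp _
      _ ≤ _ := Real.exp_le_exp.mpr (by
          rw [div_le_iff₀ (by linarith)]
          nlinarith [mul_nonneg (sq_nonneg x) (by linarith : (0:ℝ) ≤ 1 - 2 * x)])
  have h1 : idealZeta K s / 2 ≤
      Real.exp (∑ v ∈ T, (zN s (primeIdeal v) + 2 * zN s (primeIdeal v) ^ 2)) := by
    rw [Real.exp_sum]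
    exact hT.trans (Finset.prod_le_prod
      (fun v _ => inv_nonneg.mpr (by linarith [zN_primeIdeal_le_half hs.1.le v])) fun v _ => hle v)
  have h2 : Real.log (A₁ / 2) + Real.log (1 / (s - 1)) ≤
      ∑ v ∈ T, (zN s (primeIdeal v) + 2 * zN s (primeIdeal v) ^ 2) := by
    rw [← Real.log_mul (by positivity) (by positivity), Real.log_le_iff_le_exp (by positivity)]
    refine le_trans ?_ h1
    rw [mul_one_div, div_le_iff₀ hs1]
    nlinarith [hc s hs]
  have hB2 : ∑ v ∈ T, zN s (primeIdeal v) ^ 2 ≤ B₂ := by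
    calc ∑ v ∈ T, zN s (primeIdeal v) ^ 2 ≤ ∑ v ∈ T, zN 2 (primeIdeal v) :=
          Finset.sum_le_sum fun v _ => by
            have hN : (1 : ℝ) ≤ absNorm v.asIdeal := one_le_absNorm (primeIdeal v)
            rw [zN_primeIdeal, zN_primeIdeal, ← Real.rpow_natCast, ← Real.rpow_mul (by positivity)]
            exact Real.rpow_le_rpow_of_exponent_le hN (by push_cast; linarith [hs.1])
      _ = ∑ I ∈ T.image primeIdeal, zN 2 I := by
            rw [Finset.sum_image fun v _ w _ h => HeightOneSpectrum.ext (congrArg Subtype.val h)]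
      _ ≤ B₂ := (summable_zN one_lt_two).sum_le_tsum _ fun I _ => zN_nonneg _ _
  have hB1 : ∑ v ∈ T.filter (fun v => ¬ (absNorm v.asIdeal).Prime), zN s (primeIdeal v) ≤ B₁ := by
    choose ℓ hℓp hℓ using exists_rat_prime_mem (K := K)
    have hdvd : ∀ v : HeightOneSpectrum (𝓞 K),
        v.asIdeal ∣ Ideal.span {(ℓ v : 𝓞 K)} := fun v =>
      Ideal.dvd_iff_le.mpr ((Ideal.span_singleton_le_iff_mem _).mpr (hℓ v))
    have hnormℓ : ∀ n : ℕ, absNorm (Ideal.span {(n : 𝓞 K)}) = n ^ d := fun n => by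
      rw [Ideal.absNorm_span_singleton, show (n : 𝓞 K) = algebraMap ℤ (𝓞 K) n by simp,
        Algebra.norm_algebraMap]
      simp [Int.natAbs_pow, d, RingOfIntegers.rank]
    have hbig : ∀ v : HeightOneSpectrum (𝓞 K), ¬ (absNorm v.asIdeal).Prime →
        ℓ v ^ 2 ≤ absNorm v.asIdeal := by
      intro v hv
      obtain ⟨k, -, hk⟩ := (Nat.dvd_prime_pow (hℓp v)).mp
        (hnormℓ (ℓ v) ▸ map_dvd absNorm (hdvd v))
      rw [hk]
      refine Nat.pow_le_pow_right (hℓp v).pos ?_
      rcases (show k = 0 ∨ k = 1 ∨ 2 ≤ k by omega) with rfl | rfl | h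
      · simpa [hk] using two_le_absNorm v
      · exact absurd (by rw [hk, pow_one]; exact hℓp v) hv
      · exact h
    refine le_trans (Finset.sum_le_sum (g := fun v => ((ℓ v : ℝ) ^ 2)⁻¹) fun v hv => ?_)
      (sum_inv_sq_le _ ℓ (fun v _ => (hℓp v).pos) d fun m => ?_)
    · have hb : ((ℓ v : ℝ) ^ 2) ≤ absNorm v.asIdeal := by
        exact_mod_cast hbig v (Finset.mem_filter.mp hv).2
      have hN : (1 : ℝ) ≤ absNorm v.asIdeal := one_le_absNorm (primeIdeal v)
      calc zN s (primeIdeal v) ≤ (absNorm v.asIdeal : ℝ) ^ (-1 : ℝ) :=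
            Real.rpow_le_rpow_of_exponent_le hN (by linarith [hs.1])
        _ ≤ _ := by
            rw [Real.rpow_neg_one]
            exact inv_anti₀ (pow_pos (Nat.cast_pos.mpr (hℓp v).pos) 2) hb
    · set S := (T.filter (fun v => ¬ (absNorm v.asIdeal).Prime)).filter fun v => ℓ v = m
      rcases S.eq_empty_or_nonempty with hS | ⟨v₀, hv₀⟩
      · rw [hS]; simp
      have hm : m.Prime := (Finset.mem_filter.mp hv₀).2 ▸ hℓp v₀
      have hinj : Set.InjOn (fun v : HeightOneSpectrum (𝓞 K) => v.asIdeal) S :=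
        fun v _ w _ h => HeightOneSpectrum.ext h
      have hdiv : ∏ v ∈ S, v.asIdeal ∣ Ideal.span {(m : 𝓞 K)} := by
        rw [← Finset.prod_image (f := fun I : Ideal (𝓞 K) => I) hinj]
        refine Finset.prod_primes_dvd _ ?_ ?_
        · intro I hI
          obtain ⟨v, -, rfl⟩ := Finset.mem_image.mp hI
          exact v.prime
        · intro I hI
          obtain ⟨v, hv, rfl⟩ := Finset.mem_image.mp hI
          exact (Finset.mem_filter.mp hv).2 ▸ hdvd v
      have h3 : ∏ v ∈ S, absNorm v.asIdeal ≤ m ^ d := by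
        refine Nat.le_of_dvd (pow_pos hm.pos d) ?_
        rw [← map_prod, ← hnormℓ]
        exact map_dvd absNorm hdiv
      have h4 : m ^ (2 * S.card) ≤ ∏ v ∈ S, absNorm v.asIdeal := by
        rw [pow_mul]
        exact Finset.pow_card_le_prod _ _ _ fun v hv => by
          rw [← (Finset.mem_filter.mp hv).2]
          exact hbig v (Finset.mem_filter.mp (Finset.mem_filter.mp hv).1).2
      have h5 := (Nat.pow_le_pow_iff_right hm.one_lt).mp (h4.trans h3)
      omega
  rw [Finset.sum_add_distrib, ← Finset.mul_sum,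
    ← Finset.sum_filter_add_sum_filter_not T (fun v => (absNorm v.asIdeal).Prime)] at h2
  linarith

end FA.Ext
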