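import Fermat.Agent.ExtVanish.EigenPrincipal
import Mathlib.NumberTheory.JacobiSum.Basic

/-!
# Stickelberger's relation for degree one primes

For a prime `v` of `ℚ(ζ_p)` of prime norm `q ≠ p` and `0 < b ≤ p - 1` the product of the classes of the
conjugates `σ_d⁻¹ v` with exponents `⌊b d / p⌋` is trivial: the Jacobi sums generate the partial products.
-/

set_option autoImplicit false

noncomputable section

open NumberField IsDedekindDomain
open scoped Classical nonZeroDivisors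

namespace FA.Ext

variable (p : ℕ) [Fact p.Prime] (K : Type*) [Field K] [NumberField K]
  [IsCyclotomicExtension {p} ℚ K]

variable {p K}

omit [Fact p.Prime] [IsCyclotomicExtension {p} ℚ K] in
/-- The residue map at a degree one prime. -/
theorem exists_residue_hom {q : ℕ} [Fact q.Prime] {v : Ideal (𝓞 K)}
    (hv : Ideal.absNorm v = q) : ∃ π : 𝓞 K →+* ZMod q, ∀ x, π x = 0 ↔ x ∈ v := by
  have hne : v ≠ ⊥ := fun h => (Fact.out : q.Prime).ne_zero (by rw [← hv, h, Ideal.absNorm_bot])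
  have : Finite (𝓞 K ⧸ v) := Ideal.finiteQuotientOfFreeOfNeBot v hne
  have : Fintype (𝓞 K ⧸ v) := Fintype.ofFinite _
  have hcard : Fintype.card (𝓞 K ⧸ v) = q := by
    rw [← hv, Ideal.absNorm_apply, Submodule.cardQuot_apply, Nat.card_eq_fintype_card]
  have : CharP (𝓞 K ⧸ v) q := charP_of_card_eq_prime hcard
  refine ⟨(RingEquiv.ofBijective _ (ZMod.castHom_bijective (𝓞 K ⧸ v) hcard)).symm.toRingHom.comp
    (Ideal.Quotient.mk v), fun x => ?_⟩
  simp [Ideal.Quotient.eq_zero_iff_mem]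

/-- The power residue character. -/
theorem exists_powerResidueChar {q : ℕ} [Fact q.Prime] (v : HeightOneSpectrum (𝓞 K))
    (hvp : (p : 𝓞 K) ∉ v.asIdeal) (π : 𝓞 K →+* ZMod q) (hπ : ∀ x, π x = 0 ↔ x ∈ v.asIdeal)
    {m : ℕ} (hm : q - 1 = p * m) :
    ∃ χ : MulChar (ZMod q) (𝓞 K), χ ^ p = 1 ∧ (∀ x, π (χ x) = x ^ m) ∧
      ∀ d : (ZMod p)ˣ, χ.ringHomComp (sigma p K d).toRingHom = χ ^ (d : ZMod p).val := by
  have hp : p.Prime := Fact.out
  have hq : q.Prime := Fact.out
  have : NeZero p := ⟨hp.ne_zero⟩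
  have hm0 : m ≠ 0 := by
    rintro rfl
    have := hq.two_le
    omega
  set z := zetaInt p K
  have hω : IsPrimitiveRoot (π z) p := by
    refine IsPrimitiveRoot.iff_orderOf.mpr (orderOf_eq_prime ?_ ?_)
    · rw [← map_pow, (zetaInt_spec p K).pow_eq_one, map_one]
    · intro h
      refine hvp (natCast_mem_of_primitiveRoot_sub_one_mem (zetaInt_spec p K) ((hπ _).mp ?_))
      rw [map_sub, h, map_one, sub_self]
  have hroot : ∀ x : (ZMod q)ˣ, ∃ c : 𝓞 K, c ^ p = 1 ∧ π c = (x : ZMod q) ^ m := by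
    intro x
    obtain ⟨i, -, hi⟩ := hω.eq_pow_of_pow_eq_one (ξ := (x : ZMod q) ^ m)
      (by rw [← pow_mul, mul_comm, ← hm, ZMod.pow_card_sub_one_eq_one x.ne_zero])
    exact ⟨z ^ i, by rw [← pow_mul, mul_comm, pow_mul, (zetaInt_spec p K).pow_eq_one, one_pow],
      by rw [map_pow, hi]⟩
  choose c hc hcπ using hroot
  have hinj : ∀ {a a' : 𝓞 K}, a ^ p = 1 → a' ^ p = 1 → π a = π a' → a = a' := by
    intro a a' ha ha' h
    obtain ⟨i, hi, rfl⟩ := (zetaInt_spec p K).eq_pow_of_pow_eq_one ha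
    obtain ⟨j, hj, rfl⟩ := (zetaInt_spec p K).eq_pow_of_pow_eq_one ha'
    rw [pow_eq_of_sub_mem (v := v.asIdeal) (zetaInt_spec p K) hvp hi hj
      ((hπ _).mp (by rw [map_sub, h, sub_self]))]
  have hmul : ∀ x y, c (x * y) = c x * c y := fun x y =>
    hinj (hc _) (by rw [mul_pow, hc, hc, one_mul])
      (by rw [map_mul, hcπ, hcπ, hcπ, Units.val_mul, mul_pow])
  let f : (ZMod q)ˣ →* (𝓞 K)ˣ :=
    MonoidHom.mk' (fun x => Units.ofPowEqOne (c x) p (hc x) hp.ne_zero)
      fun x y => Units.ext (hmul x y)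
  have hunit : ∀ x : (ZMod q)ˣ, MulChar.ofUnitHom f (x : ZMod q) = c x := fun x =>
    MulChar.ofUnitHom_coe f x
  refine ⟨MulChar.ofUnitHom f, MulChar.ext fun x => ?_, fun x => ?_, fun d => MulChar.ext fun x => ?_⟩
  · rw [MulChar.pow_apply_coe, hunit, hc, MulChar.one_apply_coe]
  · by_cases hx : IsUnit x
    · obtain ⟨u, rfl⟩ := hx
      rw [hunit, hcπ]
    · rw [MulChar.map_nonunit _ hx, map_zero, isUnit_iff_ne_zero, not_not] at *
      rw [hx, zero_pow hm0]
  · rw [MulChar.ringHomComp_apply, MulChar.pow_apply_coe, hunit]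
    exact sigma_of_pow_eq_one p K d (hc x)

omit [Fact p.Prime] [NumberField K] [IsCyclotomicExtension {p} ℚ K] in
/-- A Jacobi sum of small exponents lies in the prime. -/
theorem jacobiSum_mem {q : ℕ} [Fact q.Prime] {v : Ideal (𝓞 K)} (π : 𝓞 K →+* ZMod q)
    (hπ : ∀ x, π x = 0 ↔ x ∈ v) {m : ℕ} (hm : q - 1 = p * m)
    {χ : MulChar (ZMod q) (𝓞 K)} (hχ : ∀ x, π (χ x) = x ^ m) {i j : ℕ} (hi : i ≠ 0) (hj : j ≠ 0)
    (hij : i + j < p) : jacobiSum (χ ^ i) (χ ^ j) ∈ v := by
  have hq : q.Prime := Fact.out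
  have hm0 : m ≠ 0 := by
    rintro rfl
    have := hq.two_le
    omega
  rw [← hπ, jacobiSum, map_sum]
  simp only [map_mul, MulChar.pow_apply' χ hi, MulChar.pow_apply' χ hj, map_pow, hχ, ← pow_mul]
  simp only [sub_eq_neg_add, add_pow, one_pow, mul_one, Finset.mul_sum]
  rw [Finset.sum_comm]
  refine Finset.sum_eq_zero fun t ht => ?_
  rw [Finset.mem_range] at ht
  have hlt : m * i + t < Fintype.card (ZMod q) - 1 := by
    rw [ZMod.card, hm]
    nlinarith [Nat.pos_of_ne_zero hm0]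
  calc ∑ x : ZMod q, x ^ (m * i) * ((-x) ^ t * ((m * j).choose t : ZMod q))
      = ((-1) ^ t * ((m * j).choose t : ZMod q)) * ∑ x : ZMod q, x ^ (m * i + t) := by
        rw [Finset.mul_sum]
        exact Finset.sum_congr rfl fun x _ => by rw [neg_pow x t, pow_add]; ring
    _ = 0 := by rw [FiniteField.sum_pow_lt_card_sub_one _ _ hlt, mul_zero]

omit [Fact p.Prime] [NumberField K] [IsCyclotomicExtension {p} ℚ K] in
theorem powerResidueChar_pow_ne_one {q : ℕ} [Fact q.Prime] (π : 𝓞 K →+* ZMod q) {m : ℕ}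
    (hm : q - 1 = p * m) {χ : MulChar (ZMod q) (𝓞 K)} (hχ : ∀ x, π (χ x) = x ^ m) {i : ℕ}
    (hi : ¬ p ∣ i) : χ ^ i ≠ 1 := by
  intro h
  have hall : ∀ x : (ZMod q)ˣ, x ^ (m * i) = 1 := fun x => by
    have h' := congrArg π (DFunLike.congr_fun h (x : ZMod q))
    rw [MulChar.pow_apply_coe, MulChar.one_apply_coe, map_pow, hχ, map_one, ← pow_mul] at h'
    exact Units.ext (by rw [Units.val_pow_eq_pow_val, h', Units.val_one])
  have h' := (FiniteField.forall_pow_eq_one_iff (ZMod q) (m * i)).mp hall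
  rw [ZMod.card, hm, mul_comm p m] at h'
  have hm0 : 0 < m := Nat.pos_of_ne_zero fun e => by
    subst e
    have := (Fact.out : q.Prime).two_le
    omega
  exact hi ((Nat.mul_dvd_mul_iff_left hm0).mp h')

omit [Fact p.Prime] [IsCyclotomicExtension {p} ℚ K] in
/-- The absolute value of a Jacobi sum. -/
theorem jacobiSum_mul_conj {q : ℕ} [Fact q.Prime] (π : 𝓞 K →+* ZMod q) {m : ℕ}
    (hm : q - 1 = p * m) {χ : MulChar (ZMod q) (𝓞 K)} (hpow : χ ^ p = 1)
    (hχ : ∀ x, π (χ x) = x ^ m) {i j : ℕ} (hi : 0 < i) (hip : i < p) (hj : 0 < j) (hjp : j < p)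
    (hij : i + j ≠ p) :
    jacobiSum (χ ^ i) (χ ^ j) * jacobiSum (χ ^ (p - i)) (χ ^ (p - j)) = (q : 𝓞 K) := by
  set f := algebraMap (𝓞 K) K
  have hinjf : Function.Injective f := RingOfIntegers.coe_injective
  apply hinjf
  rw [map_mul, map_natCast, ← jacobiSum_ringHomComp, ← jacobiSum_ringHomComp]
  simp only [← MulChar.ringHomComp_pow]
  set ψ := χ.ringHomComp f
  have hne : ∀ r : ℕ, ¬ p ∣ r → ψ ^ r ≠ 1 := fun r hr h => powerResidueChar_pow_ne_one π hm hχ hr
    (MulChar.ext fun x => hinjf (by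
      have h' := DFunLike.congr_fun h (x : ZMod q)
      rwa [MulChar.ringHomComp_pow, MulChar.ringHomComp_apply, MulChar.one_apply_coe,
        ← map_one f, ← MulChar.one_apply_coe (R' := 𝓞 K) x] at h'))
  have hψ : ψ ^ p = 1 := by rw [MulChar.ringHomComp_pow, hpow, MulChar.ringHomComp_one]
  have hinv : ∀ r ≤ p, ψ ^ (p - r) = (ψ ^ r)⁻¹ := fun r hr =>
    eq_inv_of_mul_eq_one_left (by rw [← pow_add, Nat.sub_add_cancel hr, hψ])
  rw [hinv i hip.le, hinv j hjp.le]
  have h := jacobiSum_mul_jacobiSum_inv (χ := ψ ^ i) (φ := ψ ^ j)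
    (by rw [ringChar.eq_zero, ZMod.ringChar_zmod_n]; exact (Fact.out : q.Prime).ne_zero.symm)
    (hne i fun h => by have := Nat.le_of_dvd hi h; omega)
    (hne j fun h => by have := Nat.le_of_dvd hj h; omega)
    (by
      rw [← pow_add]
      refine hne _ fun h => ?_
      obtain ⟨t, ht⟩ := h
      rcases t with _ | _ | t
      · omega
      · omega
      · nlinarith)
  rw [h, ZMod.card]

variable (p K)

/-- The class of the conjugate `σ_d⁻¹ v`. -/
def conjClass (v : HeightOneSpectrum (𝓞 K)) (d : (ZMod p)ˣ) : ClassGroup (𝓞 K) :=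
  ClassGroup.mk0 (primeIdeal (conjPrime (sigma p K d⁻¹) v))

/-- The Jacobi sums give relations between the classes. -/
theorem prod_conjClass_pow_eq_one_step (v : HeightOneSpectrum (𝓞 K))
    (hvp : (p : 𝓞 K) ∉ v.asIdeal) (hv : (Ideal.absNorm v.asIdeal).Prime) {j : ℕ} (hj : 0 < j)
    (hjp : j + 1 < p) :
    ∏ d : (ZMod p)ˣ, conjClass p K v d ^
      ((j + 1) * (d : ZMod p).val / p - j * (d : ZMod p).val / p) = 1 := by
  have hp : p.Prime := Fact.out
  have : NeZero p := ⟨hp.ne_zero⟩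
  set q := Ideal.absNorm v.asIdeal with hq
  have : Fact q.Prime := ⟨hv⟩
  obtain ⟨m, hm⟩ := dvd_absNorm_sub_one (zetaInt_spec p K) v hvp
  rw [← hq] at hm
  obtain ⟨π, hπ⟩ := exists_residue_hom (K := K) (q := q) (v := v.asIdeal) rfl
  obtain ⟨χ, hpow, hχ, hσ⟩ := exists_powerResidueChar v hvp π hπ hm
  have hmod : ∀ n : ℕ, χ ^ n = χ ^ (n % p) := fun n => pow_eq_pow_mod n hpow
  set w : (ZMod p)ˣ → Ideal (𝓞 K) := fun d => (conjPrime (sigma p K d⁻¹) v).asIdeal
  set J := jacobiSum (χ ^ 1) (χ ^ j)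
  set J' := jacobiSum (χ ^ (p - 1)) (χ ^ (p - j))
  have hJJ : J * J' = (q : 𝓞 K) :=
    jacobiSum_mul_conj π hm hpow hχ one_pos hp.one_lt hj (by omega) (by omega)
  set e : (ZMod p)ˣ → ℕ := fun d => (j + 1) * (d : ZMod p).val / p - j * (d : ZMod p).val / p
  have hmem : ∀ (d : (ZMod p)ˣ) (x : 𝓞 K), x ∈ w d ↔ sigma p K d x ∈ v.asIdeal := fun d x => by
    rw [mem_conjPrime, sigma_symm_apply, inv_inv]
  have hσJ : ∀ (d : (ZMod p)ˣ) (a b : ℕ), sigma p K d (jacobiSum (χ ^ a) (χ ^ b)) =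
      jacobiSum (χ ^ ((d : ZMod p).val * a % p)) (χ ^ ((d : ZMod p).val * b % p)) := fun d a b => by
    show (sigma p K d).toRingHom (jacobiSum (χ ^ a) (χ ^ b)) = _
    rw [← jacobiSum_ringHomComp, ← MulChar.ringHomComp_pow,
      ← MulChar.ringHomComp_pow, hσ, ← pow_mul, ← pow_mul, hmod, hmod ((d : ZMod p).val * b)]
  have key : ∀ d : (ZMod p)ˣ, (e d = 0 → J ∈ w d) ∧ (e d ≠ 0 → e d = 1 ∧ J' ∈ w d) := by
    intro d
    set a := (d : ZMod p).val with ha
    have ha0 : 0 < a := Nat.pos_of_ne_zero ((ZMod.val_ne_zero _).mpr d.ne_zero)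
    have hap : a < p := ZMod.val_lt _
    have hnd : ∀ r, 0 < r → r < p → a * r % p ≠ 0 := fun r h0 hr h => by
      rcases hp.dvd_mul.mp (Nat.dvd_of_mod_eq_zero h) with h | h <;>
        have := Nat.le_of_dvd (by omega) h <;> omega
    have hr := Nat.mod_lt (a * j) hp.pos
    have hr0 := hnd j hj (by omega)
    have hrp : a + a * j % p ≠ p := fun h => hnd (j + 1) (by omega) hjp (by
      rw [show a * (j + 1) = a + a * j by ring, Nat.add_mod, Nat.mod_eq_of_lt hap, h, Nat.mod_self])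
    have he : e d = (a + a * j % p) / p := by
      have h1 : (j + 1) * a = a + a * j % p + p * (a * j / p) := by
        linarith [Nat.mod_add_div (a * j) p, show (j + 1) * a = a + a * j by ring]
      show (j + 1) * a / p - j * a / p = _
      rw [h1, Nat.add_mul_div_left _ _ hp.pos, mul_comm j a, Nat.add_sub_cancel]
    have hneg : ∀ r, 0 < r → r < p → a * (p - r) % p = p - a * r % p := fun r h0 hr' => by
      have h1 := hnd r h0 hr'
      have h2 := hnd (p - r) (by omega) (by omega)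
      have h3 : (a * (p - r) % p + a * r % p) % p = 0 := by
        rw [← Nat.add_mod, ← mul_add, Nat.sub_add_cancel hr'.le, Nat.mul_mod_left]
      have h4 : a * (p - r) % p < p := Nat.mod_lt _ hp.pos
      have h5 : a * r % p < p := Nat.mod_lt _ hp.pos
      obtain ⟨t, ht⟩ := Nat.dvd_of_mod_eq_zero h3
      rcases t with _ | _ | t
      · omega
      · omega
      · nlinarith
    have h1 : a * 1 % p = a := by rw [mul_one, Nat.mod_eq_of_lt hap]
    refine ⟨fun h => ?_, fun h => ⟨?_, ?_⟩⟩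
    · rw [hmem, hσJ, ← ha, h1]
      refine jacobiSum_mem π hπ hm hχ ha0.ne' hr0 ?_
      rw [he, Nat.div_eq_zero_iff] at h
      omega
    · rw [he] at h ⊢
      have : (a + a * j % p) / p < 2 := Nat.div_lt_of_lt_mul (by omega)
      omega
    · rw [hmem, hσJ, ← ha, hneg 1 one_pos hp.one_lt, hneg j hj (by omega), h1]
      refine jacobiSum_mem π hπ hm hχ (by omega) (by omega) ?_
      rw [he, Ne, Nat.div_eq_zero_iff, not_or, not_lt] at h
      omega
  set S := (Finset.univ : Finset (ZMod p)ˣ).filter fun d => e d = 0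
  set S' := (Finset.univ : Finset (ZMod p)ˣ).filter fun d => ¬ e d = 0
  have hinj : Function.Injective w := fun d d' h =>
    inv_injective (conjPrime_injective p v hvp hv (HeightOneSpectrum.ext h))
  have hdvd : ∀ (s : Finset (ZMod p)ˣ) (x : 𝓞 K), (∀ d ∈ s, x ∈ w d) →
      ∏ d ∈ s, w d ∣ Ideal.span {x} := fun s x hx => by
    rw [← Finset.prod_image (f := fun I : Ideal (𝓞 K) => I) hinj.injOn]
    refine Finset.prod_primes_dvd _ ?_ ?_ <;> intro I hI <;>
      obtain ⟨d, hd, rfl⟩ := Finset.mem_image.mp hI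
    · exact (conjPrime _ v).prime
    · exact Ideal.dvd_span_singleton.mpr (hx d hd)
  obtain ⟨X, hX⟩ := hdvd S J fun d hd => (key d).1 (Finset.mem_filter.mp hd).2
  obtain ⟨Y, hY⟩ := hdvd S' J' fun d hd => ((key d).2 (Finset.mem_filter.mp hd).2).2
  have htot : (∏ d ∈ S, w d) * ∏ d ∈ S', w d = Ideal.span {(q : 𝓞 K)} := by
    rw [Finset.prod_filter_mul_prod_filter_not, ← prod_conjPrime p v hvp hv]
    exact Fintype.prod_equiv (Equiv.inv _) _ _ fun d => rfl
  have hXY : X * Y = 1 := by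
    refine mul_left_cancel₀ (a := Ideal.span {(q : 𝓞 K)}) ?_ ?_
    · simp [hv.ne_zero]
    · rw [mul_one]
      nth_rewrite 1 [← htot]
      rw [← hJJ, ← Ideal.span_singleton_mul_span_singleton, hX, hY]
      ring
  rw [eq_one_of_mul_left hXY, mul_one] at hY
  have hB0 : (∏ d ∈ S', w d) ≠ ⊥ := Finset.prod_ne_zero_iff.mpr fun d _ => (conjPrime _ v).ne_bot
  calc ∏ d : (ZMod p)ˣ, conjClass p K v d ^ e d
      = ∏ d ∈ S', conjClass p K v d := by
        rw [← Finset.prod_filter_mul_prod_filter_not Finset.univ (fun d => e d = 0),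
          Finset.prod_eq_one (s := S) fun d hd => by rw [(Finset.mem_filter.mp hd).2, pow_zero],
          one_mul]
        exact Finset.prod_congr rfl fun d hd => by
          rw [((key d).2 (Finset.mem_filter.mp hd).2).1, pow_one]
    _ = ClassGroup.mk0 ⟨∏ d ∈ S', w d, mem_nonZeroDivisors_iff_ne_zero.mpr hB0⟩ := by
        simp only [conjClass]
        rw [← map_prod]
        congr 1
        exact Subtype.ext (by rw [SubmonoidClass.coe_finsetProd]; rfl)
    _ = 1 := (ClassGroup.mk0_eq_one_iff _).mpr ⟨⟨J', hY.symm⟩⟩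

/-- **Stickelberger's relation.** -/
theorem stickelberger_relation (v : HeightOneSpectrum (𝓞 K)) (hvp : (p : 𝓞 K) ∉ v.asIdeal)
    (hv : (Ideal.absNorm v.asIdeal).Prime) :
    ∀ b : ℕ, b < p → ∏ d : (ZMod p)ˣ, conjClass p K v d ^ (b * (d : ZMod p).val / p) = 1 := by
  have : NeZero p := ⟨(Fact.out : p.Prime).ne_zero⟩
  intro b
  induction b with
  | zero => intro _; simp
  | succ j ih =>
    intro hj
    rcases Nat.eq_zero_or_pos j with rfl | hj0
    · exact Finset.prod_eq_one fun d _ => by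
        rw [zero_add, one_mul, Nat.div_eq_of_lt (ZMod.val_lt _), pow_zero]
    · have h := prod_conjClass_pow_eq_one_step p K v hvp hv hj0 hj
      calc _ = (∏ d : (ZMod p)ˣ, conjClass p K v d ^ (j * (d : ZMod p).val / p)) *
            ∏ d : (ZMod p)ˣ, conjClass p K v d ^
              ((j + 1) * (d : ZMod p).val / p - j * (d : ZMod p).val / p) := by
            rw [← Finset.prod_mul_distrib]
            refine Finset.prod_congr rfl fun d _ => ?_
            rw [← pow_add, Nat.add_sub_cancel' (Nat.div_le_div_right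
              (Nat.mul_le_mul_right _ (Nat.le_succ j)))]
        _ = 1 := by rw [ih (by omega), h, one_mul]

end FA.Ext
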