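import Fermat.Agent.ExtVanish.EigenPrincipal
import Mathlib.NumberTheory.NumberField.Cyclotomic.Three
import Mathlib.NumberTheory.NumberField.Cyclotomic.PID

/-!
# Eigen elements are `p`-th powers
-/

set_option autoImplicit false

noncomputable section

open NumberField IsDedekindDomain
open scoped Classical nonZeroDivisors

namespace FA.Ext

variable (p : ℕ) [Fact p.Prime] (K : Type*) [Field K] [NumberField K]
  [IsCyclotomicExtension {p} ℚ K]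

/-- `b` is an eigen element of weight two modulo `p`-th powers. -/
def EigenTwo (b : 𝓞 K) : Prop :=
  ∀ d : (ZMod p)ˣ, ∃ k₁ k₂ : 𝓞 K, k₁ ≠ 0 ∧ k₂ ≠ 0 ∧
    sigma p K d b * k₂ ^ p = b ^ ((d : ZMod p) ^ 2).val * k₁ ^ p

theorem isPrincipal_of_eigen (h3 : 3 ≤ p) {b : 𝓞 K} (hb0 : b ≠ 0) (heig : EigenTwo p K b)
    {𝔟 : Ideal (𝓞 K)} (h𝔟 : Ideal.span {b} = 𝔟 ^ p) : ∃ a, 𝔟 = Ideal.span {a} := by
  have hp : p.Prime := Fact.out
  have h𝔟0 : 𝔟 ≠ 0 := fun h => hb0 (Ideal.span_singleton_eq_bot.mp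
    (by rw [h𝔟, h, zero_pow hp.ne_zero]; rfl))
  rcases (show p = 3 ∨ p = 4 ∨ 5 ≤ p by omega) with rfl | rfl | h5
  · have := IsCyclotomicExtension.Rat.three_pid K
    obtain ⟨a, ha⟩ := IsPrincipalIdealRing.principal 𝔟
    exact ⟨a, ha⟩
  · exact absurd hp (by decide)
  let I : (Ideal (𝓞 K))⁰ := ⟨𝔟, mem_nonZeroDivisors_iff_ne_zero.mpr h𝔟0⟩
  suffices h : ClassGroup.mk0 I = 1 by
    obtain ⟨a, ha⟩ := (ClassGroup.mk0_eq_one_iff I.2).mp h
    exact ⟨a, ha⟩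
  refine eq_one_of_eigen p K h5 ?_ fun d => ?_
  · rw [← map_pow]
    exact (ClassGroup.mk0_eq_one_iff (SetLike.coe_mem (I ^ p))).mpr ⟨b, h𝔟.symm⟩
  · set n := ((d : ZMod p) ^ 2).val
    obtain ⟨k₁, k₂, hk₁, hk₂, hk⟩ := heig d
    have hJ0 : 𝔟.map (sigma p K d : 𝓞 K →+* 𝓞 K) ≠ 0 := fun h =>
      h𝔟0 ((Ideal.map_eq_bot_iff_of_injective (sigma p K d).injective).mp h)
    let J : (Ideal (𝓞 K))⁰ := ⟨_, mem_nonZeroDivisors_iff_ne_zero.mpr hJ0⟩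
    rw [sigmaCl_mk0 p K d I J rfl, ← map_pow, ClassGroup.mk0_eq_mk0_iff]
    refine ⟨k₂, k₁, hk₂, hk₁, ?_⟩
    have h1 : (Ideal.span {k₂} * J.1) ^ p = (Ideal.span {k₁} * 𝔟 ^ n) ^ p := by
      rw [mul_pow, mul_pow, pow_right_comm, ← h𝔟, ← Ideal.map_pow, ← h𝔟, Ideal.map_span,
        Set.image_singleton, RingHom.coe_coe, Ideal.span_singleton_pow, Ideal.span_singleton_pow,
        Ideal.span_singleton_pow, Ideal.span_singleton_mul_span_singleton,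
        Ideal.span_singleton_mul_span_singleton, mul_comm (k₂ ^ p), hk, mul_comm (k₁ ^ p)]
    simp only [SubmonoidClass.coe_pow]
    exact (IsMulTorsionFree.pow_left_injective hp.ne_zero) h1

omit [Fact p.Prime] [NumberField K] [IsCyclotomicExtension {p} ℚ K] in
theorem exists_unit_pow_eq [Fact p.Prime] {u : (𝓞 K)ˣ} {y : K} (hy : y ^ p = ((u : 𝓞 K) : K)) :
    ∃ w : (𝓞 K)ˣ, w ^ p = u ∧ ((w : 𝓞 K) : K) = y := by
  have hp : p.Prime := Fact.out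
  have hint : IsIntegral ℤ y :=
    IsIntegral.of_pow hp.pos (hy.symm ▸ RingOfIntegers.isIntegral_coe (u : 𝓞 K))
  let y' : 𝓞 K := ⟨y, hint⟩
  have hy' : y' ^ p = (u : 𝓞 K) := RingOfIntegers.ext hy
  have hu : IsUnit y' := (isUnit_pow_iff hp.ne_zero).mp (hy' ▸ Units.isUnit u)
  exact ⟨hu.unit, Units.ext (by rw [Units.val_pow_eq_pow_val, IsUnit.unit_spec, hy']),
    by rw [IsUnit.unit_spec]; rfl⟩

theorem unit_eigen (b : 𝓞 K) (hb0 : b ≠ 0) (heig : EigenTwo p K b) {u : (𝓞 K)ˣ} {a : 𝓞 K}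
    (hb : b = u * a ^ p) (d : (ZMod p)ˣ) :
    ∃ w : (𝓞 K)ˣ, sigmaU p K d u = u ^ ((d : ZMod p) ^ 2).val * w ^ p := by
  have hp : p.Prime := Fact.out
  set n := ((d : ZMod p) ^ 2).val
  obtain ⟨k₁, k₂, hk₁, hk₂, hk⟩ := heig d
  have ha : a ≠ 0 := fun h => hb0 (by rw [hb, h, zero_pow hp.ne_zero, mul_zero])
  have hsa : sigma p K d a ≠ 0 := by simpa using ha
  set v := sigmaU p K d u * (u ^ n)⁻¹
  have key : ((v : 𝓞 K)) * (sigma p K d a * k₂) ^ p = (a ^ n * k₁) ^ p := by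
    have h1 : (sigma p K d (u : 𝓞 K)) * (sigma p K d a * k₂) ^ p =
        (u : 𝓞 K) ^ n * (a ^ n * k₁) ^ p := by
      rw [mul_pow, mul_pow, ← map_pow, ← mul_assoc, ← map_mul, ← hb, hk, hb, mul_pow,
        ← pow_mul, ← pow_mul, mul_comm n p, mul_assoc]
    refine mul_left_cancel₀ ((u ^ n).ne_zero) ?_
    rw [← mul_assoc, ← Units.val_mul, mul_comm (u ^ n) v, inv_mul_cancel_right,
      Units.val_pow_eq_pow_val, sigmaU_coe, h1]
  obtain ⟨w, hw, -⟩ := exists_unit_pow_eq p K (u := v)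
    (y := ((a ^ n * k₁ : 𝓞 K) : K) / ((sigma p K d a * k₂ : 𝓞 K) : K)) (by
      have hne : ((sigma p K d a * k₂ : 𝓞 K) : K) ≠ 0 := by
        simpa using mul_ne_zero hsa hk₂
      rw [div_pow, div_eq_iff (pow_ne_zero _ hne), ← map_pow, ← map_pow, ← map_mul, key])
  exact ⟨w, by rw [hw, mul_comm, inv_mul_cancel_right]⟩

theorem eq_pow_of_eigen_three (hp3 : p = 3) {b : 𝓞 K} (hb0 : b ≠ 0) (heig : EigenTwo p K b)
    {u : (𝓞 K)ˣ} {a : 𝓞 K} (hb : b = u * a ^ p) : ∃ a', b = a' ^ p := by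
  subst hp3
  obtain ⟨w, hw⟩ := unit_eigen 3 K b hb0 heig hb (-1)
  set hζ := IsCyclotomicExtension.zeta_spec 3 ℚ K
  set η : (𝓞 K)ˣ := (hζ.toInteger_isPrimitiveRoot.isUnit (by decide)).unit
  have hη3 : η ^ 3 = 1 := Units.ext (by
    rw [Units.val_pow_eq_pow_val, IsUnit.unit_spec, hζ.toInteger_isPrimitiveRoot.pow_eq_one]
    rfl)
  have hone : ((((-1 : (ZMod 3)ˣ) : ZMod 3)) ^ 2).val = 1 := by
    rw [Units.val_neg, Units.val_one, neg_one_sq, ZMod.val_one]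
  rw [hone, pow_one] at hw
  have hsix : ∀ x : (𝓞 K)ˣ, x = 1 ∨ x = -1 ∨ x = η ∨ x = -η ∨ x = η ^ 2 ∨ x = -η ^ 2 :=
    fun x => by
      have hx := IsCyclotomicExtension.Rat.Three.Units.mem hζ x
      simp only [List.mem_cons, List.not_mem_nil, or_false] at hx
      exact hx
  have hcube : ∀ x : (𝓞 K)ˣ, (x ^ 3) ^ 2 = 1 := fun x => by
    have h6 : η ^ 6 = 1 := by rw [show 6 = 3 * 2 from rfl, pow_mul, hη3, one_pow]
    have h62 : (η ^ 2) ^ 6 = 1 := by rw [← pow_mul, mul_comm, pow_mul, h6, one_pow]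
    rw [← pow_mul]
    rcases hsix x with rfl | rfl | rfl | rfl | rfl | rfl <;>
      simp [h6, h62, Even.neg_pow (show Even 6 by decide)]
  have hsη : sigmaU 3 K (-1) η = η ^ 2 := Units.ext (by
    rw [sigmaU_coe, Units.val_pow_eq_pow_val, IsUnit.unit_spec]
    exact (sigma_zetaInt 3 K (-1)).trans rfl)
  suffices hu : ∃ x : (𝓞 K)ˣ, u = x ^ 3 by
    obtain ⟨x, rfl⟩ := hu
    exact ⟨(x : 𝓞 K) * a, by rw [hb, mul_pow, Units.val_pow_eq_pow_val]⟩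
  have hη1 : η ≠ 1 := fun h => hζ.toInteger_isPrimitiveRoot.ne_one (by decide) (by
    rw [← IsUnit.unit_spec (hζ.toInteger_isPrimitiveRoot.isUnit (by decide : 3 ≠ 0))]
    exact congrArg Units.val h)
  have hfix : sigmaU 3 K (-1) (u ^ 2) = u ^ 2 := by
    rw [map_pow, hw, mul_pow, hcube, mul_one]
  have hη4 : (η ^ 2) ^ 2 = η := by rw [← pow_mul, pow_succ, hη3, one_mul]
  have hne : η ^ 2 ≠ η := fun h => hη1 (mul_left_cancel (a := η) (by rw [← sq, h, mul_one]))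
  have hcase : u = 1 ∨ u = -1 := by
    rcases hsix u with rfl | rfl | rfl | rfl | rfl | rfl
    · exact Or.inl rfl
    · exact Or.inr rfl
    all_goals
      exfalso
      simp only [neg_sq, map_pow, hsη, hη4] at hfix
    · exact hne hfix.symm
    · exact hne hfix.symm
    · exact hne hfix
    · exact hne hfix
  rcases hcase with rfl | rfl
  · exact ⟨1, (one_pow 3).symm⟩
  · exact ⟨-1, by rw [Odd.neg_one_pow (by decide)]⟩

theorem psi_eq_one_of_torsion_pow (h5 : 5 ≤ p) {t : (𝓞 K)ˣ} (ht : t ∈ Units.torsion K)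
    (h : psi1 p K h5 t = 1) : ∃ x : (𝓞 K)ˣ, t = x ^ p := by
  have hp : p.Prime := Fact.out
  obtain ⟨r, hr⟩ := torsion_eq_neg_zeta_pow K p (by omega) ht
  let zu : (𝓞 K)ˣ := ((zetaInt_spec p K).isUnit hp.ne_zero).unit
  have ht' : t = (-zu) ^ r := Units.ext (by
    rw [hr, Units.val_pow_eq_pow_val, Units.val_neg, IsUnit.unit_spec])
  have hz : psi1 p K h5 (-zu) = Multiplicative.ofAdd (1 : ZMod p) := by
    change Multiplicative.ofAdd (Trunc3.dlog1 (truncHom p K h5 (-zu : 𝓞 K))) = _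
    rw [IsUnit.unit_spec, map_neg, truncHom_zetaInt]
    simp [Trunc3.dlog1, Trunc3.expT]
  rw [ht', map_pow, hz, ← ofAdd_nsmul, ofAdd_eq_one, nsmul_eq_mul, mul_one,
    ZMod.natCast_eq_zero_iff] at h
  obtain ⟨m, rfl⟩ := h
  exact ⟨(-zu) ^ m, by rw [ht', ← pow_mul, mul_comm]⟩

/-- The main theorem on eigen elements. -/
theorem eq_pow_of_eigen (h3 : 3 ≤ p) {b : 𝓞 K} (hb0 : b ≠ 0) (heig : EigenTwo p K b)
    (hideal : ∃ 𝔟 : Ideal (𝓞 K), Ideal.span {b} = 𝔟 ^ p)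
    (hloc : ∀ (u : (𝓞 K)ˣ) (a : 𝓞 K), b = u * a ^ p →
      ∃ y : 𝓞 K, (zetaInt p K - 1) ^ 3 ∣ (u : 𝓞 K) - y ^ p) :
    ∃ a, b = a ^ p := by
  have hp : p.Prime := Fact.out
  obtain ⟨𝔟, h𝔟⟩ := hideal
  obtain ⟨a, rfl⟩ := isPrincipal_of_eigen p K h3 hb0 heig h𝔟
  rw [Ideal.span_singleton_pow, Ideal.span_singleton_eq_span_singleton] at h𝔟
  obtain ⟨u', hu'⟩ := h𝔟.symm
  have hb : b = (u' : 𝓞 K) * a ^ p := by rw [← hu', mul_comm]
  rcases (show p = 3 ∨ p = 4 ∨ 5 ≤ p by omega) with h | h | h5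
  · exact eq_pow_of_eigen_three p K h hb0 heig hb
  · exact absurd (h ▸ hp) (by decide)
  obtain ⟨γ, hγ⟩ := IsCyclic.exists_generator (α := (ZMod p)ˣ)
  obtain ⟨k, t, w, ht, hu⟩ := exists_eq_torsion_mul_pow K p hγ ((γ : ZMod p) ^ 2).val
    (u := u') (e := epsUnit p K h5) (unit_eigen p K b hb0 heig hb γ) (epsUnit_eigen p K h5 γ)
    fun t w ht he => psi2_epsUnit_ne_one p K h5 (by
      rw [he, map_mul, psi2_torsion K p h5 ht, psi_pow, one_mul])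
  obtain ⟨y, hy⟩ := hloc u' a hb
  obtain ⟨hl1, hl2⟩ := psi_eq_one_of_local p K h5 u' hy
  rw [hu, map_mul, map_mul, psi_pow, psi2_torsion K p h5 ht, one_mul, mul_one, map_pow] at hl2
  have hk : p ∣ k := by
    have h1 := congrArg Multiplicative.toAdd hl2
    rw [toAdd_pow, toAdd_one, nsmul_eq_mul] at h1
    have h2 : Multiplicative.toAdd (psi2 p K h5 (epsUnit p K h5)) ≠ 0 :=
      fun h => psi2_epsUnit_ne_one p K h5 (toAdd_eq_zero.mp h)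
    exact (ZMod.natCast_eq_zero_iff k p).mp ((mul_eq_zero.mp h1).resolve_right h2)
  obtain ⟨m, rfl⟩ := hk
  rw [hu, map_mul, map_mul, psi_pow, mul_one, mul_comm p m, pow_mul, psi_pow, mul_one] at hl1
  obtain ⟨x, rfl⟩ := psi_eq_one_of_torsion_pow p K h5 ht hl1
  refine ⟨((x * epsUnit p K h5 ^ m * w : (𝓞 K)ˣ) : 𝓞 K) * a, ?_⟩
  rw [hb, mul_pow, ← Units.val_pow_eq_pow_val, mul_pow, mul_pow, ← pow_mul, mul_comm m p, ← hu]

end FA.Ext
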