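import Fermat.Agent.ExtVanish.Euler
import Mathlib.FieldTheory.KummerPolynomial
import Mathlib.FieldTheory.KummerExtension
import Mathlib.RingTheory.Ideal.Norm.RelNorm

/-!
# Primes modulo which a given number is a `p`-th power residue

If `ε` is not a `p`-th power in `K ∋ ζ_p`, the degree one primes modulo which `ε` is a `p`-th power
residue split completely in `K(ε^(1/p))`, so have density at most `1/p`.
-/

set_option autoImplicit false

noncomputable section

open NumberField IsDedekindDomain Polynomial Module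
open scoped nonZeroDivisors Classical

namespace FA.Ext

variable {K : Type*} [Field K] [NumberField K] {F : Type*} [Field F] [NumberField F] [Algebra K F]

theorem absNorm_map_ringEquiv (e : 𝓞 F ≃+* 𝓞 F) (I : Ideal (𝓞 F)) :
    Ideal.absNorm (I.map (e : 𝓞 F →+* 𝓞 F)) = Ideal.absNorm I := by
  simp only [Ideal.absNorm_apply, Submodule.cardQuot_apply]
  exact (Nat.card_congr (Ideal.quotientEquiv I _ e rfl).toEquiv).symm

/-- Splitting of a residue prime in a Kummer extension. -/
theorem exists_split_primes {p : ℕ} [Fact p.Prime] (hdeg : finrank K F = p) {ζ : 𝓞 K}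
    (hζ : IsPrimitiveRoot ζ p) {β : 𝓞 F} {ε : 𝓞 K} (hβ : β ^ p = algebraMap (𝓞 K) (𝓞 F) ε)
    (τ : F ≃ₐ[K] F) (hτ : τ β = algebraMap K F ζ * β)
    (v : HeightOneSpectrum (𝓞 K)) (hvp : (p : 𝓞 K) ∉ v.asIdeal) (hvε : ε ∉ v.asIdeal)
    (hv : (Ideal.absNorm v.asIdeal).Prime) {a : 𝓞 K} (ha : ε - a ^ p ∈ v.asIdeal) :
    ∃ P : Fin p → HeightOneSpectrum (𝓞 F), Function.Injective P ∧ ∀ i,
      Ideal.absNorm (P i).asIdeal = Ideal.absNorm v.asIdeal ∧
      v.asIdeal.map (algebraMap (𝓞 K) (𝓞 F)) ≤ (P i).asIdeal := by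
  have hp : p.Prime := Fact.out
  set f := algebraMap (𝓞 K) (𝓞 F)
  set vF : Ideal (𝓞 F) := v.asIdeal.map f with hvF
  set J : ℕ → Ideal (𝓞 F) := fun i => vF ⊔ Ideal.span {β - f (a * ζ ^ i)} with hJ
  have haNot : a ∉ v.asIdeal := fun h => hvε (by
    have := v.asIdeal.add_mem ha (v.asIdeal.pow_mem_of_mem h p hp.pos)
    rwa [sub_add_cancel] at this)
  -- the differences of the `a ζ^i` are units modulo `v`
  have hcop : ∀ i < p, ∀ j < p, i ≠ j → IsCoprime (J i) (J j) := by
    intro i hi j hj hij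
    rw [Ideal.isCoprime_iff_sup_eq]
    have hd : a * ζ ^ j - a * ζ ^ i ∉ v.asIdeal := by
      rw [← mul_sub]
      refine fun h => (v.isPrime.mem_or_mem h).elim haNot fun h' => hvp ?_
      have hprod := hζ.pow_sub_pow_eq_prod_sub_mul (ζ ^ j) 1 hp.pos
      obtain ⟨n, hn, hn0, hdvd⟩ : ∃ n, n < p ∧ n ≠ 0 ∧ (1 - ζ ^ n) ∈ v.asIdeal := by
        rcases lt_or_gt_of_ne hij with hlt | hlt
        · refine ⟨j - i, by omega, by omega, ?_⟩
          have h2 : ζ ^ i * (1 - ζ ^ (j - i)) ∈ v.asIdeal := by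
            rw [mul_sub, mul_one, ← pow_add, Nat.add_sub_cancel' hlt.le]
            rw [← neg_sub]; exact v.asIdeal.neg_mem h'
          exact (v.isPrime.mem_or_mem h2).resolve_left fun hz =>
            v.isPrime.ne_top (Ideal.eq_top_of_isUnit_mem _ hz ((hζ.isUnit hp.ne_zero).pow i))
        · refine ⟨i - j, by omega, by omega, ?_⟩
          have h2 : ζ ^ j * (1 - ζ ^ (i - j)) ∈ v.asIdeal := by
            rw [mul_sub, mul_one, ← pow_add, Nat.add_sub_cancel' hlt.le]
            exact h'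
          exact (v.isPrime.mem_or_mem h2).resolve_left fun hz =>
            v.isPrime.ne_top (Ideal.eq_top_of_isUnit_mem _ hz ((hζ.isUnit hp.ne_zero).pow j))
      have hζn : IsPrimitiveRoot (ζ ^ n) p :=
        hζ.pow_of_coprime n ((hp.coprime_iff_not_dvd.mpr fun hd =>
          absurd (Nat.le_of_dvd (by omega) hd) (by omega)).symm)
      -- `p = ∏ (1 - ζ^(n k))`
      have hev := Polynomial.eval_one_cyclotomic_prime (R := 𝓞 K) (p := p)
      rw [Polynomial.cyclotomic_eq_prod_X_sub_primitiveRoots hζn, Polynomial.eval_prod] at hev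
      rw [← hev, Finset.prod_eq_mul_prod_sdiff_singleton_of_mem
        ((mem_primitiveRoots hp.pos).mpr hζn)]
      exact v.asIdeal.mul_mem_right _ (by simpa using hdvd)
    obtain ⟨r, x, hx, hrx⟩ := v.isMaximal.exists_inv hd
    rw [Ideal.eq_top_iff_one, show (1 : 𝓞 F) =
      f r * ((β - f (a * ζ ^ i)) - (β - f (a * ζ ^ j))) + f x by
        rw [← map_one f, ← hrx, map_add, map_mul, map_sub]; ring]
    refine Ideal.add_mem _ (Ideal.mul_mem_left _ _ (Ideal.sub_mem _ ?_ ?_)) ?_
    · exact Ideal.mem_sup_left (Ideal.mem_sup_right (Ideal.mem_span_singleton_self _))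
    · exact Ideal.mem_sup_right (Ideal.mem_sup_right (Ideal.mem_span_singleton_self _))
    · exact Ideal.mem_sup_left (Ideal.mem_sup_left (Ideal.mem_map_of_mem f hx))
  have hprodJ : ∏ i ∈ Finset.range p, J i = vF := by
    refine le_antisymm ?_ ?_
    · -- every product of generators lies in `vF`
      suffices H : ∀ s : Finset ℕ, ∏ i ∈ s, J i ≤
          vF ⊔ Ideal.span {∏ i ∈ s, (β - f (a * ζ ^ i))} by
        refine (H _).trans (sup_le le_rfl ((Ideal.span_singleton_le_iff_mem _).mpr ?_))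
        have h2 : ∏ i ∈ Finset.range p, (β - f (a * ζ ^ i)) = f (ε - a ^ p) := by
          rw [map_sub, map_pow, ← hβ]
          have hζF : IsPrimitiveRoot (f ζ) p :=
            hζ.map_of_injective (FaithfulSMul.algebraMap_injective (𝓞 K) (𝓞 F))
          rw [hζF.pow_sub_pow_eq_prod_sub_mul β (f a) hp.pos]
          refine Finset.prod_bij (fun i _ => f ζ ^ i)
            (fun i _ => (Polynomial.mem_nthRootsFinset hp.pos (1 : 𝓞 F)).mpr
              (by rw [← pow_mul, mul_comm, pow_mul, hζF.pow_eq_one, one_pow]))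
            (fun i hi j hj h => hζF.pow_inj (Finset.mem_range.mp hi) (Finset.mem_range.mp hj) h)
            (fun μ hμ => ?_) (fun i _ => by simp [mul_comm])
          have : NeZero p := ⟨hp.ne_zero⟩
          obtain ⟨i, hi, rfl⟩ :=
            hζF.eq_pow_of_pow_eq_one ((Polynomial.mem_nthRootsFinset hp.pos (1 : 𝓞 F)).mp hμ)
          exact ⟨i, Finset.mem_range.mpr hi, rfl⟩
        rw [h2]
        exact Ideal.mem_map_of_mem f ha
      intro s
      induction s using Finset.induction_on with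
      | empty => simp
      | @insert i s hi ih =>
        rw [Finset.prod_insert hi, Finset.prod_insert hi, ← Ideal.span_singleton_mul_span_singleton]
        refine (Ideal.mul_mono le_rfl ih).trans ?_
        rw [hJ, Ideal.sup_mul, Ideal.mul_sup]
        refine sup_le (le_sup_of_le_left (sup_le Ideal.mul_le_left Ideal.mul_le_left)) ?_
        rw [Ideal.mul_sup]
        exact sup_le (le_sup_of_le_left Ideal.mul_le_right) (le_sup_of_le_right le_rfl)
    · rw [Ideal.prod_eq_iInf_of_pairwise_isCoprime fun i hi j hj hij =>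
        hcop i (Finset.mem_range.mp hi) j (Finset.mem_range.mp hj) hij]
      exact le_iInf₂ fun i _ => le_sup_left
  -- the automorphism permutes the `J i`
  let e : 𝓞 F ≃+* 𝓞 F := RingOfIntegers.mapRingEquiv τ.toRingEquiv
  have hef : ∀ x : 𝓞 K, e (f x) = f x := fun x => RingOfIntegers.ext (τ.commutes (x : K))
  have heβ : e β = f ζ * β := RingOfIntegers.ext hτ
  have hstep : ∀ i, (J (i + 1)).map (e : 𝓞 F →+* 𝓞 F) = J i := by
    intro i
    rw [hJ]
    simp only [Ideal.map_sup, Ideal.map_span, Set.image_singleton]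
    congr 1
    · rw [hvF, Ideal.map_map]
      congr 1
      exact RingHom.ext hef
    · rw [show (e : 𝓞 F →+* 𝓞 F) (β - f (a * ζ ^ (i + 1))) = f ζ * (β - f (a * ζ ^ i)) by
        change e (β - f (a * ζ ^ (i + 1))) = _
        rw [map_sub, hef, heβ, pow_succ, map_mul, map_mul, map_mul]; ring]
      exact Ideal.span_singleton_mul_left_unit ((hζ.isUnit hp.ne_zero).map f) _
  have hnorm : ∀ i, Ideal.absNorm (J i) = Ideal.absNorm (J 0) := by
    intro i
    induction i with
    | zero => rfl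
    | succ i ih => rw [← ih, ← hstep i, absNorm_map_ringEquiv]
  have hN : ∀ i, Ideal.absNorm (J i) = Ideal.absNorm v.asIdeal := by
    intro i
    rw [hnorm i]
    have h1 : Ideal.absNorm (J 0) ^ p = Ideal.absNorm v.asIdeal ^ finrank (𝓞 K) (𝓞 F) := by
      have h2 := congrArg Ideal.absNorm hprodJ
      rw [hvF, Ideal.absNorm_algebraMap, map_prod, Finset.prod_congr rfl (fun i _ => hnorm i),
        Finset.prod_const, Finset.card_range] at h2
      exact h2
    rw [← IsFractionRing.finrank_eq (𝓞 K) K (𝓞 F) F, hdeg] at h1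
    exact Nat.pow_left_injective hp.ne_zero h1
  have hne : ∀ i, J i ≠ ⊥ := fun i h => by
    have := hN i
    rw [h, Ideal.absNorm_bot] at this
    exact hv.ne_zero this.symm
  have hprime : ∀ i, (J i).IsPrime := fun i =>
    Ideal.isPrime_of_irreducible_absNorm (by rw [hN]; exact hv)
  refine ⟨fun i => ⟨J i, hprime i, hne i⟩, fun i j h => Fin.ext ?_,
    fun i => ⟨hN i, le_sup_left⟩⟩
  by_contra hij
  have h' : J i = J j := congrArg HeightOneSpectrum.asIdeal h
  have := hcop i i.2 j j.2 hij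
  rw [h', Ideal.isCoprime_iff_sup_eq, sup_idem] at this
  exact (hprime j).ne_top this

theorem exists_sum_residue_le {p : ℕ} [Fact p.Prime] {ζ : 𝓞 K} (hζ : IsPrimitiveRoot ζ p)
    {ε : 𝓞 K} (hε : ∀ y : K, y ^ p ≠ (ε : K)) :
    ∃ M : ℝ, ∀ s ∈ Set.Ioc (1 : ℝ) 2, ∀ T : Finset (HeightOneSpectrum (𝓞 K)),
      (∀ v ∈ T, (p : 𝓞 K) ∉ v.asIdeal ∧ ε ∉ v.asIdeal ∧ (Ideal.absNorm v.asIdeal).Prime ∧
        ∃ a : 𝓞 K, ε - a ^ p ∈ v.asIdeal) →
      p * ∑ v ∈ T, zN s (primeIdeal v) ≤ Real.log (1 / (s - 1)) + M := by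
  have hp : p.Prime := Fact.out
  have hirr : Irreducible (X ^ p - C (ε : K)) := X_pow_sub_C_irreducible_of_prime hp hε
  have : Fact (Irreducible (X ^ p - C (ε : K))) := ⟨hirr⟩
  set F := AdjoinRoot (X ^ p - C (ε : K))
  have : Module.Finite K F := (AdjoinRoot.powerBasis hirr.ne_zero).finite
  have : CharZero F := charZero_of_injective_algebraMap (algebraMap K F).injective
  have : Module.Finite ℚ F := Module.Finite.trans K F
  have : NumberField F := {}
  have hdeg : finrank K F = p := by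
    rw [(AdjoinRoot.powerBasis hirr.ne_zero).finrank, AdjoinRoot.powerBasis_dim,
      natDegree_X_pow_sub_C]
  have hroot : (AdjoinRoot.root (X ^ p - C (ε : K)) : F) ^ p = algebraMap K F ε := by
    have h := AdjoinRoot.eval₂_root (X ^ p - C (ε : K))
    rwa [eval₂_sub, eval₂_pow, eval₂_X, eval₂_C, sub_eq_zero] at h
  have hint : IsIntegral ℤ (AdjoinRoot.root (X ^ p - C (ε : K)) : F) := by
    refine IsIntegral.of_pow hp.pos ?_
    rw [hroot]
    exact (RingOfIntegers.isIntegral_coe ε).map (IsScalarTower.toAlgHom ℤ K F)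
  let β : 𝓞 F := ⟨AdjoinRoot.root (X ^ p - C (ε : K)), hint⟩
  have hβ : β ^ p = algebraMap (𝓞 K) (𝓞 F) ε := RingOfIntegers.ext hroot
  -- the automorphism `root ↦ ζ root`
  let τ₀ : F →ₐ[K] F := AdjoinRoot.liftAlgHom (X ^ p - C (ε : K)) (Algebra.ofId K F)
    (algebraMap K F ζ * AdjoinRoot.root (X ^ p - C (ε : K))) (by
      rw [eval₂_sub, eval₂_pow, eval₂_X, eval₂_C, mul_pow, hroot, ← map_pow,
        show ((ζ : K)) ^ p = 1 by
          rw [RingOfIntegers.coe_eq_algebraMap, ← map_pow, hζ.pow_eq_one, map_one], map_one,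
        one_mul]
      exact sub_self _)
  let τ : F ≃ₐ[K] F := AlgEquiv.ofBijective τ₀
    ⟨τ₀.toRingHom.injective,
      (LinearMap.injective_iff_surjective (f := τ₀.toLinearMap)).mp τ₀.toRingHom.injective⟩
  have hτ : τ β = algebraMap K F ζ * β := by
    show τ₀ (AdjoinRoot.root (X ^ p - C (ε : K))) = _
    exact AdjoinRoot.liftAlgHom_root _ _ _ _
  obtain ⟨M, hM⟩ := exists_sum_le F
  refine ⟨M, fun s hs T hT => ?_⟩
  have hex : ∀ v : T, ∃ P : Fin p → HeightOneSpectrum (𝓞 F), Function.Injective P ∧ ∀ i,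
      Ideal.absNorm (P i).asIdeal = Ideal.absNorm v.1.asIdeal ∧
      v.1.asIdeal.map (algebraMap (𝓞 K) (𝓞 F)) ≤ (P i).asIdeal := by
    intro v
    obtain ⟨h1, h2, h3, a, h4⟩ := hT v.1 v.2
    exact exists_split_primes hdeg hζ hβ τ hτ v.1 h1 h2 h3 h4
  choose P hPinj hP using hex
  have hinj : Function.Injective fun vi : T × Fin p => P vi.1 vi.2 := by
    rintro ⟨v, i⟩ ⟨w, j⟩ h
    obtain rfl : v = w := by
      have key : ∀ (v : T) (i : Fin p),
          (P v i).asIdeal.comap (algebraMap (𝓞 K) (𝓞 F)) = v.1.asIdeal := fun v i =>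
        (v.1.isMaximal.eq_of_le (Ideal.comap_ne_top _ (P v i).isPrime.ne_top)
          (Ideal.map_le_iff_le_comap.mp (hP v i).2)).symm
      refine Subtype.ext (HeightOneSpectrum.ext ?_)
      rw [← key v i, ← key w j]
      exact congrArg (fun Q : HeightOneSpectrum (𝓞 F) => Q.asIdeal.comap _) h
    exact congrArg (Prod.mk v) (hPinj v h)
  refine le_trans (le_of_eq ?_)
    (hM s hs (Finset.univ.map ⟨fun vi : T × Fin p => P vi.1 vi.2, hinj⟩))
  rw [Finset.sum_map, Fintype.sum_prod_type, Finset.mul_sum, ← Finset.sum_coe_sort T]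
  refine Finset.sum_congr rfl fun v _ => ?_
  simp only [Function.Embedding.coeFn_mk, zN_primeIdeal, fun i => (hP v i).1]
  rw [Finset.sum_const, Finset.card_univ, Fintype.card_fin, nsmul_eq_mul]

end FA.Ext
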