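import Fermat.Agent.ExtVanish.Cyclo
import Mathlib.NumberTheory.NumberField.Cyclotomic.Embeddings
import Mathlib.NumberTheory.NumberField.InfinitePlace.Ramification
import Mathlib.NumberTheory.NumberField.Units.DirichletTheorem
import Mathlib.LinearAlgebra.Eigenspace.Zero
import Mathlib.LinearAlgebra.Matrix.Charpoly.Coeff
import Mathlib.FieldTheory.Separable
import Mathlib.Data.ZMod.QuotientGroup

/-!
# Multiplicity one for eigenspaces of units modulo `p`-th powers
-/

set_option autoImplicit false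

noncomputable section

open NumberField NumberField.InfinitePlace NumberField.Units
open NumberField.Units.dirichletUnitTheorem Module Polynomial
open scoped Classical

namespace FA.Ext

section Shift

variable {W : Type*} [Fintype W]

/-- Permutation of coordinates as a linear map. -/
def coordShift (π : Equiv.Perm W) : Module.End ℝ (W → ℝ) where
  toFun f w := f (π w)
  map_add' _ _ := rfl
  map_smul' _ _ := rfl

theorem coordShift_pow (π : Equiv.Perm W) (i : ℕ) (f : W → ℝ) (w : W) :
    (coordShift π ^ i) f w = f ((π ^ i) w) := by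
  induction i generalizing f with
  | zero => simp
  | succ i ih =>
    rw [pow_succ (coordShift π), Module.End.mul_apply, ih, pow_succ' π, Equiv.Perm.mul_apply]
    rfl

/-- The characteristic polynomial of a cyclic permutation of coordinates. -/
theorem charpoly_coordShift (π : Equiv.Perm W) (w₀ : W)
    (hm : ∀ i j : ℕ, i < Fintype.card W → j < Fintype.card W →
      (π ^ i) w₀ = (π ^ j) w₀ → i = j) (hper : π ^ Fintype.card W = 1) :
    (coordShift π).charpoly = X ^ Fintype.card W - 1 := by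
  have : Nonempty W := ⟨w₀⟩
  set m := Fintype.card W with hmdef
  have hm0 : 0 < m := Fintype.card_pos
  have hX : aeval (coordShift π) (X ^ m - 1 : ℝ[X]) = 0 := by
    rw [map_sub, map_pow, aeval_X, map_one, sub_eq_zero]
    refine LinearMap.ext fun f => funext fun w => ?_
    rw [coordShift_pow, hper]
    rfl
  have hint : IsIntegral ℝ (coordShift π) := Algebra.IsIntegral.isIntegral _
  have hQm := minpoly.monic hint
  have hdeg : m ≤ (minpoly ℝ (coordShift π)).natDegree := by
    by_contra hlt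
    rw [not_le] at hlt
    set Q := minpoly ℝ (coordShift π)
    have h := congrFun (LinearMap.congr_fun (minpoly.aeval ℝ (coordShift π))
      (fun w => if w = w₀ then (1 : ℝ) else 0)) ((π ^ (m - Q.natDegree)) w₀)
    rw [aeval_eq_sum_range, LinearMap.sum_apply, Finset.sum_apply] at h
    simp only [LinearMap.smul_apply, Pi.smul_apply, coordShift_pow, smul_eq_mul,
      LinearMap.zero_apply, Pi.zero_apply, ← Equiv.Perm.mul_apply, ← pow_add] at h
    rw [Finset.sum_eq_single Q.natDegree] at h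
    · rw [hQm.coeff_natDegree, one_mul, Nat.add_sub_cancel' hlt.le, hper] at h
      simp at h
    · intro i hi hne
      have hi' : i ≤ Q.natDegree := Nat.lt_succ_iff.mp (Finset.mem_range.mp hi)
      rw [if_neg, mul_zero]
      intro hfix
      refine hne ?_
      have h2 := hm (i + (m - Q.natDegree)) 0 (by omega) hm0 (by rw [pow_zero]; exact hfix)
      omega
    · intro hnot
      exact absurd (Finset.self_mem_range_succ _) hnot
  have h1 : (X ^ m - 1 : ℝ[X]).Monic := monic_X_pow_sub_C (1 : ℝ) hm0.ne'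
  have h2 : (X ^ m - 1 : ℝ[X]).natDegree = m := natDegree_X_pow_sub_C (r := (1 : ℝ))
  have h3 : minpoly ℝ (coordShift π) = X ^ m - 1 :=
    (eq_of_monic_of_dvd_of_natDegree_le hQm h1 (minpoly.dvd ℝ _ hX) (by rw [h2]; exact hdeg)).symm
  refine (eq_of_monic_of_dvd_of_natDegree_le h1 (LinearMap.charpoly_monic _) ?_ ?_)
  · rw [← h3]
    exact LinearMap.minpoly_dvd_charpoly _
  · rw [h2, LinearMap.charpoly_natDegree, Module.finrank_fintype_fun_eq_card]

end Shift

variable {K : Type*} [Field K] [NumberField K]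

/-- The logarithms at all infinite places. -/
def fullLog : Additive (𝓞 K)ˣ →+ (InfinitePlace K → ℝ) where
  toFun x w := mult w * Real.log (w (x.toMul : 𝓞 K))
  map_zero' := by ext w; simp
  map_add' x y := by
    ext w
    simp [Real.log_mul, mul_add]

theorem fullLog_torsion {u : (𝓞 K)ˣ} (hu : u ∈ torsion K) :
    fullLog (Additive.ofMul u) = 0 := by
  ext w
  show (mult w : ℝ) * Real.log (w (u : K)) = 0
  rw [(mem_torsion K).mp hu w, Real.log_one, mul_zero]

variable (K) in
theorem logEmbedding_mem_unitLattice (x : Additive (𝓞 K)ˣ) : logEmbedding K x ∈ unitLattice K :=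
  Submodule.mem_map_of_mem (f := (logEmbedding K).toIntLinearMap) Submodule.mem_top

/-- The class of a unit in the unit lattice. -/
def unitClass : Additive (𝓞 K)ˣ →+ unitLattice K :=
  (logEmbedding K).codRestrict (unitLattice K) (logEmbedding_mem_unitLattice K)

theorem unitClass_eq_zero {u : (𝓞 K)ˣ} :
    unitClass (Additive.ofMul u) = 0 ↔ u ∈ torsion K := by
  rw [← logEmbedding_eq_zero_iff]
  exact Subtype.ext_iff

theorem unitClass_fundSystem (i : Fin (rank K)) :
    unitClass (Additive.ofMul (fundSystem K i)) = basisUnitLattice K i :=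
  Subtype.ext (logEmbedding_fundSystem K i)

/-- Integral coordinates of a unit. -/
def unitCoord (u : (𝓞 K)ˣ) : Fin (rank K) → ℤ :=
  fun i => (basisUnitLattice K).repr (unitClass (Additive.ofMul u)) i

theorem unitCoord_mul_prod {t : (𝓞 K)ˣ} (ht : t ∈ torsion K) (c : Fin (rank K) → ℤ) :
    unitCoord (t * ∏ i, fundSystem K i ^ c i) = c := by
  ext j
  simp [unitCoord, ofMul_mul, ofMul_prod, ofMul_zpow, unitClass_eq_zero.mpr ht,
    unitClass_fundSystem, Finsupp.single_apply]

theorem exists_eq_mul_prod (u : (𝓞 K)ˣ) :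
    ∃ t ∈ torsion K, u = t * ∏ i, fundSystem K i ^ unitCoord u i := by
  obtain ⟨⟨⟨t, ht⟩, c⟩, hc, -⟩ := exist_unique_eq_mul_prod K u
  refine ⟨t, ht, ?_⟩
  rw [show unitCoord u = c by rw [hc]; exact unitCoord_mul_prod ht c]
  exact hc

variable (p : ℕ) [Fact p.Prime]

/-- Coordinates of a unit modulo `p`. -/
def unitModP (u : (𝓞 K)ˣ) : Fin (rank K) → ZMod p :=
  fun i => (unitCoord u i : ZMod p)

theorem unitModP_mul (u v : (𝓞 K)ˣ) : unitModP p (u * v) = unitModP p u + unitModP p v := by
  ext i; simp [unitModP, unitCoord, ofMul_mul]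

theorem unitModP_pow (u : (𝓞 K)ˣ) (n : ℕ) : unitModP p (u ^ n) = n • unitModP p u := by
  ext i; simp [unitModP, unitCoord, ofMul_pow]

theorem exists_torsion_mul_pow {u : (𝓞 K)ˣ} (h : unitModP p u = 0) :
    ∃ t w : (𝓞 K)ˣ, t ∈ torsion K ∧ u = t * w ^ p := by
  have hd : ∀ i, (p : ℤ) ∣ unitCoord u i := fun i =>
    (ZMod.intCast_zmod_eq_zero_iff_dvd _ p).mp (congrFun h i)
  choose c hc using hd
  obtain ⟨t, ht, hu⟩ := exists_eq_mul_prod u
  refine ⟨t, ∏ i, fundSystem K i ^ c i, ht, ?_⟩
  rw [hu, ← Finset.prod_pow]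
  congr 1
  refine Finset.prod_congr rfl fun i _ => ?_
  rw [← zpow_natCast, ← zpow_mul, hc, mul_comm]

variable (K) [IsCyclotomicExtension {p} ℚ K]

theorem torsion_eq_neg_zeta_pow (hp : p ≠ 2) {t : (𝓞 K)ˣ} (ht : t ∈ torsion K) :
    ∃ r : ℕ, (t : 𝓞 K) = (-zetaInt p K) ^ r := by
  have hfin : IsOfFinOrder ((t : 𝓞 K) : K) := by
    have h1 : IsOfFinOrder t := (CommGroup.mem_torsion (G := (𝓞 K)ˣ) t).mp ht
    exact ((algebraMap (𝓞 K) K).toMonoidHom.comp (Units.coeHom (𝓞 K))).isOfFinOrder h1
  have : NeZero p := ⟨(Fact.out : p.Prime).ne_zero⟩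
  obtain ⟨r, hr⟩ := (IsCyclotomicExtension.zeta_spec p ℚ K).exists_neg_pow_of_isOfFinOrder
    ((Fact.out : p.Prime).odd_of_ne_two hp) hfin
  refine ⟨r, RingOfIntegers.ext ?_⟩
  rw [hr]
  rfl

theorem psi2_torsion (h5 : 5 ≤ p) {t : (𝓞 K)ˣ} (ht : t ∈ torsion K) : psi2 p K h5 t = 1 := by
  obtain ⟨r, hr⟩ := torsion_eq_neg_zeta_pow K p (by omega) ht
  let zu : (𝓞 K)ˣ := ((zetaInt_spec p K).isUnit (Fact.out : p.Prime).ne_zero).unit
  have ht' : t = (-zu) ^ r := Units.ext (by
    rw [hr, Units.val_pow_eq_pow_val, Units.val_neg, IsUnit.unit_spec])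
  have h2 := two_ne_zero_of_five_le p h5
  have hz : psi2 p K h5 (-zu) = 1 := by
    change Multiplicative.ofAdd (Trunc3.dlog2 (truncHom p K h5 (-zu : 𝓞 K))) = 1
    rw [IsUnit.unit_spec, map_neg, truncHom_zetaInt]
    simp [Trunc3.dlog2, Trunc3.expT]
  rw [ht', map_pow, hz, one_pow]

theorem sigmaU_mem_torsion (d : (ZMod p)ˣ) {t : (𝓞 K)ˣ} (ht : t ∈ torsion K) :
    sigmaU p K d t ∈ torsion K :=
  (CommGroup.mem_torsion (G := (𝓞 K)ˣ) _).mpr
    ((sigmaU p K d).isOfFinOrder ((CommGroup.mem_torsion (G := (𝓞 K)ˣ) t).mp ht))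

/-- The permutation of the places. -/
def placePerm (d : (ZMod p)ˣ) : Equiv.Perm (InfinitePlace K) :=
  MulAction.toPerm ((sigmaK p K d)⁻¹)

theorem fullLog_sigmaU (d : (ZMod p)ˣ) (u : (𝓞 K)ˣ) :
    fullLog (Additive.ofMul (sigmaU p K d u)) =
      coordShift (placePerm K p d) (fullLog (Additive.ofMul u)) := by
  ext w
  have hm : mult ((sigmaK p K d)⁻¹ • w) = mult w := by
    unfold mult
    simp only [isReal_smul_iff]
  show (mult w : ℝ) * Real.log (w (sigmaK p K d (u : K))) =
    (mult ((sigmaK p K d)⁻¹ • w) : ℝ) * Real.log (((sigmaK p K d)⁻¹ • w) (u : K))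
  rw [hm, InfinitePlace.smul_apply]
  rfl

/-- Matrix of the Galois action on units modulo torsion. -/
def unitMatrix (d : (ZMod p)ˣ) : Matrix (Fin (rank K)) (Fin (rank K)) ℤ :=
  Matrix.of fun i j => unitCoord (sigmaU p K d (fundSystem K j)) i

theorem unitCoord_sigmaU (d : (ZMod p)ˣ) (u : (𝓞 K)ˣ) :
    unitCoord (sigmaU p K d u) = (unitMatrix K p d).mulVec (unitCoord u) := by
  obtain ⟨t, ht, hu⟩ := exists_eq_mul_prod u
  ext i
  conv_lhs => rw [hu]
  simp only [unitCoord, map_mul, map_prod, map_zpow, ofMul_mul, ofMul_prod, ofMul_zpow, map_add,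
    map_sum, map_zsmul, unitClass_eq_zero.mpr (sigmaU_mem_torsion K p d ht), zero_add,
    Finsupp.coe_finsetSum, Finset.sum_apply, Finsupp.smul_apply, smul_eq_mul,
    Matrix.mulVec, dotProduct, unitMatrix, Matrix.of_apply]
  exact Finset.sum_congr rfl fun j _ => mul_comm _ _

theorem fullLog_eq_sum (u : (𝓞 K)ˣ) :
    fullLog (Additive.ofMul u) =
      ∑ i, (unitCoord u i : ℝ) • fullLog (Additive.ofMul (fundSystem K i)) := by
  obtain ⟨t, ht, hu⟩ := exists_eq_mul_prod u
  conv_lhs => rw [hu]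
  simp only [ofMul_mul, ofMul_prod, ofMul_zpow, map_add, map_sum, map_zsmul, fullLog_torsion ht,
    zero_add, Int.cast_smul_eq_zsmul]

theorem card_places_ne_zero : (Fintype.card (InfinitePlace K) : ZMod p) ≠ 0 := by
  intro h
  have hd := Nat.le_of_dvd Fintype.card_pos ((ZMod.natCast_eq_zero_iff _ p).mp h)
  have h1 : Fintype.card (InfinitePlace K) ≤ finrank ℚ K := by
    rw [← InfinitePlace.sum_mult_eq, Fintype.card_eq_sum_ones]
    exact Finset.sum_le_sum fun w _ => by exact_mod_cast (one_le_mult (w := w))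
  rw [IsCyclotomicExtension.Rat.finrank (k := p), Nat.totient_prime Fact.out] at h1
  have := (Fact.out : p.Prime).two_le
  omega

theorem placePerm_cycle {γ : (ZMod p)ˣ} (hγ : ∀ a, a ∈ Subgroup.zpowers γ) :
    (∀ i j : ℕ, i < Fintype.card (InfinitePlace K) → j < Fintype.card (InfinitePlace K) →
      (placePerm K p γ ^ i) w₀ = (placePerm K p γ ^ j) w₀ → i = j) ∧
      placePerm K p γ ^ Fintype.card (InfinitePlace K) = 1 := by
  have : NeZero p := ⟨(Fact.out : p.Prime).ne_zero⟩
  have : IsGalois ℚ K := IsCyclotomicExtension.isGalois {p} ℚ K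
  set τ := (sigmaK p K γ)⁻¹ with hτ
  have hgen : ∀ σ : K ≃ₐ[ℚ] K, σ ∈ Subgroup.zpowers τ := by
    intro σ
    obtain ⟨n, hn⟩ := hγ (IsCyclotomicExtension.Rat.galEquivZMod p K σ)
    refine ⟨-n, ?_⟩
    show τ ^ (-n) = σ
    rw [hτ, zpow_neg, inv_zpow, inv_inv, ← map_zpow, show γ ^ n = _ from hn]
    exact MulEquiv.symm_apply_apply _ σ
  have horb : ∀ w w' : InfinitePlace K, w' ∈ MulAction.orbit (Subgroup.zpowers τ) w := by
    intro w w'
    obtain ⟨σ, hσ⟩ := exists_smul_eq_of_comap_eq (k := ℚ) (w := w) (w' := w')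
      (Subsingleton.elim _ _)
    exact ⟨⟨σ, hgen σ⟩, hσ⟩
  have hperiod : ∀ w : InfinitePlace K,
      Function.minimalPeriod (τ • ·) w = Fintype.card (InfinitePlace K) := by
    intro w
    rw [MulAction.minimalPeriod_eq_card, ← Fintype.card_congr (Equiv.Set.univ (InfinitePlace K))]
    simp only [← Nat.card_eq_fintype_card]
    rw [show MulAction.orbit (Subgroup.zpowers τ) w = Set.univ from
      Set.eq_univ_of_forall fun w' => horb w w']
  have hiter : ∀ (i : ℕ) (w : InfinitePlace K), (placePerm K p γ ^ i) w = (τ • ·)^[i] w := by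
    intro i w
    rw [Equiv.Perm.coe_pow]
    rfl
  refine ⟨fun i j hi hj h => ?_, ?_⟩
  · rw [hiter, hiter] at h
    exact Function.iterate_injOn_Iio_minimalPeriod (by rwa [Set.mem_Iio, hperiod])
      (by rwa [Set.mem_Iio, hperiod]) h
  · ext w : 1
    rw [hiter, ← hperiod w, Function.iterate_minimalPeriod]
    rfl

/-- The characteristic polynomial of a generator on units. -/
theorem charpoly_unitMatrix {γ : (ZMod p)ˣ} (hγ : ∀ a, a ∈ Subgroup.zpowers γ) :
    (unitMatrix K p γ).charpoly * (X - 1) = X ^ Fintype.card (InfinitePlace K) - 1 := by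
  set r := rank K
  let vec : Fin r ⊕ Unit → (InfinitePlace K → ℝ) :=
    Sum.elim (fun i => fullLog (Additive.ofMul (fundSystem K i))) (fun _ => 1)
  have hli : LinearIndependent ℝ vec := by
    rw [Fintype.linearIndependent_iff]
    intro c hc
    simp only [vec, Fintype.sum_sum_type, Sum.elim_inl, Sum.elim_inr] at hc
    have hu : ∀ i, ∑ w, fullLog (Additive.ofMul (fundSystem K i)) w = 0 := fun i =>
      sum_mult_mul_log (fundSystem K i)
    have hsum := congrArg (fun f : InfinitePlace K → ℝ => ∑ w, f w) hc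
    simp only [Pi.add_apply, Finset.sum_apply, Pi.smul_apply, smul_eq_mul, Pi.zero_apply,
      Finset.sum_const_zero, Finset.sum_add_distrib] at hsum
    rw [Finset.sum_comm] at hsum
    simp only [← Finset.mul_sum, hu, mul_zero, Finset.sum_const_zero, zero_add] at hsum
    have hc1 : c (Sum.inr ()) = 0 := by simpa using hsum
    have h2 : ∑ i, c (Sum.inl i) • (basisUnitLattice K).ofZLatticeBasis ℝ _ i = 0 := by
      ext w
      have := congrFun hc w.1
      simp only [Pi.add_apply, Finset.sum_apply, Pi.smul_apply, smul_eq_mul, Pi.zero_apply,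
        Fintype.univ_ofSubsingleton, Finset.sum_singleton, Pi.one_apply] at this
      rw [show c (Sum.inr (⟨⟩ : Unit)) = 0 from hc1] at this
      simp only [Basis.ofZLatticeBasis_apply, ← logEmbedding_fundSystem, Finset.sum_apply,
        Pi.smul_apply, smul_eq_mul, logEmbedding_component, Pi.zero_apply]
      simpa [fullLog] using this
    have h3 := Fintype.linearIndependent_iff.mp
      ((basisUnitLattice K).ofZLatticeBasis ℝ _).linearIndependent (fun i => c (Sum.inl i)) h2
    rintro (i | u)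
    · exact h3 i
    · exact hc1
  have hcard : Fintype.card (Fin r ⊕ Unit) = finrank ℝ (InfinitePlace K → ℝ) := by
    rw [Fintype.card_sum, Fintype.card_fin, Fintype.card_unit, finrank_fintype_fun_eq_card]
    show rank K + 1 = _
    have : 0 < Fintype.card (InfinitePlace K) := Fintype.card_pos
    rw [rank]; omega
  let 𝔅 := basisOfLinearIndependentOfCardEqFinrank hli hcard
  have h𝔅 : ∀ x, 𝔅 x = vec x := fun x => by
    simp [𝔅, coe_basisOfLinearIndependentOfCardEqFinrank]
  set P := coordShift (placePerm K p γ)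
  have hmat : LinearMap.toMatrix 𝔅 𝔅 P =
      Matrix.fromBlocks ((unitMatrix K p γ).map (Int.cast : ℤ → ℝ)) 0 0 1 := by
    set Mx := Matrix.fromBlocks ((unitMatrix K p γ).map (Int.cast : ℤ → ℝ)) 0 0
      (1 : Matrix Unit Unit ℝ) with hMx
    apply (Matrix.toLin 𝔅 𝔅).injective
    rw [Matrix.toLin_toMatrix]
    refine 𝔅.ext fun x => ?_
    rw [Matrix.toLin_self, Fintype.sum_sum_type]
    cases x with
    | inl j =>
      simp only [hMx, h𝔅, vec, Sum.elim_inl, Sum.elim_inr, Matrix.fromBlocks_apply₁₁,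
        Matrix.fromBlocks_apply₂₁, Matrix.zero_apply, zero_smul, Finset.sum_const_zero, add_zero,
        Matrix.map_apply, P]
      rw [← fullLog_sigmaU, fullLog_eq_sum]
      rfl
    | inr u =>
      simp only [hMx, h𝔅, vec, Sum.elim_inl, Sum.elim_inr, Matrix.fromBlocks_apply₁₂,
        Matrix.fromBlocks_apply₂₂, Matrix.zero_apply, zero_smul, Finset.sum_const_zero, zero_add,
        Fintype.univ_ofSubsingleton, Finset.sum_singleton]
      ext w
      simp [P, coordShift]
  obtain ⟨hc1, hc2⟩ := placePerm_cycle K p hγ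
  have hchar := charpoly_coordShift (placePerm K p γ) (w₀ : InfinitePlace K) hc1 hc2
  rw [← LinearMap.charpoly_toMatrix P 𝔅, hmat, Matrix.charpoly_fromBlocks_zero₁₂] at hchar
  apply Polynomial.map_injective (Int.castRingHom ℝ) Int.cast_injective
  rw [Polynomial.map_mul, ← Matrix.charpoly_map]
  simp only [Polynomial.map_sub, Polynomial.map_pow, Polynomial.map_X, Polynomial.map_one]
  rw [Matrix.charpoly_one, Fintype.card_unit, pow_one] at hchar
  exact hchar

/-- Multiplicity one: an eigen-unit modulo `p`-th powers is a power of another one. -/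
theorem exists_eq_torsion_mul_pow {γ : (ZMod p)ˣ} (hγ : ∀ a, a ∈ Subgroup.zpowers γ) (n : ℕ)
    {u e : (𝓞 K)ˣ} (hu : ∃ w, sigmaU p K γ u = u ^ n * w ^ p)
    (he : ∃ w, sigmaU p K γ e = e ^ n * w ^ p)
    (he0 : ∀ t w : (𝓞 K)ˣ, t ∈ torsion K → e ≠ t * w ^ p) :
    ∃ (k : ℕ) (t w : (𝓞 K)ˣ), t ∈ torsion K ∧ u = t * e ^ k * w ^ p := by
  set A := (unitMatrix K p γ).map (Int.cast : ℤ → ZMod p)
  have hsep : A.charpoly.Separable := by
    have h1 := congrArg (Polynomial.map (Int.castRingHom (ZMod p))) (charpoly_unitMatrix K p hγ)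
    rw [Polynomial.map_mul, ← Matrix.charpoly_map] at h1
    simp only [Polynomial.map_sub, Polynomial.map_pow, Polynomial.map_X, Polynomial.map_one] at h1
    have h2 := separable_X_pow_sub_C (1 : ZMod p) (card_places_ne_zero K p) one_ne_zero
    rw [C_1, ← h1] at h2
    exact h2.of_mul_left
  set φ : Module.End (ZMod p) (Fin (rank K) → ZMod p) := Matrix.toLin' A
  have hrank : finrank (ZMod p) (φ.eigenspace (n : ZMod p)) ≤ 1 := by
    refine (LinearMap.finrank_eigenspace_le φ _).trans ?_
    rw [show φ.charpoly = A.charpoly by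
      rw [← LinearMap.charpoly_toMatrix φ (Pi.basisFun (ZMod p) _)]
      congr 1
      rw [LinearMap.toMatrix_eq_toMatrix', LinearMap.toMatrix'_toLin']]
    exact rootMultiplicity_le_one_of_separable hsep _
  have heig : ∀ v : (𝓞 K)ˣ, (∃ w, sigmaU p K γ v = v ^ n * w ^ p) →
      unitModP p v ∈ φ.eigenspace (n : ZMod p) := by
    rintro v ⟨w, hw⟩
    rw [Module.End.mem_eigenspace_iff, Matrix.toLin'_apply]
    have h1 : unitModP p (sigmaU p K γ v) = A.mulVec (unitModP p v) := by
      ext i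
      have h3 := congrArg (Int.castRingHom (ZMod p))
        (congrFun (unitCoord_sigmaU K p γ v) i)
      rw [RingHom.map_mulVec] at h3
      exact h3
    rw [← h1, hw, unitModP_mul, unitModP_pow, unitModP_pow, ← Nat.cast_smul_eq_nsmul (ZMod p) n,
      ← Nat.cast_smul_eq_nsmul (ZMod p) p, ZMod.natCast_self, zero_smul, add_zero]
  have he' : (⟨_, heig e he⟩ : φ.eigenspace (n : ZMod p)) ≠ 0 := fun h => by
    obtain ⟨t, w, ht, h1⟩ := exists_torsion_mul_pow p (congrArg Subtype.val h)
    exact he0 t w ht h1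
  have h1 : finrank (ZMod p) (φ.eigenspace (n : ZMod p)) = 1 := by
    have := (Module.finrank_pos_iff_exists_ne_zero (R := ZMod p)).mpr ⟨_, he'⟩
    omega
  obtain ⟨c, hc⟩ := (finrank_eq_one_iff_of_nonzero' _ he').mp h1 ⟨_, heig u hu⟩
  refine ⟨c.val, ?_⟩
  obtain ⟨t, w, ht, h2⟩ := exists_torsion_mul_pow p (u := u * (e ^ c.val)⁻¹) (by
    have hc' : c • unitModP p e = unitModP p u := congrArg Subtype.val hc
    have h3 : unitModP p (e ^ c.val) = unitModP p u := by
      rw [unitModP_pow, ← Nat.cast_smul_eq_nsmul (ZMod p), ZMod.natCast_zmod_val, hc']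
    have h4 := unitModP_mul p (u * (e ^ c.val)⁻¹) (e ^ c.val)
    rw [inv_mul_cancel_right, h3] at h4
    exact right_eq_add.mp h4)
  exact ⟨t, w, ht, by rw [mul_right_comm, ← h2, inv_mul_cancel_right]⟩

end FA.Ext
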