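import Fermat.Agent.ExtVanish.Thaine
import Fermat.Agent.ExtVanish.UnitEigen
import Fermat.Agent.ExtVanish.SplitBound
import Fermat.Prelude.Def_ClassGroup_GaloisAction

/-!
# Vanishing of the `ω²`-eigenspace

An `ω²`-eigen element of `ℚ(ζ_p)^×/p` which is an ideal `p`-th power and locally a `p`-th power
above `p` is a `p`-th power.
-/

set_option autoImplicit false

noncomputable section

open NumberField IsDedekindDomain
open scoped Classical nonZeroDivisors

namespace FA.Ext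

variable (p : ℕ) [Fact p.Prime] (K : Type*) [Field K] [NumberField K]
  [IsCyclotomicExtension {p} ℚ K]

/-- The action on the class group. -/
def sigmaCl (d : (ZMod p)ˣ) : ClassGroup (𝓞 K) →* ClassGroup (𝓞 K) :=
  (ClassGroup.mulEquiv (sigma p K d)).toMonoidHom

theorem sigmaCl_mk0 (d : (ZMod p)ˣ) (I J : (Ideal (𝓞 K))⁰)
    (h : J.1 = I.1.map (sigma p K d : 𝓞 K →+* 𝓞 K)) :
    sigmaCl p K d (ClassGroup.mk0 I) = ClassGroup.mk0 J := by
  show ClassGroup.mulEquiv (sigma p K d) (ClassGroup.mk0 I) = _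
  rw [ClassGroup.mulEquiv_mk0]
  exact congrArg ClassGroup.mk0 (Subtype.ext h.symm)

theorem sigmaCl_mul (d e : (ZMod p)ˣ) (C : ClassGroup (𝓞 K)) :
    sigmaCl p K (d * e) C = sigmaCl p K d (sigmaCl p K e C) := by
  show ClassGroup.mulEquiv (sigma p K (d * e)) C = _
  rw [map_mul]
  exact ClassGroup.mulEquiv_trans_apply (sigma p K e) (sigma p K d) C

omit [Fact p.Prime] in
/-- A functional separating a class from the `p`-th powers. -/
theorem exists_hom_ne_one [Fact p.Prime] {A : Type*} [CommGroup A] {t : A}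
    (ht : ∀ y : A, t ≠ y ^ p) : ∃ ψ : A →* Multiplicative (ZMod p), ψ t ≠ 1 := by
  have : NeZero p := ⟨(Fact.out : p.Prime).ne_zero⟩
  have h0 : JacobiSumStickelberger.ModP.proj p (Additive A) (Additive.ofMul t) ≠ 0 := fun h => by
    obtain ⟨y, hy⟩ := (JacobiSumStickelberger.ModP.proj_eq_zero_iff p _).mp h
    exact ht y.toMul (congrArg Additive.toMul hy).symm
  obtain ⟨f, hf⟩ : ∃ f : Module.Dual (ZMod p) (JacobiSumStickelberger.ModP p (Additive A)),
      f (JacobiSumStickelberger.ModP.proj p (Additive A) (Additive.ofMul t)) ≠ 0 := by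
    by_contra h
    push Not at h
    exact h0 ((Module.forall_dual_apply_eq_zero_iff _ _).mp h)
  exact ⟨AddMonoidHom.toMultiplicativeRight
    (f.toAddMonoidHom.comp (JacobiSumStickelberger.ModP.proj p (Additive A))),
    fun h => hf (by
      rw [AddMonoidHom.toMultiplicativeRight_apply_apply, ofAdd_eq_one] at h
      exact h)⟩

/-- The weight two projector. -/
def weightTwo : ClassGroup (𝓞 K) →* ClassGroup (𝓞 K) where
  toFun C := ∏ d : (ZMod p)ˣ, sigmaCl p K d C ^ (((d⁻¹ : (ZMod p)ˣ) : ZMod p) ^ 2).val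
  map_one' := Finset.prod_eq_one fun d _ => by rw [map_one, one_pow]
  map_mul' C D := by
    rw [← Finset.prod_mul_distrib]
    exact Finset.prod_congr rfl fun d _ => by rw [map_mul, mul_pow]

/-- No character of weight two is nontrivial. -/
theorem no_weight_two_char (h5 : 5 ≤ p) (φ : ClassGroup (𝓞 K) →* Multiplicative (ZMod p))
    (hφ : ∀ (d : (ZMod p)ˣ) (I J : (Ideal (𝓞 K))⁰),
      J.1 = I.1.map (sigma p K d : 𝓞 K →+* 𝓞 K) →
      φ (ClassGroup.mk0 J) = φ (ClassGroup.mk0 I) ^ ((d : ZMod p) ^ 2).val)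
    (hne : φ ≠ 1) : False := by
  have hp : p.Prime := Fact.out
  set ε := epsUnit p K h5
  have hε : ∀ y : K, y ^ p ≠ ((ε : 𝓞 K) : K) := by
    intro y hy
    have hint : IsIntegral ℤ y :=
      IsIntegral.of_pow hp.pos (hy.symm ▸ RingOfIntegers.isIntegral_coe (ε : 𝓞 K))
    let y' : 𝓞 K := ⟨y, hint⟩
    have hy' : y' ^ p = (ε : 𝓞 K) := RingOfIntegers.ext hy
    have hu : IsUnit y' := (isUnit_pow_iff hp.ne_zero).mp (hy' ▸ Units.isUnit ε)
    refine psi2_epsUnit_ne_one p K h5 ?_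
    rw [show epsUnit p K h5 = hu.unit ^ p from Units.ext (by
      rw [Units.val_pow_eq_pow_val, IsUnit.unit_spec, hy'])]
    exact psi_pow p K _ _
  obtain ⟨M₁, hM₁⟩ := exists_sum_ker_le φ hne
  obtain ⟨M₂, hM₂⟩ := exists_sum_residue_le (zetaInt_spec p K) hε
  obtain ⟨M₀, hM₀⟩ := exists_lower_bound K
  have hfin : {v : HeightOneSpectrum (𝓞 K) | (p : 𝓞 K) ∈ v.asIdeal}.Finite := by
    refine (Ideal.finite_factors (I := Ideal.span {(p : 𝓞 K)}) ?_).subset
      fun v hv => Ideal.dvd_span_singleton.mpr hv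
    simp [hp.ne_zero]
  set c : ℝ := (hfin.toFinset.card : ℝ)
  -- choose `s` close to `1`
  set B : ℝ := max 0 ((p * M₀ + M₁ + M₂ + p * c) / (p - 2) + 1)
  set s : ℝ := 1 + Real.exp (-B)
  have hs : s ∈ Set.Ioc (1 : ℝ) 2 := ⟨lt_add_of_pos_right _ (Real.exp_pos _), by
    have : Real.exp (-B) ≤ 1 := Real.exp_le_one_iff.mpr (neg_nonpos.mpr (le_max_left _ _))
    linarith⟩
  have hlog : Real.log (1 / (s - 1)) = B := by
    simp [s, Real.log_inv, Real.log_exp]
  obtain ⟨T, hT, hTsum⟩ := hM₀ s hs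
  set T₁ := T.filter fun v => φ (ClassGroup.mk0 (primeIdeal v)) = 1
  set T₃ := (T.filter fun v => ¬ φ (ClassGroup.mk0 (primeIdeal v)) = 1).filter
    fun v => (p : 𝓞 K) ∈ v.asIdeal
  set T₂ := (T.filter fun v => ¬ φ (ClassGroup.mk0 (primeIdeal v)) = 1).filter
    fun v => ¬ (p : 𝓞 K) ∈ v.asIdeal
  have h1 := hM₁ s hs T₁ fun v hv => (Finset.mem_filter.mp hv).2
  have h2 := hM₂ s hs T₂ fun v hv => by
    obtain ⟨hv', hvp⟩ := Finset.mem_filter.mp hv
    obtain ⟨hvT, hvφ⟩ := Finset.mem_filter.mp hv'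
    exact ⟨hvp, fun h => v.isPrime.ne_top (Ideal.eq_top_of_isUnit_mem _ h (Units.isUnit ε)),
      hT v hvT, exists_residue_of_phi_ne_one p h5 φ hφ v hvp (hT v hvT) hvφ⟩
  have h3 : ∑ v ∈ T₃, zN s (primeIdeal v) ≤ c := by
    refine (Finset.sum_le_card_nsmul T₃ _ 1 fun v _ =>
      (zN_primeIdeal_le_half hs.1.le v).trans (by norm_num)).trans ?_
    rw [nsmul_eq_mul, mul_one]
    exact Nat.cast_le.mpr (Finset.card_le_card fun v hv =>
      hfin.mem_toFinset.mpr (Finset.mem_filter.mp hv).2)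
  rw [← Finset.sum_filter_add_sum_filter_not T (fun v => φ (ClassGroup.mk0 (primeIdeal v)) = 1),
    ← Finset.sum_filter_add_sum_filter_not (T.filter fun v => ¬ φ (ClassGroup.mk0 (primeIdeal v)) = 1)
      (fun v => (p : 𝓞 K) ∈ v.asIdeal), hlog] at hTsum
  rw [hlog] at h1 h2
  have hp5 : (5 : ℝ) ≤ p := by exact_mod_cast h5
  have hp2 : (0 : ℝ) < (p : ℝ) - 2 := by linarith
  have hB : (p * M₀ + M₁ + M₂ + p * c) / ((p : ℝ) - 2) + 1 ≤ B := le_max_right _ _
  rw [div_add_one hp2.ne', div_le_iff₀ hp2] at hB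
  nlinarith [mul_le_mul_of_nonneg_left hTsum (show (0 : ℝ) ≤ p by linarith),
    mul_le_mul_of_nonneg_left h3 (show (0 : ℝ) ≤ p by linarith)]

/-- The weight two part of the class group modulo `p` is trivial. -/
theorem weightTwo_mem_pow (h5 : 5 ≤ p) (C : ClassGroup (𝓞 K)) :
    ∃ D, weightTwo p K C = D ^ p := by
  by_contra h
  push Not at h
  obtain ⟨ψ, hψ⟩ := exists_hom_ne_one p h
  refine no_weight_two_char p K h5 (ψ.comp (weightTwo p K)) ?_
    fun h' => hψ (DFunLike.congr_fun h' C)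
  intro e I J hJ
  rw [← sigmaCl_mk0 p K e I J hJ]
  simp only [MonoidHom.comp_apply, weightTwo, MonoidHom.coe_mk, OneHom.coe_mk, map_prod, map_pow]
  apply Multiplicative.toAdd.injective
  rw [toAdd_prod, toAdd_pow, toAdd_prod, Finset.smul_sum]
  refine Fintype.sum_equiv (Equiv.mulRight e) _ _ fun d => ?_
  simp only [toAdd_pow, nsmul_eq_mul, ZMod.natCast_zmod_val, Equiv.coe_mulRight, ← sigmaCl_mul]
  have hee : (e : ZMod p) * ((e⁻¹ : (ZMod p)ˣ) : ZMod p) = 1 := Units.mul_inv e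
  rw [mul_inv_rev, Units.val_mul]
  linear_combination (-(((d⁻¹ : (ZMod p)ˣ) : ZMod p) ^ 2) *
    Multiplicative.toAdd (ψ (sigmaCl p K (d * e) (ClassGroup.mk0 I))) *
    ((e : ZMod p) * ((e⁻¹ : (ZMod p)ˣ) : ZMod p) + 1)) * hee

/-- Weight two classes killed by `p` are trivial. -/
theorem eq_one_of_eigen (h5 : 5 ≤ p) {x : ClassGroup (𝓞 K)} (hx : x ^ p = 1)
    (heig : ∀ d : (ZMod p)ˣ, sigmaCl p K d x = x ^ ((d : ZMod p) ^ 2).val) : x = 1 := by
  have hp : p.Prime := Fact.out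
  have hT : weightTwo p K x = x⁻¹ := by
    have h1 : weightTwo p K x = x ^ (∑ d : (ZMod p)ˣ, ((d : ZMod p) ^ 2).val *
        (((d⁻¹ : (ZMod p)ˣ) : ZMod p) ^ 2).val) := by
      simp only [weightTwo, MonoidHom.coe_mk, OneHom.coe_mk, heig, ← pow_mul,
        Finset.prod_pow_eq_pow_sum]
    have hmod : (∑ d : (ZMod p)ˣ, ((d : ZMod p) ^ 2).val *
        (((d⁻¹ : (ZMod p)ˣ) : ZMod p) ^ 2).val) % p = (p - 1) % p :=
      (ZMod.natCast_eq_natCast_iff' _ _ p).mp (by
        rw [Nat.cast_sum]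
        simp only [Nat.cast_mul, ZMod.natCast_zmod_val, ← mul_pow, Units.mul_inv, one_pow,
          Finset.sum_const, Finset.card_univ, ZMod.card_units p, nsmul_eq_mul, mul_one])
    rw [h1, pow_eq_pow_mod _ hx, hmod, ← pow_eq_pow_mod _ hx]
    exact eq_inv_of_mul_eq_one_left
      (by rw [← pow_succ, show p - 1 + 1 = p by have := hp.two_le; omega, hx])
  have hall : ∀ n : ℕ, ∃ y, x = y ^ p ^ n := by
    intro n
    induction n with
    | zero => exact ⟨x, by simp⟩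
    | succ n ih =>
      obtain ⟨y, hy⟩ := ih
      obtain ⟨z, hz⟩ := weightTwo_mem_pow p K h5 y
      refine ⟨z⁻¹, ?_⟩
      rw [inv_pow, ← inv_inj, inv_inv, ← hT, hy, map_pow, hz, ← pow_mul, ← pow_succ']
  by_contra hne
  set N := Fintype.card (ClassGroup (𝓞 K))
  obtain ⟨y, hy⟩ := hall N
  have hord : orderOf y = p ^ (N + 1) := orderOf_eq_prime_pow
    (by rw [← hy]; exact hne) (by rw [pow_succ, pow_mul, ← hy, hx])
  have h1 : p ^ (N + 1) ≤ N := hord ▸ orderOf_le_card_univ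
  have h2 := Nat.lt_pow_self (n := N + 1) hp.one_lt
  omega

end FA.Ext
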