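import Fermat.Agent.ExtVanish.Stickelberger
import Fermat.Agent.Root.SummaryIrregularBelowHundred

/-!
# Herbrand's theorem

A nontrivial class of `ℚ(ζ_p)` killed by `p` on which `σ_d` acts by `d^i`, `i` odd, forces `p` to divide
the numerator of `B_{p-i}`; for `i = 1` there is none. So if no such numerator is divisible by `p`, the
classes killed by `p` and inverted by complex conjugation are trivial.
-/

set_option autoImplicit false

noncomputable section

open NumberField IsDedekindDomain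
open scoped Classical nonZeroDivisors

namespace FA.Ext

variable (p : ℕ) [Fact p.Prime] (K : Type*) [Field K] [NumberField K]
  [IsCyclotomicExtension {p} ℚ K]

variable {p K}

omit [IsCyclotomicExtension {p} ℚ K] in
/-- A nontrivial character is nontrivial on a degree one prime not over `p`. -/
theorem exists_degree_one_ne_one (φ : ClassGroup (𝓞 K) →* Multiplicative (ZMod p)) (hne : φ ≠ 1) :
    ∃ v : HeightOneSpectrum (𝓞 K), (p : 𝓞 K) ∉ v.asIdeal ∧ (Ideal.absNorm v.asIdeal).Prime ∧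
      φ (ClassGroup.mk0 (primeIdeal v)) ≠ 1 := by
  by_contra hall
  push Not at hall
  have hp : p.Prime := Fact.out
  obtain ⟨M₁, hM₁⟩ := exists_sum_ker_le φ hne
  obtain ⟨M₀, hM₀⟩ := exists_lower_bound K
  have hfin : {v : HeightOneSpectrum (𝓞 K) | (p : 𝓞 K) ∈ v.asIdeal}.Finite := by
    refine (Ideal.finite_factors (I := Ideal.span {(p : 𝓞 K)}) ?_).subset
      fun v hv => Ideal.dvd_span_singleton.mpr hv
    simp [hp.ne_zero]
  set c : ℝ := (hfin.toFinset.card : ℝ)
  set B : ℝ := max 0 ((p * M₀ + M₁ + p * c) / (p - 1) + 1)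
  set s : ℝ := 1 + Real.exp (-B)
  have hs : s ∈ Set.Ioc (1 : ℝ) 2 := ⟨lt_add_of_pos_right _ (Real.exp_pos _), by
    have : Real.exp (-B) ≤ 1 := Real.exp_le_one_iff.mpr (neg_nonpos.mpr (le_max_left _ _))
    linarith⟩
  have hlog : Real.log (1 / (s - 1)) = B := by
    simp [s, Real.log_inv, Real.log_exp]
  obtain ⟨T, hT, hTsum⟩ := hM₀ s hs
  set T₁ := T.filter fun v => φ (ClassGroup.mk0 (primeIdeal v)) = 1
  set T₃ := T.filter fun v => ¬ φ (ClassGroup.mk0 (primeIdeal v)) = 1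
  have h1 := hM₁ s hs T₁ fun v hv => (Finset.mem_filter.mp hv).2
  have h3 : ∑ v ∈ T₃, zN s (primeIdeal v) ≤ c := by
    refine (Finset.sum_le_card_nsmul T₃ _ 1 fun v _ =>
      (zN_primeIdeal_le_half hs.1.le v).trans (by norm_num)).trans ?_
    rw [nsmul_eq_mul, mul_one]
    refine Nat.cast_le.mpr (Finset.card_le_card fun v hv => hfin.mem_toFinset.mpr ?_)
    obtain ⟨hvT, hv1⟩ := Finset.mem_filter.mp hv
    by_contra hvp
    exact hv1 (hall v hvp (hT v hvT))
  rw [← Finset.sum_filter_add_sum_filter_not T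
    (fun v => φ (ClassGroup.mk0 (primeIdeal v)) = 1), hlog] at hTsum
  rw [hlog] at h1
  have hp2 : (2 : ℝ) ≤ p := by exact_mod_cast hp.two_le
  have hp1 : (0 : ℝ) < (p : ℝ) - 1 := by linarith
  have hB : (p * M₀ + M₁ + p * c) / ((p : ℝ) - 1) + 1 ≤ B := le_max_right _ _
  rw [div_add_one hp1.ne', div_le_iff₀ hp1] at hB
  nlinarith [mul_le_mul_of_nonneg_left hTsum (show (0 : ℝ) ≤ p by linarith),
    mul_le_mul_of_nonneg_left h3 (show (0 : ℝ) ≤ p by linarith)]

/-- A weight `i` character gives the vanishing of the Stickelberger sums. -/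
theorem sum_eq_zero_of_weight_char (i : ℕ) (φ : ClassGroup (𝓞 K) →* Multiplicative (ZMod p))
    (hφ : ∀ (d : (ZMod p)ˣ) (I J : (Ideal (𝓞 K))⁰),
      J.1 = I.1.map (sigma p K d : 𝓞 K →+* 𝓞 K) →
      φ (ClassGroup.mk0 J) = φ (ClassGroup.mk0 I) ^ ((d : ZMod p) ^ i).val)
    (hne : φ ≠ 1) (b : ℕ) (hb : b < p) :
    ∑ d : (ZMod p)ˣ, ((b * (d : ZMod p).val / p : ℕ) : ZMod p) * ((d⁻¹ : (ZMod p)ˣ) : ZMod p) ^ i =
      0 := by
  have : NeZero p := ⟨(Fact.out : p.Prime).ne_zero⟩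
  obtain ⟨v, hvp, hv, hφv⟩ := exists_degree_one_ne_one φ hne
  have h := congrArg (fun C => Multiplicative.toAdd (φ C)) (stickelberger_relation p K v hvp hv b hb)
  have e : ∀ d : (ZMod p)ˣ, φ (conjClass p K v d) =
      φ (ClassGroup.mk0 (primeIdeal v)) ^ (((d⁻¹ : (ZMod p)ˣ) : ZMod p) ^ i).val :=
    fun d => hφ d⁻¹ _ _ rfl
  simp only [map_prod, map_pow, map_one, e, toAdd_prod, toAdd_pow, toAdd_one, nsmul_eq_mul,
    ZMod.natCast_zmod_val, ← mul_assoc, ← Finset.sum_mul] at h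
  exact (mul_eq_zero.mp h).resolve_right fun h0 => hφv (toAdd_eq_zero.mp h0)

omit [IsCyclotomicExtension {p} ℚ K] in
/-- Sums over units as sums over `0 ≤ r < p`. -/
theorem sum_units_eq_sum_range (f : ℕ → ZMod p) (h0 : f 0 = 0) :
    ∑ d : (ZMod p)ˣ, f (d : ZMod p).val = ∑ r ∈ Finset.range p, f r := by
  have hp : p.Prime := Fact.out
  have : NeZero p := ⟨hp.ne_zero⟩
  rw [← Finset.sum_filter_of_ne (s := Finset.range p) (p := fun r => r ≠ 0)
    fun r _ hr h => hr (h ▸ h0)]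
  refine Finset.sum_nbij (fun d : (ZMod p)ˣ => (d : ZMod p).val)
    (fun d _ => Finset.mem_filter.mpr
      ⟨Finset.mem_range.mpr (ZMod.val_lt _), (ZMod.val_ne_zero _).mpr d.ne_zero⟩)
    ?_ ?_ fun _ _ => rfl
  · exact fun d _ d' _ h => Units.ext (ZMod.val_injective p h)
  · intro r hr
    obtain ⟨hr, h0r⟩ := Finset.mem_filter.mp (Finset.mem_coe.mp hr)
    rw [Finset.mem_range] at hr
    have hne : (r : ZMod p) ≠ 0 := by
      rw [Ne, ZMod.natCast_eq_zero_iff]
      exact fun h => absurd (Nat.le_of_dvd (Nat.pos_of_ne_zero h0r) h) (by omega)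
    exact ⟨Units.mk0 _ hne, Finset.mem_coe.mpr (Finset.mem_univ _), ZMod.val_cast_of_lt hr⟩

/-- **Herbrand's theorem** for characters. -/
theorem dvd_bernoulli_of_weight_char (h5 : 5 ≤ p) {i : ℕ} (hi : Odd i) (h3 : 3 ≤ i) (hip : i ≤ p - 2)
    (φ : ClassGroup (𝓞 K) →* Multiplicative (ZMod p))
    (hφ : ∀ (d : (ZMod p)ˣ) (I J : (Ideal (𝓞 K))⁰),
      J.1 = I.1.map (sigma p K d : 𝓞 K →+* 𝓞 K) →
      φ (ClassGroup.mk0 J) = φ (ClassGroup.mk0 I) ^ ((d : ZMod p) ^ i).val)
    (hne : φ ≠ 1) : (p : ℤ) ∣ (bernoulli (p - i)).num := by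
  have hp : p.Prime := Fact.out
  have : NeZero p := ⟨hp.ne_zero⟩
  have hev : Even (p - i) :=
    Nat.even_iff.mpr (by have := hp.eq_two_or_odd; rw [Nat.odd_iff] at hi; omega)
  obtain ⟨a, ha, hak⟩ := FA.OrderTheta.exists_multiplier (p := p) (m := p - i)
    fun h => by have := Nat.le_of_dvd (by omega) h; omega
  rw [← ZMod.natCast_mod] at ha hak
  refine (FA.OrderTheta.dvd_num_bernoulli_iff h5 (by omega) (by omega) hev ha hak).mpr ?_
  rw [← ZMod.natCast_eq_zero_iff, Nat.cast_sum]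
  have h := sum_eq_zero_of_weight_char i φ hφ hne (a % p) (Nat.mod_lt _ hp.pos)
  rw [← sum_units_eq_sum_range (fun r => ((r ^ (p - i - 1) * (a % p * r / p) : ℕ) : ZMod p))
    (by simp)]
  rw [← h]
  refine Finset.sum_congr rfl fun d _ => ?_
  rw [Nat.cast_mul, Nat.cast_pow, ZMod.natCast_zmod_val, mul_comm]
  congr 1
  rw [← Units.val_pow_eq_pow_val, ← Units.val_pow_eq_pow_val]
  congr 1
  refine mul_right_cancel (b := d ^ i) ?_
  rw [← pow_add, inv_pow, inv_mul_cancel, show p - i - 1 + i = p - 1 by omega,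
    ← ZMod.card_units p, pow_card_eq_one]

/-- No character of weight one. -/
theorem no_weight_one_char (h3 : 3 ≤ p) (φ : ClassGroup (𝓞 K) →* Multiplicative (ZMod p))
    (hφ : ∀ (d : (ZMod p)ˣ) (I J : (Ideal (𝓞 K))⁰),
      J.1 = I.1.map (sigma p K d : 𝓞 K →+* 𝓞 K) →
      φ (ClassGroup.mk0 J) = φ (ClassGroup.mk0 I) ^ ((d : ZMod p) ^ 1).val)
    (hne : φ ≠ 1) : False := by
  have hp : p.Prime := Fact.out
  have : NeZero p := ⟨hp.ne_zero⟩
  have h := sum_eq_zero_of_weight_char 1 φ hφ hne (p - 1) (by omega)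
  have e : ∀ d : (ZMod p)ˣ, (((p - 1) * (d : ZMod p).val / p : ℕ) : ZMod p) = (d : ZMod p) - 1 := by
    intro d
    have h0 : 0 < (d : ZMod p).val := Nat.pos_of_ne_zero ((ZMod.val_ne_zero _).mpr d.ne_zero)
    have hlt : (d : ZMod p).val < p := ZMod.val_lt _
    have key : ∀ r q : ℕ, r ≤ q → q * (r + 1) / (q + 1) = r := fun r q h =>
      Nat.div_eq_of_lt_le (by nlinarith) (by nlinarith)
    have hdiv := key ((d : ZMod p).val - 1) (p - 1) (by omega)
    rw [Nat.sub_add_cancel h0, Nat.sub_add_cancel hp.one_le] at hdiv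
    rw [hdiv,
      Nat.cast_sub (by omega), ZMod.natCast_zmod_val, Nat.cast_one]
  simp only [e, pow_one, sub_mul, one_mul, Units.mul_inv, Finset.sum_sub_distrib, Finset.sum_const,
    Finset.card_univ, nsmul_eq_mul, mul_one] at h
  have hsum : ∑ d : (ZMod p)ˣ, ((d⁻¹ : (ZMod p)ˣ) : ZMod p) = 0 := by
    have h1 := FiniteField.sum_pow_units (ZMod p) 1
    simp only [pow_one, ZMod.card] at h1
    rw [if_neg (fun h => by have := Nat.le_of_dvd one_pos h; omega)] at h1
    exact (Fintype.sum_equiv (Equiv.inv _) _ _ fun d => rfl).trans h1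
  rw [hsum, sub_zero, ZMod.card_units p, Nat.cast_sub (by omega), ZMod.natCast_self, Nat.cast_one,
    zero_sub, neg_eq_zero] at h
  exact one_ne_zero h

variable (p K)

/-- The projector of weight `i`. -/
def weightProj (i : ℕ) : ClassGroup (𝓞 K) →* ClassGroup (𝓞 K) where
  toFun C := ∏ d : (ZMod p)ˣ, sigmaCl p K d C ^ (((d⁻¹ : (ZMod p)ˣ) : ZMod p) ^ i).val
  map_one' := Finset.prod_eq_one fun d _ => by rw [map_one, one_pow]
  map_mul' C D := by
    rw [← Finset.prod_mul_distrib]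
    exact Finset.prod_congr rfl fun d _ => by rw [map_mul, mul_pow]

/-- An eigen class killed by `p` gives a character of the same weight. -/
theorem exists_weight_char_of_eigen (i : ℕ) {x : ClassGroup (𝓞 K)} (hx : x ^ p = 1) (hx1 : x ≠ 1)
    (heig : ∀ d : (ZMod p)ˣ, sigmaCl p K d x = x ^ ((d : ZMod p) ^ i).val) :
    ∃ φ : ClassGroup (𝓞 K) →* Multiplicative (ZMod p), φ ≠ 1 ∧
      ∀ (d : (ZMod p)ˣ) (I J : (Ideal (𝓞 K))⁰),
        J.1 = I.1.map (sigma p K d : 𝓞 K →+* 𝓞 K) →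
        φ (ClassGroup.mk0 J) = φ (ClassGroup.mk0 I) ^ ((d : ZMod p) ^ i).val := by
  have hp : p.Prime := Fact.out
  by_contra hno
  push Not at hno
  have hmem : ∀ C, ∃ D, weightProj p K i C = D ^ p := by
    intro C
    by_contra h
    push Not at h
    obtain ⟨ψ, hψ⟩ := exists_hom_ne_one p h
    obtain ⟨e, I, J, hJ, hne⟩ := hno (ψ.comp (weightProj p K i))
      fun h' => hψ (DFunLike.congr_fun h' C)
    refine hne ?_
    rw [← sigmaCl_mk0 p K e I J hJ]
    simp only [MonoidHom.comp_apply, weightProj, MonoidHom.coe_mk, OneHom.coe_mk, map_prod, map_pow]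
    apply Multiplicative.toAdd.injective
    rw [toAdd_prod, toAdd_pow, toAdd_prod, Finset.smul_sum]
    refine Fintype.sum_equiv (Equiv.mulRight e) _ _ fun d => ?_
    simp only [toAdd_pow, nsmul_eq_mul, ZMod.natCast_zmod_val, Equiv.coe_mulRight, ← sigmaCl_mul]
    have hee : (e : ZMod p) ^ i * (((e⁻¹ : (ZMod p)ˣ) : ZMod p)) ^ i = 1 := by
      rw [← mul_pow, Units.mul_inv, one_pow]
    rw [mul_inv_rev, Units.val_mul, mul_pow]
    linear_combination (-(((d⁻¹ : (ZMod p)ˣ) : ZMod p) ^ i) *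
      Multiplicative.toAdd (ψ (sigmaCl p K (d * e) (ClassGroup.mk0 I)))) * hee
  have hT : weightProj p K i x = x⁻¹ := by
    have h1 : weightProj p K i x = x ^ (∑ d : (ZMod p)ˣ, ((d : ZMod p) ^ i).val *
        (((d⁻¹ : (ZMod p)ˣ) : ZMod p) ^ i).val) := by
      simp only [weightProj, MonoidHom.coe_mk, OneHom.coe_mk, heig, ← pow_mul,
        Finset.prod_pow_eq_pow_sum]
    have hmod : (∑ d : (ZMod p)ˣ, ((d : ZMod p) ^ i).val *
        (((d⁻¹ : (ZMod p)ˣ) : ZMod p) ^ i).val) % p = (p - 1) % p :=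
      (ZMod.natCast_eq_natCast_iff' _ _ p).mp (by
        rw [Nat.cast_sum]
        simp only [Nat.cast_mul, ZMod.natCast_zmod_val, ← mul_pow, Units.mul_inv, one_pow,
          Finset.sum_const, Finset.card_univ, ZMod.card_units p, nsmul_eq_mul, mul_one])
    rw [h1, pow_eq_pow_mod _ hx, hmod, ← pow_eq_pow_mod _ hx]
    exact eq_inv_of_mul_eq_one_left
      (by rw [← pow_succ, show p - 1 + 1 = p by have := hp.two_le; omega, hx])
  have hall : ∀ n : ℕ, ∃ y, x = y ^ p ^ n := by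
    intro n
    induction n with
    | zero => exact ⟨x, by simp⟩
    | succ n ih =>
      obtain ⟨y, hy⟩ := ih
      obtain ⟨z, hz⟩ := hmem y
      refine ⟨z⁻¹, ?_⟩
      rw [inv_pow, ← inv_inj, inv_inv, ← hT, hy, map_pow, hz, ← pow_mul, ← pow_succ']
  set N := Fintype.card (ClassGroup (𝓞 K))
  obtain ⟨y, hy⟩ := hall N
  have hord : orderOf y = p ^ (N + 1) := orderOf_eq_prime_pow
    (by rw [← hy]; exact hx1) (by rw [pow_succ, pow_mul, ← hy, hx])
  have h1 : p ^ (N + 1) ≤ N := hord ▸ orderOf_le_card_univ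
  have h2 := Nat.lt_pow_self (n := N + 1) hp.one_lt
  omega

/-- **Herbrand's theorem.** -/
theorem herbrand (h5 : 5 ≤ p) {i : ℕ} (hi : Odd i) (hip : i ≤ p - 2) {x : ClassGroup (𝓞 K)}
    (hx : x ^ p = 1) (hx1 : x ≠ 1)
    (heig : ∀ d : (ZMod p)ˣ, sigmaCl p K d x = x ^ ((d : ZMod p) ^ i).val) :
    3 ≤ i ∧ (p : ℤ) ∣ (bernoulli (p - i)).num := by
  obtain ⟨φ, hne, hφ⟩ := exists_weight_char_of_eigen p K i hx hx1 heig
  rcases (show i = 1 ∨ 3 ≤ i by rw [Nat.odd_iff] at hi; omega) with rfl | h3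
  · exact (no_weight_one_char (by omega) φ hφ hne).elim
  · exact ⟨h3, dvd_bernoulli_of_weight_char h5 hi h3 hip φ hφ hne⟩

/-- **Kummer**: a Bernoulli regular prime has no `p`-torsion in the minus part. -/
theorem minus_torsion_trivial (h5 : 5 ≤ p)
    (hreg : ∀ k, Even k → 2 ≤ k → k ≤ p - 3 → ¬ (p : ℤ) ∣ (bernoulli k).num)
    {x : ClassGroup (𝓞 K)} (hx : x ^ p = 1) (hconj : sigmaCl p K (-1) x = x⁻¹) : x = 1 := by
  have hp : p.Prime := Fact.out
  have : NeZero p := ⟨hp.ne_zero⟩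
  have hodd := hp.eq_two_or_odd
  have hmodpow : ∀ (y : ClassGroup (𝓞 K)) (a b : ℕ), y ^ p = 1 → (a : ZMod p) = (b : ZMod p) →
      y ^ a = y ^ b := fun y a b hy h => by
    rw [pow_eq_pow_mod a hy, pow_eq_pow_mod b hy, (ZMod.natCast_eq_natCast_iff' a b p).mp h]
  have hσp : ∀ d, sigmaCl p K d x ^ p = 1 := fun d => by rw [← map_pow, hx, map_one]
  have hsigma1 : sigmaCl p K 1 x = x := by
    show ClassGroup.mulEquiv (sigma p K 1) x = x
    rw [map_one]
    exact ClassGroup.mulEquiv_refl_apply x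
  have hproj : ∀ i < p - 1, weightProj p K i x = 1 := by
    intro i hi
    have hPp : weightProj p K i x ^ p = 1 := by rw [← map_pow, hx, map_one]
    rcases Nat.even_or_odd i with hev | hodd'
    · have hneg : weightProj p K i x = (weightProj p K i x)⁻¹ := by
        simp only [weightProj, MonoidHom.coe_mk, OneHom.coe_mk, ← Finset.prod_inv_distrib, ← inv_pow]
        refine Fintype.prod_equiv (Equiv.mulRight (-1)) _ _ fun d => ?_
        rw [Equiv.coe_mulRight, sigmaCl_mul, hconj, map_inv, inv_inv, mul_inv_rev, inv_neg, inv_one,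
          neg_mul, one_mul, Units.val_neg, hev.neg_pow]
      obtain ⟨r, hr⟩ : ∃ r, p = 2 * r + 1 := ⟨p / 2, by omega⟩
      set P := weightProj p K i x
      have hsq : P ^ 2 = 1 := by
        rw [pow_two]; nth_rewrite 2 [hneg]; exact mul_inv_cancel P
      calc P = P ^ (2 * r + 1) := by rw [pow_succ, pow_mul, hsq, one_pow, one_mul]
        _ = 1 := by rw [← hr, hPp]
    · by_contra hne
      have heig : ∀ e : (ZMod p)ˣ, sigmaCl p K e (weightProj p K i x) =
          weightProj p K i x ^ ((e : ZMod p) ^ i).val := by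
        intro e
        simp only [weightProj, MonoidHom.coe_mk, OneHom.coe_mk, map_prod, map_pow,
          ← Finset.prod_pow, ← pow_mul, ← sigmaCl_mul]
        refine Fintype.prod_equiv (Equiv.mulLeft e) _ _ fun d => ?_
        refine hmodpow _ _ _ (hσp _) ?_
        have hee : (e : ZMod p) ^ i * (((e⁻¹ : (ZMod p)ˣ) : ZMod p)) ^ i = 1 := by
          rw [← mul_pow, Units.mul_inv, one_pow]
        simp only [Nat.cast_mul, ZMod.natCast_zmod_val, Equiv.coe_mulLeft, mul_inv_rev,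
          Units.val_mul, mul_pow]
        linear_combination (-(((d⁻¹ : (ZMod p)ˣ) : ZMod p) ^ i)) * hee
      obtain ⟨h3, hdvd⟩ := herbrand p K h5 hodd' (by omega) hPp hne heig
      exact hreg (p - i) (Nat.even_iff.mpr (by rw [Nat.odd_iff] at hodd'; omega)) (by omega)
        (by omega) hdvd
  have htot : ∏ i ∈ Finset.range (p - 1), weightProj p K i x = x⁻¹ := by
    simp only [weightProj, MonoidHom.coe_mk, OneHom.coe_mk]
    rw [Finset.prod_comm, Fintype.prod_eq_single (1 : (ZMod p)ˣ) fun d hd => ?_]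
    · rw [Finset.prod_pow_eq_pow_sum, hsigma1, hmodpow x _ (p - 1) hx ?_]
      · exact eq_inv_of_mul_eq_one_left
          (by rw [← pow_succ, Nat.sub_add_cancel hp.one_le, hx])
      · simp
    · rw [Finset.prod_pow_eq_pow_sum, hmodpow _ _ 0 (hσp d) ?_, pow_zero]
      rw [Nat.cast_sum, Nat.cast_zero]
      simp only [ZMod.natCast_zmod_val]
      have hne : ((d⁻¹ : (ZMod p)ˣ) : ZMod p) ≠ 1 := fun h =>
        hd (inv_eq_one.mp (Units.ext h))
      rw [geom_sum_eq hne, ZMod.pow_card_sub_one_eq_one (Units.ne_zero _), sub_self, zero_div]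
  rw [Finset.prod_eq_one fun i hi => hproj i (Finset.mem_range.mp hi)] at htot
  exact inv_eq_one.mp htot.symm

end FA.Ext
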