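import Fermat.Agent.ExtVanish.Residue
import Mathlib.NumberTheory.Cyclotomic.Gal
import Mathlib.LinearAlgebra.LinearIndependent.Basic
import Mathlib.RingTheory.Ideal.Norm.RelNorm
import Mathlib.RingTheory.NormTrace
import Mathlib.RingTheory.IntegralDomain

/-!
# Thaine's auxiliary element

For a degree one prime of `ℚ(ζ_p)` over `q`, a unit `η` of `ℚ(ζ_p, ζ_q)` of norm one congruent to
`1 + ζ_p` modulo the primes over `q` is `θ / s θ` by Hilbert's Theorem 90; the norm of `θ` gives a
relation between the primes over `q` in the class group modulo `p`.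
-/

set_option autoImplicit false

noncomputable section

open NumberField IsDedekindDomain Polynomial
open scoped Classical

namespace FA.Ext

section Identity

variable {A : Type*} [CommRing A] [IsDomain A]

/-- `∏ (c μ - 1) = 1` over primitive `q`-th roots `μ` if `c^q = c ≠ 1`. -/
theorem prod_mul_sub_one_eq_one {q : ℕ} [Fact q.Prime] (hq2 : q ≠ 2) {ξ : A}
    (hξ : IsPrimitiveRoot ξ q) {c : A} (hc : c ^ (q - 1) = 1) (hc1 : c ≠ 1) :
    ∏ μ ∈ primitiveRoots q A, (c * μ - 1) = 1 := by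
  have hq : q.Prime := Fact.out
  have hq1 : q - 1 ≠ 0 := by have := hq.two_le; omega
  set c' := c ^ (q - 2) with hc'
  have hcc : c * c' = 1 := by
    rw [hc', ← pow_succ', show q - 2 + 1 = q - 1 by have := hq.two_le; omega, hc]
  have hc'1 : c' ≠ 1 := fun h => hc1 (by rwa [h, mul_one] at hcc)
  have hc'q : c' ^ q = c' := by
    have : c' ^ (q - 1) = 1 := by rw [hc', ← pow_mul, mul_comm, pow_mul, hc, one_pow]
    calc c' ^ q = c' ^ (q - 1) * c' := by
          rw [← pow_succ, show q - 1 + 1 = q by omega]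
      _ = c' := by rw [this, one_mul]
  have hev : ∏ μ ∈ primitiveRoots q A, (c' - μ) = 1 := by
    have h1 : (cyclotomic q A).eval c' = ∏ μ ∈ primitiveRoots q A, (c' - μ) := by
      rw [cyclotomic_eq_prod_X_sub_primitiveRoots hξ, eval_prod]
      simp
    rw [← h1, cyclotomic_prime, eval_finsetSum]
    simp only [eval_pow, eval_X]
    have h2 := geom_sum_mul c' q
    rw [hc'q] at h2
    exact mul_right_cancel₀ (sub_ne_zero.mpr hc'1) (h2.trans (one_mul _).symm)
  calc ∏ μ ∈ primitiveRoots q A, (c * μ - 1)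
      = ∏ μ ∈ primitiveRoots q A, (-c) * (c' - μ) := Finset.prod_congr rfl fun μ _ => by
        rw [neg_mul, mul_sub, hcc]; ring
    _ = (-c) ^ (q - 1) * 1 := by
        rw [Finset.prod_mul_distrib, Finset.prod_const, hev, hξ.card_primitiveRoots,
          Nat.totient_prime hq]
    _ = 1 := by
        rw [mul_one, Even.neg_pow (hq.even_sub_one hq2), hc]

end Identity

variable {K : Type*} [Field K] [NumberField K]
variable (p : ℕ) [Fact p.Prime] [IsCyclotomicExtension {p} ℚ K]

variable {F : Type*} [Field F] [NumberField F] [Algebra K F]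

/-- Abstract data of the auxiliary cyclotomic extension. -/
theorem aux_degree {q : ℕ} [Fact q.Prime] [IsCyclotomicExtension {q} K F]
    (v : HeightOneSpectrum (𝓞 K)) (hvp : (p : 𝓞 K) ∉ v.asIdeal)
    (hv : Ideal.absNorm v.asIdeal = q) :
    Irreducible (cyclotomic q K) ∧
      ∃ V : HeightOneSpectrum (𝓞 F),
        v.asIdeal.map (algebraMap (𝓞 K) (𝓞 F)) = V.asIdeal ^ (q - 1) ∧
        Ideal.absNorm V.asIdeal = q := by
  have hq : q.Prime := Fact.out
  have : NeZero q := ⟨hq.ne_zero⟩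
  have hξ := IsCyclotomicExtension.zeta_spec q K F
  set n := Module.finrank K F with hn
  -- the degree is at most `q - 1`
  let pb := hξ.powerBasis K
  have hmin : minpoly K (IsCyclotomicExtension.zeta q K F) ∣ cyclotomic q K := by
    refine minpoly.dvd K _ ?_
    rw [aeval_def, eval₂_eq_eval_map, map_cyclotomic]
    exact hξ.isRoot_cyclotomic hq.pos
  have hnat : n = (minpoly K (IsCyclotomicExtension.zeta q K F)).natDegree := by
    rw [hn, pb.finrank, ← pb.natDegree_minpoly, IsPrimitiveRoot.powerBasis_gen]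
  have hle : n ≤ q - 1 := by
    rw [hnat]
    refine (natDegree_le_of_dvd hmin (cyclotomic_ne_zero q K)).trans ?_
    rw [natDegree_cyclotomic, Nat.totient_prime hq]
  -- the prime `V`
  set f := algebraMap (𝓞 K) (𝓞 F)
  set vF := v.asIdeal.map f with hvF
  have hvF0 : vF ≠ ⊥ := Ideal.map_ne_bot_of_ne_bot v.ne_bot
  have hNvF : Ideal.absNorm vF = q ^ n := by
    rw [hvF, Ideal.absNorm_algebraMap, hv, ← IsFractionRing.finrank_eq (𝓞 K) K (𝓞 F) F]
  have hvFtop : vF ≠ ⊤ := fun h => by
    rw [h, Ideal.absNorm_top] at hNvF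
    have : 1 < q ^ n := Nat.one_lt_pow (Module.finrank_pos).ne' hq.one_lt
    omega
  obtain ⟨W, hW, hWv⟩ := Ideal.exists_le_maximal vF hvFtop
  have hW0 : W ≠ ⊥ := ne_bot_of_le_ne_bot hvF0 hWv
  let V : HeightOneSpectrum (𝓞 F) := ⟨W, hW.isPrime, hW0⟩
  have hcomap : W.comap f = v.asIdeal :=
    (v.isMaximal.eq_of_le (Ideal.comap_ne_top _ hW.ne_top)
      (Ideal.map_le_iff_le_comap.mp hWv)).symm
  have hqW : (q : 𝓞 F) ∈ W := by
    rw [← map_natCast f]
    exact Ideal.mem_comap.mp (hcomap.symm ▸ natCast_mem_of_absNorm_eq hv)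
  -- `W^(q-1)` divides `q`
  have hΛ := IsCyclotomicExtension.Rat.associated_zeta_sub_one_pow_prime q hξ
  have hΛW : hξ.toInteger - 1 ∈ W :=
    hW.isPrime.mem_of_pow_mem (q - 1) (W.mem_of_dvd hΛ.symm.dvd hqW)
  have hWq : W ^ (q - 1) ∣ Ideal.span {(q : 𝓞 F)} := by
    rw [Ideal.dvd_span_singleton]
    exact Ideal.mem_of_dvd _ hΛ.dvd (Ideal.pow_mem_pow hΛW _)
  have hsplit : Ideal.span {(q : 𝓞 F)} =
      vF * ∏ d ∈ (Finset.univ.erase (1 : (ZMod p)ˣ)),
        (conjPrime (sigma p K d) v).asIdeal.map f := by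
    have h1 : (conjPrime (sigma p K 1) v).asIdeal = v.asIdeal := by
      ext x
      rw [mem_conjPrime, sigma_symm_apply, inv_one, sigma_one_apply]
    rw [hvF]
    conv_rhs => arg 1; rw [← h1]
    rw [Finset.mul_prod_erase Finset.univ (fun d => (conjPrime (sigma p K d) v).asIdeal.map f)
        (Finset.mem_univ 1)]
    have h2 := congrArg (Ideal.map f) (prod_conjPrime p v hvp (hv.symm ▸ hq))
    rw [← Ideal.mapHom_apply, map_prod] at h2
    simp only [Ideal.mapHom_apply, Ideal.map_span, Set.image_singleton, map_natCast, hv] at h2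
    exact h2.symm
  have hWvF : W ^ (q - 1) ∣ vF := by
    rw [hsplit] at hWq
    refine V.prime.pow_dvd_of_dvd_mul_right _ (fun hd => ?_) hWq
    obtain ⟨d, hd, hdW⟩ := V.prime.exists_mem_finset_dvd hd
    have h1 : (conjPrime (sigma p K d) v).asIdeal ≤ v.asIdeal :=
      hcomap ▸ Ideal.map_le_iff_le_comap.mp (Ideal.dvd_iff_le.mp hdW)
    have h2 : conjPrime (sigma p K d) v = conjPrime (sigma p K 1) v := by
      refine HeightOneSpectrum.ext (((conjPrime (sigma p K d) v).isMaximal.eq_of_le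
        v.isPrime.ne_top h1).trans ?_)
      ext x
      rw [mem_conjPrime, sigma_symm_apply, inv_one, sigma_one_apply]
    exact Finset.ne_of_mem_erase hd (conjPrime_injective p v hvp (hv.symm ▸ hq) h2)
  -- norms
  have hdvd : Ideal.absNorm W ^ (q - 1) ∣ q ^ n := by
    rw [← map_pow, ← hNvF]; exact map_dvd _ hWvF
  obtain ⟨e, -, he⟩ := (Nat.dvd_prime_pow hq).mp
    ((dvd_pow_self (Ideal.absNorm W) (by have := hq.two_le; omega : q - 1 ≠ 0)).trans hdvd)
  have he0 : e ≠ 0 := fun h => hW.ne_top (Ideal.absNorm_eq_one_iff.mp (by rw [he, h, pow_zero]))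
  rw [he, ← pow_mul, Nat.pow_dvd_pow_iff_le_right hq.one_lt] at hdvd
  have hq1 : 0 < q - 1 := by have := hq.two_le; omega
  have he1 : e = 1 := by
    by_contra hne
    have h1 : 2 * (q - 1) ≤ e * (q - 1) := Nat.mul_le_mul_right _ (by omega)
    omega
  subst he1
  rw [pow_one] at he
  rw [one_mul] at hdvd
  have hneq : n = q - 1 := le_antisymm hle hdvd
  refine ⟨?_, V, (eq_of_dvd_of_absNorm_eq hWvF (pow_ne_zero _ hW0) ?_).symm, he⟩
  · have heq : minpoly K (IsCyclotomicExtension.zeta q K F) = cyclotomic q K := by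
      refine (Polynomial.eq_of_monic_of_dvd_of_natDegree_le (minpoly.monic (Algebra.IsIntegral.isIntegral _))
        (cyclotomic.monic q K) hmin ?_).symm
      rw [natDegree_cyclotomic, Nat.totient_prime hq, ← hnat, hneq]
    rw [← heq]
    exact minpoly.irreducible (Algebra.IsIntegral.isIntegral _)
  · rw [map_pow, he, hNvF, hneq]

section Galois

variable {q : ℕ} [Fact q.Prime] [IsCyclotomicExtension {q} K F]

variable (K F) in
/-- The automorphism `ξ ↦ ξ^a`. -/
def auxAut (hirr : Irreducible (cyclotomic q K)) (a : (ZMod q)ˣ) : F ≃ₐ[K] F :=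
  haveI : NeZero q := ⟨(Fact.out : q.Prime).ne_zero⟩
  (IsCyclotomicExtension.autEquivPow F hirr).symm a

theorem auxAut_mul (hirr : Irreducible (cyclotomic q K)) (a b : (ZMod q)ˣ) (x : F) :
    auxAut K F hirr (a * b) x = auxAut K F hirr a (auxAut K F hirr b x) := by
  simp only [auxAut, map_mul]
  rfl

theorem auxAut_one (hirr : Irreducible (cyclotomic q K)) (x : F) :
    auxAut K F hirr 1 x = x := by
  simp only [auxAut, map_one]
  rfl

theorem auxAut_zeta (hirr : Irreducible (cyclotomic q K)) (a : (ZMod q)ˣ) :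
    haveI : NeZero q := ⟨(Fact.out : q.Prime).ne_zero⟩
    auxAut K F hirr a (IsCyclotomicExtension.zeta q K F) =
      IsCyclotomicExtension.zeta q K F ^ (a : ZMod q).val := by
  have : NeZero q := ⟨(Fact.out : q.Prime).ne_zero⟩
  set e := IsCyclotomicExtension.autEquivPow F hirr
  have h : e ((IsCyclotomicExtension.autEquivPow F hirr).symm a) = a := MulEquiv.apply_symm_apply e a
  have h2 : auxAut K F hirr a (IsCyclotomicExtension.zeta q K F) =
      IsCyclotomicExtension.zeta q K F ^ ((e (auxAut K F hirr a) : (ZMod q)ˣ) : ZMod q).val := by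
    simp only [e, IsCyclotomicExtension.autEquivPow_apply, OneHom.toFun_eq_coe,
      MonoidHom.toOneHom_coe, IsPrimitiveRoot.autToPow_spec]
  rw [h2]
  exact congrArg (fun u : (ZMod q)ˣ => IsCyclotomicExtension.zeta q K F ^ (u : ZMod q).val) h

variable (K F) in
/-- The automorphism `ξ ↦ ξ^a` of the ring of integers. -/
def auxInt (hirr : Irreducible (cyclotomic q K)) (a : (ZMod q)ˣ) : 𝓞 F ≃+* 𝓞 F :=
  RingOfIntegers.mapRingEquiv (auxAut K F hirr a).toRingEquiv

theorem auxInt_coe (hirr : Irreducible (cyclotomic q K)) (a : (ZMod q)ˣ) (x : 𝓞 F) :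
    (auxInt K F hirr a x : F) = auxAut K F hirr a x := rfl

theorem auxInt_mul (hirr : Irreducible (cyclotomic q K)) (a b : (ZMod q)ˣ) (x : 𝓞 F) :
    auxInt K F hirr (a * b) x = auxInt K F hirr a (auxInt K F hirr b x) :=
  RingOfIntegers.ext (auxAut_mul hirr a b (x : F))

theorem auxInt_one (hirr : Irreducible (cyclotomic q K)) (x : 𝓞 F) :
    auxInt K F hirr 1 x = x :=
  RingOfIntegers.ext (auxAut_one hirr (x : F))

theorem auxInt_algebraMap (hirr : Irreducible (cyclotomic q K)) (a : (ZMod q)ˣ) (x : 𝓞 K) :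
    auxInt K F hirr a (algebraMap (𝓞 K) (𝓞 F) x) = algebraMap (𝓞 K) (𝓞 F) x :=
  RingOfIntegers.ext ((auxAut K F hirr a).commutes (x : K))

variable (K F q) in
/-- The auxiliary root of unity. -/
def auxZeta : 𝓞 F :=
  haveI : NeZero q := ⟨(Fact.out : q.Prime).ne_zero⟩
  (IsCyclotomicExtension.zeta_spec q K F).toInteger

omit [NumberField F] [NumberField K] in
theorem auxZeta_spec : IsPrimitiveRoot (auxZeta K F q) q :=
  haveI : NeZero q := ⟨(Fact.out : q.Prime).ne_zero⟩
  (IsCyclotomicExtension.zeta_spec q K F).toInteger_isPrimitiveRoot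

theorem auxInt_zeta (hirr : Irreducible (cyclotomic q K)) (a : (ZMod q)ˣ) :
    auxInt K F hirr a (auxZeta K F q) = auxZeta K F q ^ (a : ZMod q).val := by
  refine RingOfIntegers.ext ?_
  rw [auxInt_coe]
  exact auxAut_zeta hirr a

theorem prod_auxInt_eq_one (hirr : Irreducible (cyclotomic q K)) (hq2 : q ≠ 2) {c : 𝓞 K}
    (hc : c ^ (q - 1) = 1) (hc1 : c ≠ 1) :
    ∏ a : (ZMod q)ˣ,
      auxInt K F hirr a (algebraMap (𝓞 K) (𝓞 F) c * auxZeta K F q - 1) = 1 := by
  have hq : q.Prime := Fact.out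
  have : NeZero q := ⟨hq.ne_zero⟩
  simp only [map_sub, map_mul, map_one, auxInt_algebraMap, auxInt_zeta]
  have hξ : IsPrimitiveRoot (auxZeta K F q) q := auxZeta_spec
  refine Eq.trans ?_ (prod_mul_sub_one_eq_one hq2 hξ (c := algebraMap (𝓞 K) (𝓞 F) c)
    (by rw [← map_pow, hc, map_one])
    (fun h => hc1 (FaithfulSMul.algebraMap_injective (𝓞 K) (𝓞 F) (h.trans (map_one _).symm))))
  refine Finset.prod_bij (fun a _ => auxZeta K F q ^ (a : ZMod q).val) (fun a _ => ?_)
    (fun a _ b _ h => ?_) (fun μ hμ => ?_) (fun a _ => rfl)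
  · rw [mem_primitiveRoots hq.pos]
    exact hξ.pow_of_coprime _ (ZMod.val_coe_unit_coprime a)
  · exact Units.ext (ZMod.val_injective q (hξ.pow_inj (ZMod.val_lt _) (ZMod.val_lt _) h))
  · obtain ⟨i, hi, hco, rfl⟩ := hξ.isPrimitiveRoot_iff.mp ((mem_primitiveRoots hq.pos).mp hμ)
    refine ⟨ZMod.unitOfCoprime i hco, Finset.mem_univ _, ?_⟩
    rw [ZMod.coe_unitOfCoprime, ZMod.val_natCast_of_lt hi]

/-- Hilbert 90 for the auxiliary extension. -/
theorem exists_hilbert90 (hirr : Irreducible (cyclotomic q K)) {g : (ZMod q)ˣ}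
    (hg : ∀ a, a ∈ Subgroup.zpowers g) {η : 𝓞 F}
    (hη : ∏ a : (ZMod q)ˣ, auxInt K F hirr a η = 1) :
    ∃ θ : 𝓞 F, θ ≠ 0 ∧ auxInt K F hirr g θ * η = θ := by
  have hq : q.Prime := Fact.out
  have : NeZero q := ⟨hq.ne_zero⟩
  set N := Fintype.card (ZMod q)ˣ
  have hN : orderOf g = N := by
    rw [orderOf_eq_card_of_forall_mem_zpowers hg, Nat.card_eq_fintype_card]
  let P : ℕ → 𝓞 F := fun i => ∏ j ∈ Finset.range i, auxInt K F hirr (g ^ j) η
  have hPN : P N = 1 := by
    rw [← hη]
    refine Finset.prod_bij (fun j _ => g ^ j) (fun j _ => Finset.mem_univ _)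
      (fun i hi j hj h => ?_) (fun a _ => ?_) (fun j _ => rfl)
    · rw [Finset.mem_range, ← hN] at hi hj
      exact pow_injOn_Iio_orderOf hi hj h
    · obtain ⟨i, hi⟩ := (mem_powers_iff_mem_zpowers.mpr (hg a) : a ∈ Submonoid.powers g)
      refine ⟨i % N, Finset.mem_range.mpr (Nat.mod_lt _ Fintype.card_pos), ?_⟩
      rw [← hN, pow_mod_orderOf]
      exact hi
  have hP : ∀ i, auxInt K F hirr g (P i) * η = P (i + 1) := by
    intro i
    simp only [P, map_prod, ← auxInt_mul, ← pow_succ']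
    rw [Finset.prod_range_succ' (fun j => auxInt K F hirr (g ^ j) η), pow_zero, auxInt_one]
  let θ : 𝓞 F → 𝓞 F := fun y => ∑ i ∈ Finset.range N, P i * auxInt K F hirr (g ^ i) y
  have hθ : ∀ y, auxInt K F hirr g (θ y) * η = θ y := by
    intro y
    simp only [θ, map_sum, map_mul, Finset.sum_mul, ← auxInt_mul, ← pow_succ', mul_right_comm _ _ η,
      hP]
    have h1 := Finset.sum_range_succ (fun i => P i * auxInt K F hirr (g ^ i) y) N
    have h2 := Finset.sum_range_succ' (fun i => P i * auxInt K F hirr (g ^ i) y) N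
    have hlast : P N * auxInt K F hirr (g ^ N) y = P 0 * auxInt K F hirr (g ^ 0) y := by
      rw [hPN, ← hN, pow_orderOf_eq_one, pow_zero]
      simp [P]
    rw [h1, hlast] at h2
    exact (add_right_cancel h2).symm
  by_contra hcon
  push Not at hcon
  have hzero : ∀ y, θ y = 0 := fun y => by_contra fun h => hcon (θ y) h (hθ y)
  -- distinct automorphisms are linearly independent
  let hom : Fin N → (𝓞 F →* 𝓞 F) := fun i =>
    (auxInt K F hirr (g ^ (i : ℕ))).toRingHom.toMonoidHom
  have hinj : Function.Injective hom := by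
    intro i j h
    have h1 : auxInt K F hirr (g ^ (i : ℕ)) (auxZeta K F q) =
        auxInt K F hirr (g ^ (j : ℕ)) (auxZeta K F q) := DFunLike.congr_fun h _
    rw [auxInt_zeta, auxInt_zeta] at h1
    have h2 := Units.ext (ZMod.val_injective q
      (auxZeta_spec.pow_inj (ZMod.val_lt _) (ZMod.val_lt _) h1))
    exact Fin.ext (pow_injOn_Iio_orderOf (hN.symm ▸ i.2 : (i : ℕ) < orderOf g)
      (hN.symm ▸ j.2 : (j : ℕ) < orderOf g) h2)
  have hlin := (linearIndependent_monoidHom (𝓞 F) (𝓞 F)).comp hom hinj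
  have h0 := Fintype.linearIndependent_iff.mp hlin (fun i => P i) (by
    funext y
    simp only [Finset.sum_apply, Pi.smul_apply, smul_eq_mul, Function.comp_apply, Pi.zero_apply]
    rw [← hzero y]
    exact Fin.sum_univ_eq_sum_range (fun i => P i * auxInt K F hirr (g ^ i) y) N)
    ⟨0, Fintype.card_pos⟩
  simp [P] at h0

end Galois

end FA.Ext
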