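import Fermat.Agent.ExtVanish.Weight
import Mathlib.NumberTheory.NumberField.DedekindZeta
import Mathlib.LinearAlgebra.FreeModule.IdealQuotient

/-!
# Partial zeta functions of ideal classes

The partial zeta functions of any two ideal classes differ by a bounded amount near `s = 1`.
-/

set_option autoImplicit false

noncomputable section

open NumberField NumberField.mixedEmbedding NumberField.InfinitePlace Module
open Filter Topology Ideal
open scoped nonZeroDivisors Classical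

namespace FA.Ext

variable {K : Type*} [Field K] [NumberField K]

/-- `N(I)^(-s)`. -/
def zN (s : ℝ) (I : (Ideal (𝓞 K))⁰) : ℝ := (absNorm I.1 : ℝ) ^ (-s)

theorem zN_nonneg (s : ℝ) (I : (Ideal (𝓞 K))⁰) : 0 ≤ zN s I := by unfold zN; positivity

theorem zN_mul (s : ℝ) (I J : (Ideal (𝓞 K))⁰) : zN s (I * J) = zN s I * zN s J := by
  rw [zN, zN, zN, Submonoid.coe_mul, map_mul, Nat.cast_mul,
    Real.mul_rpow (by positivity) (by positivity)]

theorem one_le_absNorm (I : (Ideal (𝓞 K))⁰) : (1 : ℝ) ≤ absNorm I.1 := by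
  exact_mod_cast absNorm_pos_of_nonZeroDivisors I

variable (K) in
/-- The mixed embedding of an algebraic integer. -/
def intEmb (x : 𝓞 K) : mixedSpace K := mixedEmbedding K (x : K)

theorem intEmb_injective : Function.Injective (intEmb K) := fun _ _ h =>
  RingOfIntegers.ext (mixedEmbedding_injective K h)

theorem intEmb_add (x y : 𝓞 K) : intEmb K (x + y) = intEmb K x + intEmb K y := by
  simp [intEmb]

theorem intEmb_zero : intEmb K 0 = 0 := by simp [intEmb]

theorem norm_intEmb (x : 𝓞 K) :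
    mixedEmbedding.norm (intEmb K x) = (absNorm (Ideal.span {x}) : ℝ) := by
  rw [intEmb, norm_eq_norm, Ideal.absNorm_span_singleton, ← Algebra.coe_norm_int]
  simp [Nat.cast_natAbs]

/-- The summand on algebraic integers. -/
def iterm (s : ℝ) (x : 𝓞 K) : ℝ := wterm s (intEmb K x)

theorem iterm_nonneg (s : ℝ) (x : 𝓞 K) : 0 ≤ iterm s x := wterm_nonneg _ _

theorem iterm_zero (s : ℝ) : iterm (K := K) s 0 = 0 := by
  rw [iterm, intEmb_zero, wterm_zero]

theorem iterm_le_one {s : ℝ} (hs : 0 ≤ s) (x : 𝓞 K) : iterm s x ≤ 1 := by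
  by_cases hx : x = 0
  · rw [hx, iterm_zero]; exact zero_le_one
  rw [iterm, wterm, norm_intEmb]
  refine mul_le_one₀ (weight_le_one _) (by positivity)
    (Real.rpow_le_one_of_one_le_of_nonpos ?_ (by linarith))
  have h : absNorm (Ideal.span {x}) ≠ 0 := by
    rw [Ne, absNorm_eq_zero_iff, Ideal.span_singleton_eq_bot]; exact hx
  exact_mod_cast Nat.one_le_iff_ne_zero.mpr h

theorem summable_comp_of_subtype {E α : Type*} (S : Set E) (f : E → ℝ) (e : α → E)
    (he : Function.Injective e) (hm : ∀ x, e x ∈ S) (h : Summable fun z : S => f z) :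
    Summable fun x => f (e x) :=
  (h.comp_injective (show Function.Injective (fun x => (⟨e x, hm x⟩ : S)) from
    fun _ _ hab => he (congrArg Subtype.val hab)) :)

theorem summable_norm_intEmb {r : ℝ} (hr : r < -(finrank ℚ K : ℝ)) :
    Summable fun x : 𝓞 K => ‖intEmb K x‖ ^ r := by
  have hL : Summable fun z : mixedEmbedding.integerLattice K => ‖(z : mixedSpace K)‖ ^ r := by
    refine ZLattice.summable_norm_rpow (mixedEmbedding.integerLattice K) r ?_
    rw [ZLattice.rank ℝ (mixedEmbedding.integerLattice K), mixedEmbedding.finrank]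
    exact hr
  have hm : ∀ x : 𝓞 K, intEmb K x ∈ mixedEmbedding.integerLattice K := fun x =>
    LinearMap.mem_range_self _ x
  exact summable_comp_of_subtype (E := mixedSpace K) _ (fun v => ‖v‖ ^ r) (intEmb K)
    intEmb_injective hm hL

theorem summable_iterm {s : ℝ} (hs : s ∈ Set.Ioc (1 : ℝ) 2) :
    Summable (iterm (K := K) s) := by
  obtain ⟨C, hC⟩ := exists_wterm_le (K := K)
  refine Summable.of_nonneg_of_le (iterm_nonneg s) (fun x => hC s hs _)
    ((summable_norm_intEmb ?_).mul_left C)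
  have : (0 : ℝ) < finrank ℚ K := by exact_mod_cast finrank_pos
  nlinarith [hs.1]

/-- Lattice sum of the summand over an ideal. -/
def latticeSum (J : Ideal (𝓞 K)) (s : ℝ) : ℝ := ∑' x : J, iterm s (x : 𝓞 K)

theorem exists_coset_bound (a : 𝓞 K) (J : Ideal (𝓞 K)) :
    ∃ B : ℝ, ∀ s ∈ Set.Ioc (1 : ℝ) 2,
      |(∑' y : J, iterm s (a + (y : 𝓞 K))) - latticeSum J s| ≤ B := by
  obtain ⟨C, R, hC, hCR⟩ := exists_wterm_lipschitz (K := K) ‖intEmb K a‖
  set e : ℝ := -((finrank ℚ K : ℝ) + 1) with he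
  have he0 : e ≤ 0 := by have := (finrank ℚ K).cast_nonneg (α := ℝ); linarith
  set D : ℝ := C + max R 1 ^ (-e) with hD
  have hD0 : 0 ≤ D := by positivity
  set b : J → ℝ := fun y => D * ‖intEmb K y‖ ^ e + (if y = 0 then 1 else 0) with hb
  have hbsum : Summable b := by
    refine Summable.add ((Summable.mul_left D ?_)) (hasSum_ite_eq (0 : J) (1 : ℝ)).summable
    exact (summable_norm_intEmb (by linarith : e < -(finrank ℚ K : ℝ))).comp_injective
      Subtype.val_injective
  refine ⟨∑' y, b y, fun s hs => ?_⟩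
  have h1 : Summable fun y : J => iterm s (a + (y : 𝓞 K)) :=
    (summable_iterm hs).comp_injective ((add_right_injective a).comp Subtype.val_injective)
  have h2 : Summable fun y : J => iterm s (y : 𝓞 K) :=
    (summable_iterm hs).comp_injective Subtype.val_injective
  rw [latticeSum, ← h1.tsum_sub h2]
  have habs : ∀ y : J, |iterm s (a + (y : 𝓞 K)) - iterm s (y : 𝓞 K)| ≤ b y := by
    intro y
    have h01 : |iterm s (a + (y : 𝓞 K)) - iterm s (y : 𝓞 K)| ≤ 1 := by
      have := iterm_nonneg s (a + (y : 𝓞 K)); have := iterm_nonneg s (y : 𝓞 K)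
      have := iterm_le_one (by linarith [hs.1] : (0:ℝ) ≤ s) (a + (y : 𝓞 K))
      have := iterm_le_one (by linarith [hs.1] : (0:ℝ) ≤ s) (y : 𝓞 K)
      rw [abs_le]; constructor <;> linarith
    by_cases hy : y = 0
    · refine h01.trans ?_
      simp only [hb, if_pos hy]
      have : 0 ≤ D * ‖intEmb K (y : 𝓞 K)‖ ^ e := by positivity
      linarith
    simp only [hb, if_neg hy, add_zero]
    have hpos : 0 < ‖intEmb K (y : 𝓞 K)‖ := norm_pos_iff.mpr fun h =>
      hy (Subtype.ext (intEmb_injective (h.trans intEmb_zero.symm)))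
    by_cases hR : R ≤ ‖intEmb K (y : 𝓞 K)‖
    · rw [iterm, iterm, intEmb_add, add_comm]
      refine (hCR _ _ le_rfl hR s hs).trans ?_
      exact mul_le_mul_of_nonneg_right (le_add_of_nonneg_right (by positivity)) (by positivity)
    · refine h01.trans ?_
      have hle : max R 1 ^ e ≤ ‖intEmb K (y : 𝓞 K)‖ ^ e :=
        Real.rpow_le_rpow_of_nonpos hpos ((not_le.mp hR).le.trans (le_max_left _ _)) he0
      calc (1 : ℝ) = max R 1 ^ (-e) * max R 1 ^ e := by
            rw [← Real.rpow_add (by positivity), neg_add_cancel, Real.rpow_zero]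
        _ ≤ D * ‖intEmb K (y : 𝓞 K)‖ ^ e :=
            mul_le_mul (le_add_of_nonneg_left hC) hle (by positivity) hD0
  rw [← Real.norm_eq_abs]
  exact tsum_of_norm_bounded hbsum.hasSum habs

/-- The lattice sum over an ideal, times its norm, is the full lattice sum up to `O(1)`. -/
theorem exists_latticeSum_bound (J : (Ideal (𝓞 K))⁰) :
    ∃ B : ℝ, ∀ s ∈ Set.Ioc (1 : ℝ) 2,
      |(∑' x : 𝓞 K, iterm s x) - absNorm J.1 * latticeSum J.1 s| ≤ B := by
  have : Finite (𝓞 K ⧸ J.1) := Ideal.finiteQuotientOfFreeOfNeBot J.1 (nonZeroDivisors.coe_ne_zero J)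
  have : Fintype (𝓞 K ⧸ J.1) := Fintype.ofFinite _
  choose B hB using fun t : 𝓞 K ⧸ J.1 => exists_coset_bound (Quotient.out t) J.1
  refine ⟨∑ t, B t, fun s hs => ?_⟩
  have hmk : ∀ t : 𝓞 K ⧸ J.1, Ideal.Quotient.mk J.1 (Quotient.out t) = t := Quotient.out_eq
  let e : (𝓞 K ⧸ J.1) × J.1 → 𝓞 K := fun ty => Quotient.out ty.1 + (ty.2 : 𝓞 K)
  have he : Function.Bijective e := by
    constructor
    · rintro ⟨t, y⟩ ⟨t', y'⟩ h
      obtain rfl : t = t' := by
        have := congrArg (Ideal.Quotient.mk J.1) h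
        simpa [e, hmk, Ideal.Quotient.eq_zero_iff_mem.mpr y.2,
          Ideal.Quotient.eq_zero_iff_mem.mpr y'.2] using this
      simpa [e] using h
    · intro x
      refine ⟨⟨Ideal.Quotient.mk J.1 x, ⟨x - Quotient.out (Ideal.Quotient.mk J.1 x), ?_⟩⟩, ?_⟩
      · rw [← Ideal.Quotient.eq_zero_iff_mem, map_sub, hmk, sub_self]
      · simp [e]
  have hsum : Summable fun ty => iterm s (e ty) := (summable_iterm hs).comp_injective he.1
  rw [← (Equiv.ofBijective e he).tsum_eq]
  simp only [Equiv.ofBijective_apply]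
  rw [hsum.tsum_prod, tsum_fintype,
    show (absNorm J.1 : ℝ) * latticeSum J.1 s = ∑ _t : 𝓞 K ⧸ J.1, latticeSum J.1 s by
      rw [Finset.sum_const, Finset.card_univ, nsmul_eq_mul, Ideal.absNorm_apply,
        Submodule.cardQuot_apply, Nat.card_eq_fintype_card],
    ← Finset.sum_sub_distrib]
  exact (Finset.abs_sum_le_sum_abs _ _).trans (Finset.sum_le_sum fun t _ => hB t s hs)

/-- Partial zeta function of an ideal class. -/
def classZeta (C : ClassGroup (𝓞 K)) (s : ℝ) : ℝ :=
  ∑' I : {I : (Ideal (𝓞 K))⁰ // ClassGroup.mk0 I = C}, zN s I.1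

theorem classZeta_key {C : ClassGroup (𝓞 K)} {J : (Ideal (𝓞 K))⁰}
    (hJ : ClassGroup.mk0 J = C⁻¹) {s : ℝ} (hs : s ∈ Set.Ioc (1 : ℝ) 2) :
    Summable (fun I : {I : (Ideal (𝓞 K))⁰ // ClassGroup.mk0 I = C} => zN s I.1) ∧
      latticeSum J.1 s = Units.torsionOrder K * zN s J * classZeta C s := by
  set S := {I : (Ideal (𝓞 K))⁰ // ClassGroup.mk0 I = C}
  have hp : ∀ I : S, ∃ g : 𝓞 K, g ≠ 0 ∧ ((J * I.1 : (Ideal (𝓞 K))⁰) : Ideal (𝓞 K)) = Ideal.span {g} := by
    intro I
    have h1 : ClassGroup.mk0 (J * I.1) = 1 := by rw [map_mul, hJ, I.2, inv_mul_cancel]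
    obtain ⟨g, hg⟩ := (ClassGroup.mk0_eq_one_iff (SetLike.coe_mem (J * I.1))).mp h1
    exact ⟨g, fun h => nonZeroDivisors.coe_ne_zero (J * I.1) (hg.trans (by rw [h]; simp)), hg⟩
  choose g hg0 hg using hp
  have hgJ : ∀ I : S, g I ∈ J.1 := fun I => by
    have : g I ∈ ((J * I.1 : (Ideal (𝓞 K))⁰) : Ideal (𝓞 K)) := by
      rw [hg I]; exact Ideal.mem_span_singleton_self _
    rw [Submonoid.coe_mul] at this
    exact (Ideal.mul_le_inf this).1
  let e : S × (𝓞 K)ˣ → J.1 := fun Iu =>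
    ⟨(Iu.2 : 𝓞 K) * g Iu.1, J.1.mul_mem_left _ (hgJ Iu.1)⟩
  have he : Function.Injective e := by
    rintro ⟨I, u⟩ ⟨I', u'⟩ h
    have h' : (u : 𝓞 K) * g I = u' * g I' := congrArg Subtype.val h
    obtain rfl : I = I' := by
      have h3 : ((J * I.1 : (Ideal (𝓞 K))⁰) : Ideal (𝓞 K)) = ↑(J * I'.1) := by
        rw [hg I, hg I', ← Ideal.span_singleton_mul_left_unit u.isUnit, h',
          Ideal.span_singleton_mul_left_unit u'.isUnit]
      exact Subtype.ext (mul_left_cancel (Subtype.ext h3))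
    rw [mul_right_cancel₀ (hg0 I) h' |> Units.ext]
  have hsupp : Function.support (fun x : J.1 => iterm s (x : 𝓞 K)) ⊆ Set.range e := by
    intro x hx
    have hx0 : (x : 𝓞 K) ≠ 0 := fun h => hx (by simp [h, iterm_zero])
    obtain ⟨I, hI⟩ := Ideal.dvd_iff_le.mpr ((Ideal.span_singleton_le_iff_mem _).mpr x.2)
    have hspan : Ideal.span {(x : 𝓞 K)} ≠ 0 := by simpa using hx0
    have hI0 : I ≠ 0 := fun h => hspan (by rw [hI, h, mul_zero])
    let I' : (Ideal (𝓞 K))⁰ := ⟨I, mem_nonZeroDivisors_iff_ne_zero.mpr hI0⟩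
    have hC : ClassGroup.mk0 I' = C := by
      have : ClassGroup.mk0 (J * I') = 1 :=
        (ClassGroup.mk0_eq_one_iff (SetLike.coe_mem (J * I'))).mpr ⟨(x : 𝓞 K), hI.symm⟩
      rw [map_mul, hJ, inv_mul_eq_one] at this
      exact this.symm
    obtain ⟨u, hu⟩ := Ideal.span_singleton_eq_span_singleton.mp
      ((hg ⟨I', hC⟩).symm.trans hI.symm)
    exact ⟨(⟨I', hC⟩, u), Subtype.ext (by simpa [e, mul_comm] using hu)⟩
  have hsum : Summable fun Iu => iterm s (e Iu : 𝓞 K) :=
    ((summable_iterm hs).comp_injective Subtype.val_injective).comp_injective he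
  have hterm : ∀ I : S, ∑' u : (𝓞 K)ˣ, iterm s (e (I, u) : 𝓞 K) =
      Units.torsionOrder K * zN s J * zN s I.1 := by
    intro I
    have hn : mixedEmbedding.norm (intEmb K (g I)) ≠ 0 := by
      rw [norm_intEmb, Nat.cast_ne_zero, Ne, absNorm_eq_zero_iff, Ideal.span_singleton_eq_bot]
      exact hg0 I
    have h1 : ∀ u : (𝓞 K)ˣ, iterm s (e (I, u) : 𝓞 K) =
        weight (u • intEmb K (g I)) * zN s (J * I.1) := by
      intro u
      rw [iterm, wterm, norm_intEmb, zN, hg I, ← Ideal.span_singleton_mul_left_unit u.isUnit (g I)]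
      simp [e, intEmb, unitSMul_smul]
    simp only [h1]
    rw [tsum_mul_right, tsum_weight_unit_smul _ hn, zN_mul, mul_assoc]
  have hSum : Summable fun I : S => (Units.torsionOrder K : ℝ) * zN s J * zN s I.1 :=
    hsum.prod.congr hterm
  have hne : (Units.torsionOrder K : ℝ) * zN s J ≠ 0 := by
    refine mul_ne_zero (Nat.cast_ne_zero.mpr (Units.torsionOrder_ne_zero K)) ?_
    exact (Real.rpow_pos_of_pos (zero_lt_one.trans_le (one_le_absNorm J)) _).ne'
  refine ⟨(summable_mul_left_iff hne).mp hSum, ?_⟩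
  rw [latticeSum, ← he.tsum_eq hsupp, hsum.tsum_prod, classZeta]
  simp only [hterm]
  exact tsum_mul_left

/-- Zeta function as a sum over ideals. -/
def idealZeta (K : Type*) [Field K] [NumberField K] (s : ℝ) : ℝ :=
  ∑' I : (Ideal (𝓞 K))⁰, zN s I

theorem summable_zN_of_le_two {s : ℝ} (hs : s ∈ Set.Ioc (1 : ℝ) 2) :
    Summable (zN (K := K) s) := by
  refine (Equiv.sigmaFiberEquiv (ClassGroup.mk0 (R := 𝓞 K))).summable_iff.mp ?_
  refine (summable_sigma_of_nonneg fun x => zN_nonneg _ _).mpr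
    ⟨fun C => ?_, Summable.of_finite⟩
  obtain ⟨J, hJ⟩ := ClassGroup.mk0_surjective C⁻¹
  exact (classZeta_key hJ hs).1

theorem summable_zN {s : ℝ} (hs : 1 < s) : Summable (zN (K := K) s) := by
  rcases le_or_gt s 2 with h | h
  · exact summable_zN_of_le_two ⟨hs, h⟩
  refine Summable.of_nonneg_of_le (zN_nonneg s) (fun I => ?_)
    (summable_zN_of_le_two (K := K) (s := 2) ⟨one_lt_two, le_rfl⟩)
  exact Real.rpow_le_rpow_of_exponent_le (one_le_absNorm I) (by linarith)

theorem idealZeta_anti {s t : ℝ} (hs : 1 < s) (hst : s ≤ t) :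
    idealZeta K t ≤ idealZeta K s :=
  (summable_zN (hs.trans_le hst)).tsum_le_tsum
    (fun I => Real.rpow_le_rpow_of_exponent_le (one_le_absNorm I) (by linarith)) (summable_zN hs)

theorem one_le_idealZeta {s : ℝ} (hs : 1 < s) : 1 ≤ idealZeta K s := by
  have h := (summable_zN (K := K) hs).le_tsum 1 fun I _ => zN_nonneg s I
  simpa [zN, idealZeta] using h

theorem classZeta_le_idealZeta (C : ClassGroup (𝓞 K)) {s : ℝ} (hs : 1 < s) :
    classZeta C s ≤ idealZeta K s :=
  Summable.tsum_subtype_le (zN s) {I | ClassGroup.mk0 I = C} (zN_nonneg s) (summable_zN hs)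

theorem classZeta_nonneg (C : ClassGroup (𝓞 K)) (s : ℝ) : 0 ≤ classZeta C s :=
  tsum_nonneg fun _ => zN_nonneg _ _

theorem idealZeta_eq_dedekindZeta {s : ℝ} (hs : 1 < s) :
    (idealZeta K s : ℂ) = dedekindZeta K s := by
  have h := summable_zN (K := K) hs
  have h' : Summable fun c => zN s
      ((Equiv.sigmaFiberEquiv fun I : (Ideal (𝓞 K))⁰ => absNorm I.1) c) :=
    (Equiv.sigmaFiberEquiv _).summable_iff.mpr h
  rw [idealZeta, ← (Equiv.sigmaFiberEquiv fun I : (Ideal (𝓞 K))⁰ => absNorm I.1).tsum_eq,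
    Summable.tsum_sigma h', Complex.ofReal_tsum,
    dedekindZeta, LSeries]
  refine tsum_congr fun n => ?_
  rcases eq_or_ne n 0 with rfl | hn
  · have : IsEmpty {I : (Ideal (𝓞 K))⁰ // absNorm I.1 = 0} :=
      ⟨fun I => absNorm_ne_zero_of_nonZeroDivisors I.1 I.2⟩
    simp
  rw [LSeries.term_of_ne_zero hn,
    show (∑' c : {I : (Ideal (𝓞 K))⁰ // absNorm I.1 = n},
        zN s ((Equiv.sigmaFiberEquiv fun I : (Ideal (𝓞 K))⁰ => absNorm I.1) ⟨n, c⟩)) =
        ∑' _c : {I : (Ideal (𝓞 K))⁰ // absNorm I.1 = n}, (n : ℝ) ^ (-s) from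
      tsum_congr fun c => by simp [zN, c.2],
    tsum_const, nsmul_eq_mul, Real.rpow_neg n.cast_nonneg, Complex.ofReal_mul,
    Complex.ofReal_inv, Complex.ofReal_cpow n.cast_nonneg, div_eq_mul_inv]
  have hcard : Nat.card {I : (Ideal (𝓞 K))⁰ // absNorm I.1 = n} =
      Nat.card {I : Ideal (𝓞 K) // absNorm I = n} := by
    refine Nat.card_congr
      { toFun := fun I => ⟨I.1.1, I.2⟩
        invFun := fun I => ⟨⟨I.1, mem_nonZeroDivisors_iff_ne_zero.mpr fun h => hn ?_⟩, I.2⟩
        left_inv := fun I => rfl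
        right_inv := fun I => rfl }
    rw [← I.2, h]; simp
  simp [hcard]

theorem tendsto_sub_one_mul_idealZeta :
    Tendsto (fun s : ℝ => (s - 1) * idealZeta K s) (𝓝[>] 1) (𝓝 (dedekindZeta_residue K)) := by
  rw [tendsto_iff_norm_sub_tendsto_zero]
  have h := tendsto_iff_norm_sub_tendsto_zero.mp (tendsto_sub_one_mul_dedekindZeta_nhdsGT K)
  refine h.congr' ?_
  filter_upwards [self_mem_nhdsWithin] with s hs
  rw [← idealZeta_eq_dedekindZeta hs, ← Complex.norm_real]
  push_cast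
  rfl

variable (K) in
theorem exists_sub_one_mul_idealZeta_le :
    ∃ A : ℝ, ∀ s ∈ Set.Ioc (1 : ℝ) 2, (s - 1) * idealZeta K s ≤ A := by
  have h := (tendsto_sub_one_mul_idealZeta (K := K)).eventually
    (eventually_le_nhds (show dedekindZeta_residue K < dedekindZeta_residue K + 1 by linarith))
  rw [eventually_nhdsWithin_iff, Metric.eventually_nhds_iff] at h
  obtain ⟨δ, hδ, h⟩ := h
  refine ⟨max (dedekindZeta_residue K + 1) (idealZeta K (1 + δ / 2)), fun s hs => ?_⟩
  by_cases hsδ : s < 1 + δ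
  · refine le_max_of_le_left (h ?_ hs.1)
    rw [Real.dist_eq, abs_of_pos (by linarith [hs.1])]
    linarith
  · refine le_max_of_le_right ?_
    calc (s - 1) * idealZeta K s ≤ 1 * idealZeta K s :=
          mul_le_mul_of_nonneg_right (by linarith [hs.2]) (tsum_nonneg (zN_nonneg s))
      _ ≤ idealZeta K (1 + δ / 2) := by
          rw [one_mul]; exact idealZeta_anti (by linarith) (by linarith)

/-- The main theorem: partial zeta functions agree up to a bounded amount. -/
theorem exists_classZeta_sub_le (C D : ClassGroup (𝓞 K)) :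
    ∃ M : ℝ, ∀ s ∈ Set.Ioc (1 : ℝ) 2, |classZeta C s - classZeta D s| ≤ M := by
  set τ : ℝ := (Units.torsionOrder K : ℝ) with hτ
  have hτ0 : 0 < τ := Nat.cast_pos.mpr (Units.torsionOrder_pos K)
  obtain ⟨A, hA⟩ := exists_sub_one_mul_idealZeta_le K
  suffices H : ∀ E : ClassGroup (𝓞 K), ∃ M : ℝ, ∀ s ∈ Set.Ioc (1 : ℝ) 2,
      |τ * classZeta E s - ∑' x : 𝓞 K, iterm s x| ≤ M by
    obtain ⟨M₁, h₁⟩ := H C
    obtain ⟨M₂, h₂⟩ := H D
    refine ⟨(M₁ + M₂) / τ, fun s hs => ?_⟩
    rw [le_div_iff₀' hτ0]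
    calc τ * |classZeta C s - classZeta D s|
        = |(τ * classZeta C s - ∑' x : 𝓞 K, iterm s x) -
            (τ * classZeta D s - ∑' x : 𝓞 K, iterm s x)| := by
          rw [← abs_of_pos hτ0, ← abs_mul]; rw [abs_of_pos hτ0]; ring_nf
      _ ≤ _ := (abs_sub _ _).trans (add_le_add (h₁ s hs) (h₂ s hs))
  intro E
  obtain ⟨J, hJ⟩ := ClassGroup.mk0_surjective E⁻¹
  obtain ⟨B, hB⟩ := exists_latticeSum_bound J
  set N : ℝ := (absNorm J.1 : ℝ) with hN
  have hN1 : 1 ≤ N := one_le_absNorm J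
  refine ⟨(N - 1) * (τ * A) + B, fun s hs => ?_⟩
  have hkey := (classZeta_key hJ hs).2
  rw [← hτ] at hkey
  have hs1 : 0 ≤ s - 1 := by linarith [hs.1]
  -- `N * latticeSum = τ * N^(1-s) * classZeta`
  have h3 : N * latticeSum J.1 s = τ * N ^ (1 - s) * classZeta E s := by
    rw [hkey, zN, ← hN, sub_eq_add_neg, Real.rpow_add (by linarith), Real.rpow_one]; ring
  have hzE : 0 ≤ classZeta E s := classZeta_nonneg E s
  have hgap : |τ * classZeta E s - τ * N ^ (1 - s) * classZeta E s| ≤ (N - 1) * (τ * A) := by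
    have hb : N ^ (s - 1) ≤ 1 + (s - 1) * (N - 1) := by
      have h := rpow_one_add_le_one_add_mul_self (s := N - 1) (by linarith) hs1
        (by linarith [hs.2] : s - 1 ≤ 1)
      simpa using h
    have hlow : N ^ (1 - s) ≤ 1 := Real.rpow_le_one_of_one_le_of_nonpos hN1 (by linarith)
    have hgap1 : 1 - N ^ (1 - s) ≤ (s - 1) * (N - 1) := by
      have hmul : N ^ (1 - s) * N ^ (s - 1) = 1 := by
        rw [← Real.rpow_add (by linarith)]; ring_nf; exact Real.rpow_zero N
      have h0 : 0 ≤ N ^ (1 - s) := Real.rpow_nonneg (by linarith) _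
      nlinarith [mul_le_mul_of_nonneg_left hb h0, mul_le_mul_of_nonneg_right hlow
        (mul_nonneg hs1 (by linarith : (0:ℝ) ≤ N - 1))]
    rw [mul_assoc, ← mul_sub, show classZeta E s - N ^ (1 - s) * classZeta E s =
      (1 - N ^ (1 - s)) * classZeta E s by ring, abs_of_nonneg
        (mul_nonneg hτ0.le (mul_nonneg (by linarith) hzE))]
    calc τ * ((1 - N ^ (1 - s)) * classZeta E s)
        ≤ τ * ((s - 1) * (N - 1) * idealZeta K s) := by
          gcongr
          exact classZeta_le_idealZeta E hs.1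
      _ = (N - 1) * (τ * ((s - 1) * idealZeta K s)) := by ring
      _ ≤ _ := by
          have hA' := hA s hs
          gcongr
  have hB' := hB s hs
  rw [h3] at hB'
  calc |τ * classZeta E s - ∑' x : 𝓞 K, iterm s x|
      ≤ |τ * classZeta E s - τ * N ^ (1 - s) * classZeta E s| +
        |τ * N ^ (1 - s) * classZeta E s - ∑' x : 𝓞 K, iterm s x| := abs_sub_le _ _ _
    _ ≤ _ := add_le_add hgap (by rwa [abs_sub_comm])

end FA.Ext
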