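import Mathlib.NumberTheory.NumberField.Cyclotomic.Galois
import Mathlib.RingTheory.RootsOfUnity.CyclotomicUnits
import Mathlib.FieldTheory.Finite.Basic

/-!
# The truncated logarithm at the prime above `p` in `ℚ(ζ_p)`

We send `ζ ↦ exp T` in `𝔽_p[T]/(T^3)` and read off the coefficients of the logarithm.
-/

set_option autoImplicit false

noncomputable section

open NumberField

namespace FA.Ext

/-- `F[T]/(T^3)`. -/
@[ext]
structure Trunc3 (F : Type*) where
  /-- constant coefficient -/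
  c0 : F
  /-- linear coefficient -/
  c1 : F
  /-- quadratic coefficient -/
  c2 : F

namespace Trunc3

variable {F : Type*} [Field F]

instance : Zero (Trunc3 F) := ⟨⟨0, 0, 0⟩⟩
instance : One (Trunc3 F) := ⟨⟨1, 0, 0⟩⟩
instance : Add (Trunc3 F) := ⟨fun x y => ⟨x.c0 + y.c0, x.c1 + y.c1, x.c2 + y.c2⟩⟩
instance : Neg (Trunc3 F) := ⟨fun x => ⟨-x.c0, -x.c1, -x.c2⟩⟩
instance : Mul (Trunc3 F) := ⟨fun x y =>
  ⟨x.c0 * y.c0, x.c0 * y.c1 + x.c1 * y.c0, x.c0 * y.c2 + x.c1 * y.c1 + x.c2 * y.c0⟩⟩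

@[simp] theorem zero_c0 : (0 : Trunc3 F).c0 = 0 := rfl
@[simp] theorem zero_c1 : (0 : Trunc3 F).c1 = 0 := rfl
@[simp] theorem zero_c2 : (0 : Trunc3 F).c2 = 0 := rfl
@[simp] theorem one_c0 : (1 : Trunc3 F).c0 = 1 := rfl
@[simp] theorem one_c1 : (1 : Trunc3 F).c1 = 0 := rfl
@[simp] theorem one_c2 : (1 : Trunc3 F).c2 = 0 := rfl
@[simp] theorem add_c0 (x y : Trunc3 F) : (x + y).c0 = x.c0 + y.c0 := rfl
@[simp] theorem add_c1 (x y : Trunc3 F) : (x + y).c1 = x.c1 + y.c1 := rfl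
@[simp] theorem add_c2 (x y : Trunc3 F) : (x + y).c2 = x.c2 + y.c2 := rfl
@[simp] theorem neg_c0 (x : Trunc3 F) : (-x).c0 = -x.c0 := rfl
@[simp] theorem neg_c1 (x : Trunc3 F) : (-x).c1 = -x.c1 := rfl
@[simp] theorem neg_c2 (x : Trunc3 F) : (-x).c2 = -x.c2 := rfl
@[simp] theorem mul_c0 (x y : Trunc3 F) : (x * y).c0 = x.c0 * y.c0 := rfl
@[simp] theorem mul_c1 (x y : Trunc3 F) : (x * y).c1 = x.c0 * y.c1 + x.c1 * y.c0 := rfl
@[simp] theorem mul_c2 (x y : Trunc3 F) :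
    (x * y).c2 = x.c0 * y.c2 + x.c1 * y.c1 + x.c2 * y.c0 := rfl

instance : CommRing (Trunc3 F) where
  add_assoc a b c := by ext <;> simp [add_assoc]
  zero_add a := by ext <;> simp
  add_zero a := by ext <;> simp
  add_comm a b := by ext <;> simp [add_comm]
  neg_add_cancel a := by ext <;> simp
  mul_assoc a b c := by ext <;> simp <;> ring
  one_mul a := by ext <;> simp
  mul_one a := by ext <;> simp
  left_distrib a b c := by ext <;> simp <;> ring
  right_distrib a b c := by ext <;> simp <;> ring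
  mul_comm a b := by ext <;> simp <;> ring
  zero_mul a := by ext <;> simp
  mul_zero a := by ext <;> simp
  nsmul := nsmulRec
  zsmul := zsmulRec

@[simp] theorem sub_c0 (x y : Trunc3 F) : (x - y).c0 = x.c0 - y.c0 := by simp [sub_eq_add_neg]
@[simp] theorem sub_c1 (x y : Trunc3 F) : (x - y).c1 = x.c1 - y.c1 := by simp [sub_eq_add_neg]
@[simp] theorem sub_c2 (x y : Trunc3 F) : (x - y).c2 = x.c2 - y.c2 := by simp [sub_eq_add_neg]

/-- The constant coefficient, as a ring homomorphism. -/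
def aug : Trunc3 F →+* F where
  toFun x := x.c0
  map_one' := rfl
  map_mul' _ _ := rfl
  map_zero' := rfl
  map_add' _ _ := rfl

theorem c0_sum {ι : Type*} (s : Finset ι) (f : ι → Trunc3 F) :
    (∑ i ∈ s, f i).c0 = ∑ i ∈ s, (f i).c0 := map_sum aug f s

theorem c1_sum {ι : Type*} (s : Finset ι) (f : ι → Trunc3 F) :
    (∑ i ∈ s, f i).c1 = ∑ i ∈ s, (f i).c1 :=
  map_sum (⟨⟨fun x => x.c1, rfl⟩, fun _ _ => rfl⟩ : Trunc3 F →+ F) f s

theorem c2_sum {ι : Type*} (s : Finset ι) (f : ι → Trunc3 F) :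
    (∑ i ∈ s, f i).c2 = ∑ i ∈ s, (f i).c2 :=
  map_sum (⟨⟨fun x => x.c2, rfl⟩, fun _ _ => rfl⟩ : Trunc3 F →+ F) f s

/-- `exp (c T)`. -/
def expT (c : F) : Trunc3 F := ⟨1, c, c ^ 2 / 2⟩

theorem expT_pow (h2 : (2 : F) ≠ 0) (n : ℕ) : expT (1 : F) ^ n = expT (n : F) := by
  induction n with
  | zero => ext <;> simp [expT]
  | succ n ih =>
    rw [pow_succ, ih]
    ext <;> simp [expT] <;> field_simp <;> ring

/-- The substitution `T ↦ d T`. -/
def rescale (d : F) : Trunc3 F →+* Trunc3 F where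
  toFun x := ⟨x.c0, d * x.c1, d ^ 2 * x.c2⟩
  map_one' := by ext <;> simp
  map_mul' x y := by ext <;> simp <;> ring
  map_zero' := by ext <;> simp
  map_add' x y := by ext <;> simp <;> ring

/-- The coefficient of `T` in the logarithm. -/
def dlog1 (x : Trunc3 F) : F := x.c1 / x.c0

/-- The coefficient of `T^2` in the logarithm. -/
def dlog2 (x : Trunc3 F) : F := x.c2 / x.c0 - (x.c1 / x.c0) ^ 2 / 2

theorem dlog1_mul {x y : Trunc3 F} (hx : x.c0 ≠ 0) (hy : y.c0 ≠ 0) :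
    dlog1 (x * y) = dlog1 x + dlog1 y := by
  simp only [dlog1, mul_c0, mul_c1]
  field_simp
  ring

theorem dlog2_mul (h2 : (2 : F) ≠ 0) {x y : Trunc3 F} (hx : x.c0 ≠ 0) (hy : y.c0 ≠ 0) :
    dlog2 (x * y) = dlog2 x + dlog2 y := by
  simp only [dlog2, mul_c0, mul_c1, mul_c2]
  field_simp
  ring

end Trunc3

variable (p : ℕ) [Fact p.Prime] (K : Type*) [Field K] [NumberField K]
  [IsCyclotomicExtension {p} ℚ K]

/-- The chosen primitive root as an algebraic integer. -/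
def zetaInt : 𝓞 K := (IsCyclotomicExtension.zeta_spec p ℚ K).toInteger

theorem zetaInt_spec : IsPrimitiveRoot (zetaInt p K) p :=
  (IsCyclotomicExtension.zeta_spec p ℚ K).toInteger_isPrimitiveRoot

theorem zetaInt_coe : (zetaInt p K : K) = IsCyclotomicExtension.zeta p ℚ K := rfl

/-- The automorphism `ζ ↦ ζ^d` on `K`. -/
def sigmaK : (ZMod p)ˣ →* (K ≃ₐ[ℚ] K) :=
  (IsCyclotomicExtension.Rat.galEquivZMod p K).symm.toMonoidHom

/-- The automorphism `ζ ↦ ζ^d` on the ring of integers. -/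
def sigma : (ZMod p)ˣ →* (𝓞 K ≃+* 𝓞 K) where
  toFun d := RingOfIntegers.mapRingEquiv (sigmaK p K d).toRingEquiv
  map_one' := by
    refine RingEquiv.ext fun x => RingOfIntegers.ext ?_
    change sigmaK p K 1 x = x
    rw [map_one]
    rfl
  map_mul' d e := by
    refine RingEquiv.ext fun x => RingOfIntegers.ext ?_
    change sigmaK p K (d * e) x = sigmaK p K d (sigmaK p K e x)
    rw [map_mul]
    rfl

theorem sigma_coe (d : (ZMod p)ˣ) (x : 𝓞 K) : (sigma p K d x : K) = sigmaK p K d x := rfl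

theorem sigma_mul_apply (d e : (ZMod p)ˣ) (x : 𝓞 K) :
    sigma p K (d * e) x = sigma p K d (sigma p K e x) := by rw [map_mul]; rfl

theorem sigma_one_apply (x : 𝓞 K) : sigma p K 1 x = x := by rw [map_one]; rfl

theorem sigma_inv_apply (d : (ZMod p)ˣ) (x : 𝓞 K) : sigma p K d⁻¹ (sigma p K d x) = x := by
  rw [← sigma_mul_apply, inv_mul_cancel, sigma_one_apply]

theorem sigma_of_pow_eq_one (d : (ZMod p)ˣ) {x : 𝓞 K} (hx : x ^ p = 1) :
    sigma p K d x = x ^ (d : ZMod p).val := by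
  refine RingOfIntegers.ext ?_
  rw [sigma_coe]
  have h := IsCyclotomicExtension.Rat.galEquivZMod_apply_of_pow_eq p K (sigmaK p K d)
    (x := (x : K)) (by rw [← map_pow, hx, map_one])
  rw [h, show IsCyclotomicExtension.Rat.galEquivZMod p K (sigmaK p K d) = d from
    MulEquiv.apply_symm_apply _ d]
  rfl

theorem sigma_zetaInt (d : (ZMod p)ˣ) :
    sigma p K d (zetaInt p K) = zetaInt p K ^ (d : ZMod p).val :=
  sigma_of_pow_eq_one p K d (zetaInt_spec p K).pow_eq_one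

/-- The action on units. -/
def sigmaU (d : (ZMod p)ˣ) : (𝓞 K)ˣ →* (𝓞 K)ˣ :=
  Units.map (sigma p K d).toRingHom.toMonoidHom

theorem sigmaU_coe (d : (ZMod p)ˣ) (u : (𝓞 K)ˣ) :
    (sigmaU p K d u : 𝓞 K) = sigma p K d (u : 𝓞 K) := rfl

theorem sigmaU_mul (d e : (ZMod p)ˣ) (u : (𝓞 K)ˣ) :
    sigmaU p K (d * e) u = sigmaU p K d (sigmaU p K e u) :=
  Units.ext (sigma_mul_apply p K d e (u : 𝓞 K))

theorem sigmaU_one (u : (𝓞 K)ˣ) : sigmaU p K 1 u = u :=
  Units.ext (sigma_one_apply p K (u : 𝓞 K))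

theorem two_ne_zero_of_five_le (h5 : 5 ≤ p) : (2 : ZMod p) ≠ 0 := fun h => by
  have : p ∣ 2 := (ZMod.natCast_eq_zero_iff 2 p).mp (by exact_mod_cast h)
  have := Nat.le_of_dvd two_pos this
  omega

theorem sum_range_pow_eq_zero (h5 : 5 ≤ p) {i : ℕ} (hi : i ≤ 2) :
    ∑ j ∈ Finset.range p, (j : ZMod p) ^ i = 0 := by
  have h := FiniteField.sum_pow_lt_card_sub_one (K := ZMod p) i (by rw [ZMod.card]; omega)
  rw [← h]
  refine Finset.sum_nbij' (fun j => (j : ZMod p)) (fun x => x.val) ?_ ?_ ?_ ?_ ?_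
  · simp
  · intro x _; simpa using x.val_lt
  · intro j hj; exact ZMod.val_natCast_of_lt (Finset.mem_range.mp hj)
  · intro x _; exact ZMod.natCast_zmod_val x
  · intros; rfl

theorem aeval_expT_minpoly (h5 : 5 ≤ p) :
    Polynomial.aeval (Trunc3.expT (1 : ZMod p))
      (minpoly ℤ (IsCyclotomicExtension.zeta_spec p ℚ K).integralPowerBasis.gen) = 0 := by
  have hp : p.Prime := Fact.out
  rw [IsPrimitiveRoot.integralPowerBasis_gen, ← RingOfIntegers.minpoly_coe,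
    show ((IsCyclotomicExtension.zeta_spec p ℚ K).toInteger : K) =
      IsCyclotomicExtension.zeta p ℚ K from rfl,
    ← Polynomial.cyclotomic_eq_minpoly (IsCyclotomicExtension.zeta_spec p ℚ K) hp.pos,
    Polynomial.cyclotomic_prime]
  simp only [map_sum, map_pow, Polynomial.aeval_X,
    Trunc3.expT_pow (two_ne_zero_of_five_le p h5)]
  ext
  · rw [Trunc3.c0_sum]
    simp [Trunc3.expT]
  · rw [Trunc3.c1_sum]
    simpa [Trunc3.expT] using sum_range_pow_eq_zero p h5 (i := 1) (by omega)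
  · rw [Trunc3.c2_sum]
    simp only [Trunc3.expT, Trunc3.zero_c2]
    rw [← Finset.sum_div, sum_range_pow_eq_zero p h5 (i := 2) le_rfl, zero_div]

/-- `ζ ↦ exp T`. -/
def truncHom (h5 : 5 ≤ p) : 𝓞 K →+* Trunc3 (ZMod p) :=
  ((IsCyclotomicExtension.zeta_spec p ℚ K).integralPowerBasis.lift (Trunc3.expT 1)
    (aeval_expT_minpoly p K h5)).toRingHom

theorem truncHom_zetaInt (h5 : 5 ≤ p) : truncHom p K h5 (zetaInt p K) = Trunc3.expT 1 := by
  have h := (IsCyclotomicExtension.zeta_spec p ℚ K).integralPowerBasis.lift_gen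
    (Trunc3.expT (1 : ZMod p)) (aeval_expT_minpoly p K h5)
  rwa [show (IsCyclotomicExtension.zeta_spec p ℚ K).integralPowerBasis.gen = zetaInt p K from
    IsPrimitiveRoot.integralPowerBasis_gen _] at h

theorem truncHom_sigma (h5 : 5 ≤ p) (d : (ZMod p)ˣ) (x : 𝓞 K) :
    truncHom p K h5 (sigma p K d x) = Trunc3.rescale (d : ZMod p) (truncHom p K h5 x) := by
  suffices h : ((truncHom p K h5).comp (sigma p K d).toRingHom).toIntAlgHom =
      ((Trunc3.rescale (d : ZMod p)).comp (truncHom p K h5)).toIntAlgHom from DFunLike.congr_fun h x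
  refine (IsCyclotomicExtension.zeta_spec p ℚ K).integralPowerBasis.algHom_ext ?_
  rw [IsPrimitiveRoot.integralPowerBasis_gen]
  change truncHom p K h5 (sigma p K d (zetaInt p K)) =
    Trunc3.rescale (d : ZMod p) (truncHom p K h5 (zetaInt p K))
  rw [sigma_zetaInt, map_pow, truncHom_zetaInt, Trunc3.expT_pow (two_ne_zero_of_five_le p h5),
    ZMod.natCast_zmod_val]
  ext <;> simp [Trunc3.expT, Trunc3.rescale] <;> ring

theorem truncHom_c0_ne_zero (h5 : 5 ≤ p) (u : (𝓞 K)ˣ) : (truncHom p K h5 (u : 𝓞 K)).c0 ≠ 0 :=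
  ((Units.isUnit u).map (Trunc3.aug.comp (truncHom p K h5))).ne_zero

/-- The `T²`-coefficient of the logarithm of a unit. -/
def psi2 (h5 : 5 ≤ p) : (𝓞 K)ˣ →* Multiplicative (ZMod p) where
  toFun u := Multiplicative.ofAdd (Trunc3.dlog2 (truncHom p K h5 (u : 𝓞 K)))
  map_one' := by simp [Trunc3.dlog2]
  map_mul' u v := by
    rw [Units.val_mul, map_mul, Trunc3.dlog2_mul (two_ne_zero_of_five_le p h5)
      (truncHom_c0_ne_zero p K h5 u) (truncHom_c0_ne_zero p K h5 v), ofAdd_add]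

/-- The `T`-coefficient of the logarithm of a unit. -/
def psi1 (h5 : 5 ≤ p) : (𝓞 K)ˣ →* Multiplicative (ZMod p) where
  toFun u := Multiplicative.ofAdd (Trunc3.dlog1 (truncHom p K h5 (u : 𝓞 K)))
  map_one' := by simp [Trunc3.dlog1]
  map_mul' u v := by
    rw [Units.val_mul, map_mul, Trunc3.dlog1_mul
      (truncHom_c0_ne_zero p K h5 u) (truncHom_c0_ne_zero p K h5 v), ofAdd_add]

theorem mult_zmod_pow (a : Multiplicative (ZMod p)) : a ^ p = 1 := by
  apply Multiplicative.toAdd.injective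
  simp

theorem psi_pow (f : (𝓞 K)ˣ →* Multiplicative (ZMod p)) (w : (𝓞 K)ˣ) : f (w ^ p) = 1 := by
  rw [map_pow, mult_zmod_pow]

theorem psi2_sigmaU (h5 : 5 ≤ p) (d : (ZMod p)ˣ) (u : (𝓞 K)ˣ) :
    Multiplicative.toAdd (psi2 p K h5 (sigmaU p K d u)) =
      (d : ZMod p) ^ 2 * Multiplicative.toAdd (psi2 p K h5 u) := by
  simp only [psi2, MonoidHom.coe_mk, OneHom.coe_mk, toAdd_ofAdd, sigmaU_coe, truncHom_sigma]
  simp only [Trunc3.dlog2, Trunc3.rescale, RingHom.coe_mk, MonoidHom.coe_mk, OneHom.coe_mk]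
  ring

/-- Units congruent to a `p`-th power modulo `(ζ-1)^3` are killed by both logarithms. -/
theorem psi_eq_one_of_local (h5 : 5 ≤ p) (u : (𝓞 K)ˣ) {y : 𝓞 K}
    (h : (zetaInt p K - 1) ^ 3 ∣ (u : 𝓞 K) - y ^ p) :
    psi1 p K h5 u = 1 ∧ psi2 p K h5 u = 1 := by
  have hp : p.Prime := Fact.out
  obtain ⟨r, hr⟩ := h
  set τ := truncHom p K h5
  have h3 : τ ((zetaInt p K - 1) ^ 3) = 0 := by
    rw [map_pow, map_sub, map_one, truncHom_zetaInt]
    ext <;> simp [pow_succ, Trunc3.expT]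
  have hu : τ (u : 𝓞 K) = τ y ^ p := by
    rw [← map_pow, ← sub_eq_zero, ← map_sub, hr, map_mul, h3, zero_mul]
  have hy : (τ y).c0 ≠ 0 := by
    intro h0
    refine truncHom_c0_ne_zero p K h5 u ?_
    change Trunc3.aug (τ (u : 𝓞 K)) = 0
    rw [hu, map_pow, show Trunc3.aug (τ y) = 0 from h0, zero_pow hp.ne_zero]
  have key : ∀ (f : Trunc3 (ZMod p) → ZMod p), f 1 = 0 →
      (∀ a b, a.c0 ≠ 0 → b.c0 ≠ 0 → f (a * b) = f a + f b) → f (τ y ^ p) = 0 := by
    intro f hf1 hf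
    have : ∀ n : ℕ, f (τ y ^ n) = n * f (τ y) := by
      intro n
      induction n with
      | zero => simp [hf1]
      | succ n ih =>
        have h0 : ((τ y) ^ n).c0 ≠ 0 := by
          change Trunc3.aug (τ y ^ n) ≠ 0
          rw [map_pow]
          exact pow_ne_zero _ hy
        rw [pow_succ, hf _ _ h0 hy, ih]
        push_cast; ring
    rw [this, ZMod.natCast_self, zero_mul]
  constructor
  · change Multiplicative.ofAdd (Trunc3.dlog1 (τ (u : 𝓞 K))) = 1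
    rw [hu, key _ (by simp [Trunc3.dlog1]) fun a b ha hb => Trunc3.dlog1_mul ha hb, ofAdd_zero]
  · change Multiplicative.ofAdd (Trunc3.dlog2 (τ (u : 𝓞 K))) = 1
    rw [hu, key _ (by simp [Trunc3.dlog2])
      fun a b ha hb => Trunc3.dlog2_mul (two_ne_zero_of_five_le p h5) ha hb, ofAdd_zero]

theorem isUnit_one_add_zetaInt (h5 : 5 ≤ p) : IsUnit (1 + zetaInt p K) := by
  have hp : p.Prime := Fact.out
  have h := (zetaInt_spec p K).geom_sum_isUnit hp.two_le (j := 2)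
    ((Nat.coprime_primes Nat.prime_two hp).mpr (by omega))
  simpa [Finset.sum_range_succ] using h

/-- The unit `1 + ζ`. -/
def baseUnit (h5 : 5 ≤ p) : (𝓞 K)ˣ := (isUnit_one_add_zetaInt p K h5).unit

theorem baseUnit_coe (h5 : 5 ≤ p) : (baseUnit p K h5 : 𝓞 K) = 1 + zetaInt p K :=
  IsUnit.unit_spec _

/-- The cyclotomic unit of the `ω²`-part. -/
def epsUnit (h5 : 5 ≤ p) : (𝓞 K)ˣ :=
  ∏ d : (ZMod p)ˣ, sigmaU p K d⁻¹ (baseUnit p K h5) ^ ((d : ZMod p) ^ 2).val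

theorem psi2_baseUnit (h5 : 5 ≤ p) :
    Multiplicative.toAdd (psi2 p K h5 (baseUnit p K h5)) = ((8 : ZMod p))⁻¹ := by
  have h2 := two_ne_zero_of_five_le p h5
  change Trunc3.dlog2 (truncHom p K h5 (baseUnit p K h5 : 𝓞 K)) = _
  rw [baseUnit_coe, map_add, map_one, truncHom_zetaInt, show (8 : ZMod p) = 2 * 2 * 2 by norm_num]
  have h4 : (4 : ZMod p) ≠ 0 := by
    rw [show (4 : ZMod p) = 2 * 2 by norm_num]; exact mul_ne_zero h2 h2
  simp [Trunc3.dlog2, Trunc3.expT]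
  field_simp
  ring_nf
  simp [h4]

theorem psi2_epsUnit_ne_one (h5 : 5 ≤ p) : psi2 p K h5 (epsUnit p K h5) ≠ 1 := by
  intro h
  have h2 := two_ne_zero_of_five_le p h5
  have h' := congrArg Multiplicative.toAdd h
  rw [toAdd_one, epsUnit, map_prod, toAdd_prod] at h'
  simp only [map_pow, toAdd_pow, psi2_sigmaU, psi2_baseUnit, nsmul_eq_mul, ZMod.natCast_zmod_val,
    ← mul_assoc, ← mul_pow, Units.mul_inv, one_pow, one_mul] at h'
  rw [Finset.sum_const, Finset.card_univ, ZMod.card_units p, nsmul_eq_mul,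
    Nat.cast_sub (Fact.out : p.Prime).one_le, ZMod.natCast_self, Nat.cast_one, zero_sub] at h'
  have h8 : (8 : ZMod p) ≠ 0 := by
    rw [show (8 : ZMod p) = 2 * 2 * 2 by norm_num]
    exact mul_ne_zero (mul_ne_zero h2 h2) h2
  simp [h8] at h'

theorem eq_pow_mul_pow_of_cast_eq {G : Type*} [CommGroup G] (x : G) {a b : ℕ}
    (h : (a : ZMod p) = (b : ZMod p)) : ∃ w : G, x ^ a = x ^ b * w ^ p := by
  obtain ⟨k, hk⟩ := (ZMod.intCast_eq_intCast_iff_dvd_sub (b : ℤ) (a : ℤ) p).mp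
    (by exact_mod_cast h.symm)
  refine ⟨x ^ k, ?_⟩
  rw [← zpow_natCast x a, ← zpow_natCast x b, ← zpow_natCast (x ^ k) p, ← zpow_mul, ← zpow_add,
    mul_comm k, ← hk, add_sub_cancel]

/-- The cyclotomic unit is an eigenvector modulo `p`-th powers. -/
theorem epsUnit_eigen (h5 : 5 ≤ p) (e : (ZMod p)ˣ) :
    ∃ w : (𝓞 K)ˣ,
      sigmaU p K e (epsUnit p K h5) = epsUnit p K h5 ^ ((e : ZMod p) ^ 2).val * w ^ p := by
  set v := baseUnit p K h5
  have h : ∀ d : (ZMod p)ˣ, ∃ w : (𝓞 K)ˣ,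
      sigmaU p K d⁻¹ v ^ (((e * d : (ZMod p)ˣ) : ZMod p) ^ 2).val =
        (sigmaU p K d⁻¹ v ^ ((d : ZMod p) ^ 2).val) ^ ((e : ZMod p) ^ 2).val * w ^ p := by
    intro d
    rw [← pow_mul]
    refine eq_pow_mul_pow_of_cast_eq p _ ?_
    simp only [Nat.cast_mul, ZMod.natCast_zmod_val, Units.val_mul]
    ring
  choose w hw using h
  refine ⟨∏ d : (ZMod p)ˣ, w d, ?_⟩
  rw [epsUnit, map_prod, ← Finset.prod_pow, ← Finset.prod_pow, ← Finset.prod_mul_distrib]
  refine Fintype.prod_equiv (Equiv.mulLeft e⁻¹) _ _ fun d => ?_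
  rw [Equiv.coe_mulLeft, ← hw, map_pow, ← sigmaU_mul, mul_inv_cancel_left, mul_inv_rev, inv_inv,
    mul_comm d⁻¹]

end FA.Ext
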