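import Fermat.Agent.ExtVanish.Ramif
import Fermat.Agent.ExtVanish.Cyclo
import Fermat.Agent.ExtVanish.Residue
import Mathlib.Algebra.CharP.Lemmas

/-!
# Unramified Kummer elements
-/

set_option autoImplicit false

noncomputable section

open NumberField IsDedekindDomain

namespace FA.Ext

variable {K L : Type*} [Field K] [NumberField K] [Field L] [NumberField L] [Algebra K L]
  [IsGalois K L]

/-- Every inertia group is trivial. -/
def InertiaTrivial (K L : Type*) [Field K] [Field L] [Algebra K L] : Prop :=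
  ∀ P : Ideal (𝓞 L), P.IsMaximal → ∀ τ ∈ P.inertia (L ≃ₐ[K] L), τ = 1

/-- A prime above a given one, with trivial inertia. -/
theorem exists_above (htriv : InertiaTrivial K L) (w : HeightOneSpectrum (𝓞 K)) :
    ∃ P : Ideal (𝓞 L), P.IsMaximal ∧ P.LiesOver w.asIdeal ∧
      ∀ τ ∈ P.inertia (L ≃ₐ[K] L), τ = 1 := by
  have : w.asIdeal.IsMaximal := w.isMaximal
  obtain ⟨P, hP, hPw⟩ := Ideal.exists_maximal_ideal_liesOver_of_isIntegral (S := 𝓞 L) w.asIdeal
  exact ⟨P, hP, hPw, htriv P hP⟩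

/-- An element which is a `p`-th power in an everywhere unramified extension generates the `p`-th
power of an ideal. -/
theorem exists_ideal_pow {p : ℕ} (hp : p ≠ 0) (htriv : InertiaTrivial K L) {b : 𝓞 K} (hb : b ≠ 0)
    {β : 𝓞 L} (hβ : β ^ p = algebraMap (𝓞 K) (𝓞 L) b) :
    ∃ 𝔟 : Ideal (𝓞 K), Ideal.span {b} = 𝔟 ^ p := by
  have hI : Ideal.span {b} ≠ 0 := fun h => hb (Ideal.span_singleton_eq_bot.mp h)
  refine (exists_eq_pow_of_forall_dvd (p := p) hI fun P₀ C k hP₀ hPC hIC => ?_).imp fun _ h => h.2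
  let w : HeightOneSpectrum (𝓞 K) := ⟨P₀, Ideal.isPrime_of_prime hP₀, hP₀.ne_zero⟩
  obtain ⟨P, hP, hPw, hPtriv⟩ := exists_above htriv w
  have hβ0 : β ≠ 0 := by
    rintro rfl
    rw [zero_pow hp, eq_comm, map_eq_zero_iff _ (RingOfIntegers.algebraMap.injective K L)] at hβ
    exact hb hβ
  refine dvd_exponent_of_map_eq_pow w P hPtriv hPC hIC (B := Ideal.span {β})
    (fun h => hβ0 (Ideal.span_singleton_eq_bot.mp h)) ?_
  rw [Ideal.map_span, Set.image_singleton, Ideal.span_singleton_pow, hβ]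

/-- Local criterion at the prime above `p`. -/
theorem exists_local_pow (p : ℕ) [Fact p.Prime] (h3 : 3 ≤ p) [IsCyclotomicExtension {p} ℚ K]
    (htriv : InertiaTrivial K L) (u : 𝓞 K) {γ : 𝓞 L} (hγ : γ ^ p = algebraMap (𝓞 K) (𝓞 L) u) :
    ∃ y : 𝓞 K, (zetaInt p K - 1) ^ 3 ∣ u - y ^ p := by
  have hp : p.Prime := Fact.out
  have hζ := IsCyclotomicExtension.zeta_spec p ℚ K
  set π := zetaInt p K - 1
  have hπp : Prime π := hζ.zeta_sub_one_prime'
  let w : HeightOneSpectrum (𝓞 K) :=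
    ⟨Ideal.span {π}, (Ideal.span_singleton_prime hπp.ne_zero).mpr hπp, by
      rw [Ne, Ideal.span_singleton_eq_bot]; exact hπp.ne_zero⟩
  have hnorm : Ideal.absNorm w.asIdeal = p := by
    show Ideal.absNorm (Ideal.span {π}) = p
    rw [Ideal.absNorm_span_singleton]
    show (Algebra.norm ℤ (hζ.toInteger - 1)).natAbs = p
    rw [hζ.norm_toInteger_sub_one_of_prime_ne_two' (by omega), Int.natAbs_natCast]
  have hp2 : π ^ 2 ∣ (p : 𝓞 K) :=
    (pow_dvd_pow π (show 2 ≤ p - 1 by omega)).trans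
      (IsCyclotomicExtension.Rat.associated_zeta_sub_one_pow_prime p hζ).dvd
  obtain ⟨n, hn⟩ := exists_nat_sub_mem hp hnorm u
  refine ⟨(n : 𝓞 K), ?_⟩
  obtain ⟨P, hP, hPw, hPtriv⟩ := exists_above htriv w
  set f := algebraMap (𝓞 K) (𝓞 L)
  have hmem : ∀ x ∈ w.asIdeal, f x ∈ P := fun x hx => by
    rw [P.over_def w.asIdeal] at hx; exact hx
  have hπP : f π ∈ P := hmem _ (Ideal.mem_span_singleton_self π)
  have hpP2 : f (p : 𝓞 K) ∈ P ^ 2 := by
    obtain ⟨r, hr⟩ := hp2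
    rw [hr, map_mul, map_pow]
    exact Ideal.mul_mem_right _ _ (Ideal.pow_mem_pow hπP 2)
  rw [map_natCast] at hpP2
  obtain ⟨r, hr⟩ := exists_add_pow_prime_eq hp (γ - (n : 𝓞 L)) (n : 𝓞 L)
  rw [sub_add_cancel] at hr
  have hfer : ((n : 𝓞 L)) ^ p - (n : 𝓞 L) ∈ P := by
    obtain ⟨m, hm⟩ := (ZMod.intCast_zmod_eq_zero_iff_dvd ((n : ℤ) ^ p - n) p).mp (by
      push_cast; rw [ZMod.pow_card, sub_self])
    have h := congrArg (Int.cast : ℤ → 𝓞 L) hm
    push_cast at h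
    rw [h]
    exact P.mul_mem_right _ (Ideal.pow_le_self two_ne_zero hpP2)
  have hγn : γ - (n : 𝓞 L) ∈ P := by
    refine hP.isPrime.mem_of_pow_mem p ?_
    have h1 : γ ^ p - (n : 𝓞 L) ∈ P := by
      rw [hγ, ← map_natCast f, ← map_sub]; exact hmem _ hn
    have h2 : (γ - (n : 𝓞 L)) ^ p = (γ ^ p - (n : 𝓞 L)) - ((n : 𝓞 L) ^ p - (n : 𝓞 L))
        - (p : 𝓞 L) * (γ - (n : 𝓞 L)) * (n : 𝓞 L) * r := by rw [hr]; ring
    rw [h2]
    exact P.sub_mem (P.sub_mem h1 hfer)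
      (P.mul_mem_right _ (P.mul_mem_right _ (P.mul_mem_right _ (Ideal.pow_le_self two_ne_zero hpP2))))
  have hP3 : f (u - (n : 𝓞 K) ^ p) ∈ P ^ 3 := by
    rw [map_sub, map_pow, map_natCast, ← hγ, hr]
    have e : (γ - (n : 𝓞 L)) ^ p + (n : 𝓞 L) ^ p + (p : 𝓞 L) * (γ - n) * n * r - (n : 𝓞 L) ^ p
        = (γ - (n : 𝓞 L)) ^ p + (p : 𝓞 L) * (γ - n) * ((n : 𝓞 L) * r) := by ring
    rw [e]
    refine (P ^ 3).add_mem (Ideal.pow_le_pow_right h3 (Ideal.pow_mem_pow hγn p)) ?_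
    refine Ideal.mul_mem_right _ _ ?_
    rw [pow_succ P 2]
    exact Ideal.mul_mem_mul hpP2 hγn
  set x := u - (n : 𝓞 K) ^ p
  rcases eq_or_ne x 0 with hx | hx
  · rw [hx]; exact dvd_zero _
  obtain ⟨D, hD, hwD⟩ := exists_map_eq_mul_of_inertia_trivial w P hPtriv
  have hwP : Prime w.asIdeal := Ideal.prime_of_isPrime w.ne_bot w.isPrime
  obtain ⟨k, C, hC, hxC⟩ := WfDvdMonoid.max_power_factor
    (a₀ := Ideal.span {x}) (fun h => hx (Ideal.span_singleton_eq_bot.mp h)) hwP.irreducible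
  suffices hk : 3 ≤ k by
    have h : Ideal.span {π} ^ 3 ∣ Ideal.span {x} :=
      hxC ▸ (pow_dvd_pow _ hk).trans (dvd_mul_right _ _)
    rwa [Ideal.span_singleton_pow, Ideal.dvd_span_singleton, Ideal.mem_span_singleton] at h
  by_contra hk
  have hdvd : P ^ 3 ∣ (Ideal.span {x}).map f := by
    rw [Ideal.map_span, Set.image_singleton, Ideal.dvd_span_singleton]; exact hP3
  have hP0 : P ≠ ⊥ := by
    rintro rfl
    exact Ideal.map_ne_bot_of_ne_bot (S := 𝓞 L) w.ne_bot (hwD.trans (Ideal.bot_mul _))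
  have hPp : Prime P := Ideal.prime_of_isPrime hP0 hP.isPrime
  rw [hxC, Ideal.map_mul, Ideal.map_pow, hwD, mul_pow, mul_assoc] at hdvd
  have h4 : P ^ (k + 1) ∣ P ^ k * (D ^ k * C.map f) :=
    (pow_dvd_pow P (by omega)).trans hdvd
  rw [pow_succ] at h4
  rcases hPp.dvd_or_dvd ((mul_dvd_mul_iff_left (pow_ne_zero k hP0)).mp h4) with h5 | h5
  · exact hD (hPp.dvd_of_dvd_pow h5)
  · exact hC (Ideal.dvd_iff_le.mpr
      ((Ideal.map_le_iff_le_comap.mp (Ideal.dvd_iff_le.mp h5)).trans (P.over_def w.asIdeal).ge))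

end FA.Ext
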