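import Fermat.Agent.ExtVanish.InertiaLift
import Fermat.Agent.ExtVanish.Kummer
import Fermat.Agent.ExtVanish.EigenPower
import Fermat.Prelude.Def_ExtCitation_AdmissibleExtension_v2
import Mathlib.RepresentationTheory.Homological.GroupCohomology.Hilbert90

/-!
# Descent: weight one cocycles which are unramified over the cyclotomic field vanish there
-/

set_option autoImplicit false

noncomputable section

open NumberField FA.Local groupCohomology

namespace FA.Ext

local notation "Qb" => AlgebraicClosure ℚ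
local notation "GQ" => AlgebraicClosure ℚ ≃ₐ[ℚ] AlgebraicClosure ℚ

/-- Hilbert 90 in additive-free form. -/
theorem exists_coboundary {K L : Type} [Field K] [Field L] [Algebra K L] [FiniteDimensional K L]
    (f : (L ≃ₐ[K] L) → Lˣ) (hf : ∀ g h, (f (g * h) : L) = g (f h : L) * (f g : L)) :
    ∃ β : L, β ≠ 0 ∧ ∀ g : L ≃ₐ[K] L, g β = (f g : L) * β := by
  obtain ⟨x, hx⟩ := isMulCoboundary₁_of_isMulCocycle₁_of_aut_to_units f
    (fun g h => Units.ext (hf g h))
  exact ⟨x, x.ne_zero, fun g => congrArg Units.val (div_eq_iff_eq_mul.mp (hx g))⟩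

variable (p : ℕ) [Fact p.Prime]

/-- The mod `p` cyclotomic character. -/
def chiU : GQ →* (ZMod p)ˣ :=
  haveI : NeZero p := ⟨(Fact.out : p.Prime).ne_zero⟩
  (modularCyclotomicCharacter Qb (ExtCitation.card_rootsOfUnity_eq_self p)).comp
    { toFun := fun σ => (σ : Qb ≃+* Qb), map_one' := rfl, map_mul' := fun _ _ => rfl }

theorem cast_cycloExp (σ : GQ) : (ExtCitation.cycloExp p σ : ZMod p) = (chiU p σ : ZMod p) := by
  have : NeZero p := ⟨(Fact.out : p.Prime).ne_zero⟩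
  exact ZMod.natCast_zmod_val _

theorem apply_of_pow_eq_one (σ : GQ) {x : Qb} (hx : x ^ p = 1) :
    σ x = x ^ (chiU p σ : ZMod p).val := by
  have : NeZero p := ⟨(Fact.out : p.Prime).ne_zero⟩
  have hx0 : x ≠ 0 := by
    rintro rfl
    rw [zero_pow (NeZero.ne p)] at hx
    exact zero_ne_one hx
  have h := modularCyclotomicCharacter.spec Qb (ExtCitation.card_rootsOfUnity_eq_self p)
    (σ : Qb ≃+* Qb) (t := Units.mk0 x hx0)
    ((mem_rootsOfUnity p _).mpr (Units.ext (by simpa using hx)))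
  exact h

theorem pow_val_add {x : Qb} (hx : x ^ p = 1) (i j : ZMod p) :
    x ^ (i + j).val = x ^ i.val * x ^ j.val := by
  have : NeZero p := ⟨(Fact.out : p.Prime).ne_zero⟩
  rw [← pow_add, pow_eq_pow_mod (i.val + j.val) hx, ← ZMod.val_add]

theorem pow_val_mul {x : Qb} (hx : x ^ p = 1) (i j : ZMod p) :
    x ^ (i * j).val = (x ^ i.val) ^ j.val := by
  rw [← pow_mul, pow_eq_pow_mod (i.val * j.val) hx, ← ZMod.val_mul]

/-- A weight one cocycle trivial on inertia groups over the cyclotomic field vanishes there. -/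
theorem cocycle_eq_zero (h3 : 3 ≤ p) (c : GQ → ZMod p)
    (hmul : ∀ σ τ, c (σ * τ) = (chiU p τ : ZMod p) * c σ + c τ)
    (hopen : IsOpen {σ : GQ | chiU p σ = 1 ∧ c σ = 0})
    (hram : ∀ q : ℕ, q.Prime → ∀ A : ValuationSubring Qb, A.LiesOverPrime q →
      ∀ σ ∈ A.inertiaSubgroupIn ℚ, chiU p σ = 1 → c σ = 0)
    (σ₀ : GQ) (hσ₀ : chiU p σ₀ = 1) : c σ₀ = 0 := by
  have hp : p.Prime := Fact.out
  have : NeZero p := ⟨hp.ne_zero⟩
  have hc1 : c 1 = 0 := by simpa using hmul 1 1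
  have hcinv : ∀ σ, chiU p σ = 1 → c σ⁻¹ = -c σ := fun σ hσ => by
    have h := hmul σ σ⁻¹
    rw [mul_inv_cancel, hc1, map_inv, hσ, inv_one, Units.val_one, one_mul] at h
    rw [eq_neg_iff_add_eq_zero, add_comm]; exact h.symm
  have hhom : ∀ σ τ, chiU p τ = 1 → c (σ * τ) = c σ + c τ := fun σ τ hτ => by
    rw [hmul, hτ, Units.val_one, one_mul]
  have hconj : ∀ g h, chiU p h = 1 →
      chiU p (g⁻¹ * h * g) = 1 ∧ c (g⁻¹ * h * g) = (chiU p g : ZMod p) * c h := fun g h hh => by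
    have h1 : chiU p (g⁻¹ * h * g) = 1 := by simp [hh]
    refine ⟨h1, ?_⟩
    have h2 : c (g * (g⁻¹ * h * g)) = c (h * g) := by congr 1; group
    rw [hhom _ _ h1, hmul h g] at h2
    linear_combination h2
  -- the kernel and its field
  let N : Subgroup GQ :=
    { carrier := {σ | chiU p σ = 1 ∧ c σ = 0}
      one_mem' := ⟨map_one _, hc1⟩
      mul_mem' := fun {a b} ha hb => ⟨by rw [map_mul, ha.1, hb.1, one_mul],
        by rw [hhom _ _ hb.1, ha.2, hb.2, add_zero]⟩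
      inv_mem' := fun {a} ha => ⟨by rw [map_inv, ha.1, inv_one],
        by rw [hcinv _ ha.1, ha.2, neg_zero]⟩ }
  have hNn : N.Normal := ⟨fun n hn g => by
    obtain ⟨h1, h2⟩ := hconj g⁻¹ n hn.1
    rw [inv_inv] at h1 h2
    exact ⟨h1, by rw [h2, hn.2, mul_zero]⟩⟩
  let L : IntermediateField ℚ Qb := IntermediateField.fixedField N
  have hLN : L.fixingSubgroup = N :=
    InfiniteGalois.fixingSubgroup_fixedField ⟨N, Subgroup.isClosed_of_isOpen N hopen⟩
  have hmemN : ∀ σ : GQ, σ ∈ N ↔ ∀ y : L, σ (y : Qb) = (y : Qb) := fun σ => by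
    rw [← hLN]; rfl
  have hLnorm : L.fixingSubgroup.Normal := hLN.symm ▸ hNn
  have hLgal : IsGalois ℚ L := (InfiniteGalois.normal_iff_isGalois L).mp hLnorm
  have hLfin : FiniteDimensional ℚ L :=
    (InfiniteGalois.isOpen_iff_finite L).mp (by rw [hLN]; exact hopen)
  have : NumberField L := { }
  -- the cyclotomic field
  obtain ⟨ζ, hζ⟩ := HasEnoughRootsOfUnity.exists_primitiveRoot Qb p
  let K : IntermediateField ℚ Qb := IntermediateField.adjoin ℚ {ζ}
  have hKcyc : IsCyclotomicExtension {p} ℚ K :=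
    hζ.intermediateField_adjoin_isCyclotomicExtension ℚ
  have : NumberField K := IsCyclotomicExtension.numberField {p} ℚ K
  have : IsGalois ℚ K := IsCyclotomicExtension.isGalois {p} ℚ K
  have hζK : ζ ∈ K := IntermediateField.subset_adjoin ℚ _ rfl
  have hchi : ∀ σ : GQ, σ ζ = ζ → chiU p σ = 1 := fun σ hσ => by
    rw [apply_of_pow_eq_one p σ hζ.pow_eq_one] at hσ
    refine Units.ext (ZMod.val_injective p ?_)
    rw [Units.val_one, ZMod.val_one]
    exact hζ.pow_inj (ZMod.val_lt _) hp.one_lt (hσ.trans (pow_one ζ).symm)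
  have hmemH : ∀ σ : GQ, σ ∈ K.fixingSubgroup ↔ chiU p σ = 1 := fun σ => by
    refine ⟨fun hσ => hchi σ (hσ ⟨ζ, hζK⟩), fun hσ y => ?_⟩
    have hle : K ≤ IntermediateField.fixedField (Subgroup.zpowers σ) := by
      rw [IntermediateField.adjoin_simple_le_iff]
      rintro ⟨τ, hτ⟩
      obtain ⟨i, rfl⟩ := Subgroup.mem_zpowers_iff.mp hτ
      show (σ ^ i) ζ = ζ
      rw [apply_of_pow_eq_one p _ hζ.pow_eq_one, map_zpow, hσ, one_zpow, Units.val_one,
        ZMod.val_one, pow_one]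
    exact hle y.2 ⟨σ, Subgroup.mem_zpowers σ⟩
  have hKmem : ∀ x : Qb, (∀ σ : GQ, chiU p σ = 1 → σ x = x) → x ∈ K := fun x hx => by
    rw [← InfiniteGalois.fixedField_fixingSubgroup K]
    intro σ
    exact hx σ.1 ((hmemH σ.1).mp σ.2)
  have hKL : K ≤ L := fun x hx σ => (hmemH σ.1).mpr σ.2.1 ⟨x, hx⟩
  let _ : Algebra K L := (IntermediateField.inclusion hKL).toRingHom.toAlgebra
  have : IsScalarTower ℚ K L := IsScalarTower.of_algebraMap_eq fun _ => rfl
  have hKLgal : IsGalois K L := IsGalois.tower_top_of_isGalois ℚ K L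
  have hKLfin : FiniteDimensional K L := FiniteDimensional.right ℚ K L
  -- lifting automorphisms of `L`
  let lift : (L ≃ₐ[K] L) → GQ := fun τ => (τ.restrictScalars ℚ).liftNormal Qb
  have hlift : ∀ (τ : L ≃ₐ[K] L) (y : L), lift τ (y : Qb) = ((τ y : L) : Qb) := fun τ y =>
    AlgEquiv.liftNormal_commutes _ Qb y
  have hlift1 : ∀ τ, chiU p (lift τ) = 1 := fun τ => hchi _ (by
    have h := hlift τ (algebraMap K L ⟨ζ, hζK⟩)
    rw [τ.commutes] at h
    exact h)
  have hcext : ∀ σ σ' : GQ, chiU p σ' = 1 → (∀ y : L, σ (y : Qb) = σ' (y : Qb)) →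
      c σ = c σ' := fun σ σ' hσ' h => by
    have hn : σ'⁻¹ * σ ∈ N := (hmemN _).mpr fun y => by
      rw [AlgEquiv.mul_apply, h, ← AlgEquiv.mul_apply, inv_mul_cancel, AlgEquiv.one_apply]
    have h2 := hhom σ' (σ'⁻¹ * σ) hn.1
    rwa [mul_inv_cancel_left, hn.2, add_zero] at h2
  -- every inertia group of `L` over `K` is trivial
  have htriv : InertiaTrivial K L := fun P hP τ hτ => by
    have : Finite (𝓞 L ⧸ P) := Ideal.finiteQuotientOfFreeOfNeBot P
      (Ring.ne_bot_of_isMaximal_of_not_isField hP (RingOfIntegers.not_isField L))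
    let _ : Field (𝓞 L ⧸ P) := Ideal.Quotient.field P
    obtain ⟨q, hq⟩ := CharP.exists (𝓞 L ⧸ P)
    have hqp : q.Prime := CharP.char_prime_of_ne_zero (𝓞 L ⧸ P)
      (CharP.char_ne_zero_of_finite (𝓞 L ⧸ P) q)
    have hqP : (q : 𝓞 L) ∈ P := by
      rw [← Ideal.Quotient.eq_zero_iff_mem, map_natCast, CharP.cast_eq_zero]
    obtain ⟨A, hA, σ, hσA, hσ⟩ :=
      exists_inertia_lift L P hqp hqP (τ.restrictScalars ℚ) fun x => hτ x
    have hσ1 : chiU p σ = 1 := hchi σ (by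
      have h := hσ (algebraMap K L ⟨ζ, hζK⟩)
      rw [AlgEquiv.restrictScalars_apply, τ.commutes] at h
      exact h)
    have hσN : σ ∈ N := ⟨hσ1, hram q hqp A hA σ hσA hσ1⟩
    refine AlgEquiv.ext fun y => Subtype.ext ?_
    exact (hσ y).symm.trans ((hmemN σ).mp hσN y)
  -- Hilbert 90
  let ζL : L := ⟨ζ, hKL hζK⟩
  have hζLp : ζL ^ p = 1 := Subtype.ext hζ.pow_eq_one
  let ζu : Lˣ := Units.mkOfMulEqOne ζL (ζL ^ (p - 1)) (by
    rw [← pow_succ', show p - 1 + 1 = p by have := hp.pos; omega, hζLp])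
  let f : (L ≃ₐ[K] L) → Lˣ := fun τ => ζu ^ (c (lift τ)).val
  have hf : ∀ g h, (f (g * h) : L) = g (f h : L) * (f g : L) := fun g h => by
    refine Subtype.ext ?_
    have hgh : c (lift (g * h)) = c (lift h) + c (lift g) := by
      rw [hcext (lift (g * h)) (lift g * lift h) (by rw [map_mul, hlift1, hlift1, one_mul])
        (fun y => by
          rw [AlgEquiv.mul_apply, hlift, hlift, hlift, AlgEquiv.mul_apply]), hhom _ _ (hlift1 h), add_comm]
    have hg : g ζL = ζL := g.commutes (⟨ζ, hζK⟩ : K)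
    show ζ ^ (c (lift (g * h))).val =
      ((g (ζL ^ (c (lift h)).val) * ζL ^ (c (lift g)).val : L) : Qb)
    rw [map_pow, hg, hgh, pow_val_add p hζ.pow_eq_one]
    rfl
  obtain ⟨β₀, hβ₀0, hβ₀⟩ := exists_coboundary f hf
  -- an integral Kummer element
  obtain ⟨m, hm0, hm⟩ : ∃ m : ℤ, m ≠ 0 ∧ IsIntegral ℤ (m • β₀) :=
    ((IsFractionRing.isAlgebraic_iff ℤ ℚ L).mpr
      (Algebra.IsAlgebraic.isAlgebraic β₀)).exists_integral_multiple
  let β : 𝓞 L := ⟨m • β₀, hm⟩
  set B : Qb := ((β : L) : Qb)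
  have hB : B = (m : Qb) * (β₀ : Qb) := by
    show ((m • β₀ : L) : Qb) = _
    rw [zsmul_eq_mul]
    push_cast
    rfl
  have hB0 : B ≠ 0 := by
    rw [hB]
    exact mul_ne_zero (Int.cast_ne_zero.mpr hm0) fun h => hβ₀0 (Subtype.ext h)
  have hβσ : ∀ σ : GQ, chiU p σ = 1 → σ B = ζ ^ (c σ).val * B := fun σ hσ => by
    let r : L ≃ₐ[ℚ] L := σ.restrictNormal L
    have hr : ∀ y : L, ((r y : L) : Qb) = σ (y : Qb) := fun y =>
      AlgEquiv.restrictNormal_commutes σ L y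
    let τ : L ≃ₐ[K] L := AlgEquiv.ofRingEquiv (f := r.toRingEquiv) fun k => Subtype.ext (by
      show ((r (algebraMap K L k) : L) : Qb) = _
      rw [hr]
      exact (hmemH σ).mpr hσ k)
    have hτ : ∀ y : L, ((τ y : L) : Qb) = σ (y : Qb) := hr
    have hc : c (lift τ) = c σ := hcext _ _ hσ fun y => by rw [hlift, hτ]
    have h : τ β₀ = ζL ^ (c (lift τ)).val * β₀ := by
      simpa [f, ζu] using hβ₀ τ
    rw [hB, map_mul, map_intCast, ← hτ, h, hc]
    push_cast
    show (m : Qb) * (ζ ^ _ * _) = _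
    ring
  obtain ⟨bK, hbK⟩ : ∃ bK : K, (bK : Qb) = B ^ p := ⟨⟨_, hKmem _ fun σ hσ => by
    rw [map_pow, hβσ σ hσ, mul_pow, ← pow_mul, mul_comm _ p, pow_mul, hζ.pow_eq_one, one_pow,
      one_mul]⟩, rfl⟩
  have hbint : IsIntegral ℤ bK := by
    rw [← isIntegral_algebraMap_iff (B := Qb) (algebraMap K Qb).injective]
    show IsIntegral ℤ (bK : Qb)
    rw [hbK]
    exact ((RingOfIntegers.isIntegral_coe β).map
      (L.val.restrictScalars ℤ)).pow p
  let b : 𝓞 K := ⟨bK, hbint⟩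
  have hb0 : b ≠ 0 := fun h => pow_ne_zero p hB0 (by
    rw [← hbK]
    exact congrArg (fun x : 𝓞 K => ((x : K) : Qb)) h)
  have hβb : β ^ p = algebraMap (𝓞 K) (𝓞 L) b :=
    RingOfIntegers.ext (Subtype.ext hbK.symm)
  -- eigen property
  have heig : EigenTwo p K b := fun d => by
    let g : GQ := (sigmaK p K d).liftNormal Qb
    have hg : ∀ y : K, g (y : Qb) = ((sigmaK p K d y : K) : Qb) := fun y =>
      AlgEquiv.liftNormal_commutes _ Qb y
    have hgd : chiU p g = d := by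
      set z := IsCyclotomicExtension.zeta p ℚ K
      have hz : IsPrimitiveRoot (z : Qb) p :=
        (IsCyclotomicExtension.zeta_spec p ℚ K).map_of_injective (algebraMap K Qb).injective
      have h1 : ((sigmaK p K d z : K) : Qb) = (z : Qb) ^ (d : ZMod p).val :=
        congrArg (fun x : 𝓞 K => ((x : K) : Qb)) (sigma_zetaInt p K d)
      refine Units.ext (ZMod.val_injective p (hz.pow_inj (ZMod.val_lt _) (ZMod.val_lt _) ?_))
      rw [← apply_of_pow_eq_one p g hz.pow_eq_one, hg, h1]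
    set n := ((d : ZMod p) ^ 2).val
    obtain ⟨zK, hzK⟩ : ∃ zK : K, (zK : Qb) = g B / B ^ n := ⟨⟨_, hKmem _ fun σ hσ => by
      obtain ⟨h1, h2⟩ := hconj g σ hσ
      have h3 : σ (g B) = ζ ^ ((d : ZMod p) ^ 2 * c σ).val * g B := by
        rw [show σ (g B) = g ((g⁻¹ * σ * g) B) by
          simp [AlgEquiv.mul_apply, AlgEquiv.aut_inv], hβσ _ h1, map_mul, map_pow,
          apply_of_pow_eq_one p g hζ.pow_eq_one, hgd, h2, hgd, ← pow_val_mul p hζ.pow_eq_one,
          ← mul_assoc, ← sq]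
      have hne : ζ ^ ((d : ZMod p) ^ 2 * c σ).val ≠ 0 := pow_ne_zero _ (hζ.ne_zero hp.ne_zero)
      rw [map_div₀, map_pow, h3, hβσ σ hσ, mul_pow, ← pow_val_mul p hζ.pow_eq_one, mul_comm (c σ),
        mul_div_mul_left _ _ hne]⟩, rfl⟩
    obtain ⟨k₁, k₂, hk₂, hk⟩ := IsFractionRing.div_surjective (A := 𝓞 K) zK
    have hk₂' : k₂ ≠ 0 := nonZeroDivisors.ne_zero hk₂
    have hgB : g B ≠ 0 := by simpa using hB0
    have hk₂Q : ((k₂ : K) : Qb) ≠ 0 := by simpa using hk₂'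
    have hkQ : ((k₁ : K) : Qb) = g B / B ^ n * ((k₂ : K) : Qb) := by
      rw [← hzK, ← hk]
      push_cast
      rw [div_mul_cancel₀ _ hk₂Q]
    have hk₁' : k₁ ≠ 0 := fun h => by
      rw [h] at hkQ
      simp [hgB, hB0, hk₂Q] at hkQ
    refine ⟨k₁, k₂, hk₁', hk₂', RingOfIntegers.ext (Subtype.ext ?_)⟩
    show ((sigmaK p K d (b : K) * (k₂ : K) ^ p : K) : Qb)
      = (((b : K) ^ n * (k₁ : K) ^ p : K) : Qb)
    push_cast
    rw [← hg, show ((b : K) : Qb) = B ^ p from hbK, hkQ, map_pow, mul_pow, div_pow, ← pow_mul,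
      ← pow_mul, mul_comm n p, ← mul_assoc, mul_div_cancel₀ _ (pow_ne_zero _ hB0)]
  obtain ⟨a, ha⟩ := eq_pow_of_eigen p K h3 hb0 heig (exists_ideal_pow hp.ne_zero htriv hb0 hβb)
    fun u a hua => by
      have ha0 : (algebraMap (𝓞 K) (𝓞 L) a : L) ≠ 0 := by
        intro h
        have : a = 0 := by
          apply RingOfIntegers.algebraMap.injective K L
          rw [map_zero]; exact RingOfIntegers.ext h
        exact hb0 (by rw [hua, this, zero_pow hp.ne_zero, mul_zero])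
      set y : L := (β : L) / (algebraMap (𝓞 K) (𝓞 L) a : L)
      have hy : y ^ p = ((algebraMap (𝓞 K) (𝓞 L) (u : 𝓞 K) : 𝓞 L) : L) := by
        rw [div_pow, div_eq_iff (pow_ne_zero _ ha0), ← map_pow, ← map_pow, ← map_mul, hβb, hua,
          map_mul, map_pow]
      have hyint : IsIntegral ℤ y :=
        IsIntegral.of_pow hp.pos (hy.symm ▸ RingOfIntegers.isIntegral_coe _)
      exact exists_local_pow p h3 htriv (u : 𝓞 K) (γ := ⟨y, hyint⟩) (RingOfIntegers.ext hy)
  -- conclusion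
  have hBp : B ^ p = ((a : K) : Qb) ^ p := by
    rw [← hbK, show bK = ((b : 𝓞 K) : K) from rfl, ha]
    rfl
  have haQ : ((a : K) : Qb) ≠ 0 := fun h => pow_ne_zero p hB0 (by
    rw [hBp, h, zero_pow hp.ne_zero])
  obtain ⟨i, -, hi⟩ := hζ.eq_pow_of_pow_eq_one (ξ := B / ((a : K) : Qb)) (by
    rw [div_pow, hBp, div_self (pow_ne_zero _ haQ)])
  have hfix : σ₀ B = B := by
    have e : B = ζ ^ i * ((a : K) : Qb) := by rw [hi, div_mul_cancel₀ _ haQ]
    rw [e, map_mul, map_pow, apply_of_pow_eq_one p σ₀ hζ.pow_eq_one, hσ₀, Units.val_one,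
      ZMod.val_one, pow_one,
      show σ₀ ((a : K) : Qb) = ((a : K) : Qb) from (hmemH σ₀).mpr hσ₀ (a : K)]
  rw [hβσ σ₀ hσ₀, mul_eq_right₀ hB0] at hfix
  by_contra hne
  exact hζ.pow_ne_one_of_pos_of_lt (fun h => hne ((ZMod.val_eq_zero _).mp h)) (ZMod.val_lt _) hfix

end FA.Ext
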