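import Fermat.Agent.Local.Minkowski

/-!
# Inertia elements of finite Galois extensions lift to inertia elements of `ℚ̄`
-/

set_option autoImplicit false

noncomputable section

open NumberField FA.Deform FA.Local
open scoped Pointwise

namespace FA.Ext

local notation "Qb" => AlgebraicClosure ℚ
local notation "GQ" => AlgebraicClosure ℚ ≃ₐ[ℚ] AlgebraicClosure ℚ

variable (K : IntermediateField ℚ Qb)

/-- A prime of a subfield of `ℚ̄` is cut out by some valuation subring. -/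
theorem exists_place_above [FiniteDimensional ℚ K] {P : Ideal (𝓞 K)} (hP : P.IsMaximal) :
    ∃ A : ValuationSubring Qb, ∀ x : 𝓞 K, intIncl K x ∈ primeAt A ↔ x ∈ P := by
  let f : 𝓞 K →+* Qb := (algebraMap K Qb).comp (algebraMap (𝓞 K) K)
  have hf : Function.Injective f := fun a b h =>
    RingOfIntegers.ext ((algebraMap K Qb).injective h)
  have hbij : Function.Bijective f.rangeRestrict :=
    ⟨fun a b h => hf (congrArg Subtype.val h :), f.rangeRestrict_surjective⟩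
  have hI : P.map f.rangeRestrict ≠ ⊤ := fun h => hP.ne_top (by
    rw [← Ideal.comap_map_of_bijective f.rangeRestrict hbij (I := P), h, Ideal.comap_top])
  obtain ⟨A, -, hA⟩ := Ideal.image_subset_nonunits_valuationSubring _ hI
  refine ⟨A, fun x => ?_⟩
  have hle : P ≤ (primeAt A).comap (intIncl K) := fun y hy =>
    mem_primeAt.mpr (hA ⟨f.rangeRestrict y, Ideal.mem_map_of_mem _ hy, rfl⟩)
  rw [← Ideal.mem_comap, ← hP.eq_of_le (Ideal.IsPrime.ne_top (Ideal.comap_isPrime _ _)) hle]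

/-- An element of an inertia group of a finite Galois extension of `ℚ` inside `ℚ̄` extends to an
element of an inertia group of `ℚ̄`. -/
theorem exists_inertia_lift [FiniteDimensional ℚ K] [IsGalois ℚ K] (P : Ideal (𝓞 K))
    [hPmax : P.IsMaximal] {q : ℕ} (hq : q.Prime) (hqP : (q : 𝓞 K) ∈ P) (τ : K ≃ₐ[ℚ] K)
    (hτ : ∀ x : 𝓞 K, τ • x - x ∈ P) :
    ∃ A : ValuationSubring Qb, A.LiesOverPrime q ∧
      ∃ σ ∈ A.inertiaSubgroupIn ℚ, ∀ y : K, σ (y : Qb) = ((τ y : K) : Qb) := by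
  let 𝒪 := 𝓞 K
  obtain ⟨A, hAP⟩ := exists_place_above K hPmax
  have hA : A.LiesOverPrime q := by
    have h := (hAP (q : 𝒪)).mpr hqP
    rw [mem_primeAt, map_natCast] at h
    exact h
  let _ : Algebra 𝒪 ZBar := (intIncl K).toAlgebra
  -- lift it
  let σ₀ : GQ := τ.liftNormal Qb
  have hσ₀ : ∀ y : K, σ₀ (y : Qb) = ((τ y : K) : Qb) := fun y => τ.liftNormal_commutes Qb y
  have hσ₀' : ∀ x : 𝒪, σ₀ • algebraMap 𝒪 ZBar x = algebraMap 𝒪 ZBar (τ • x) := fun x => by
    refine Subtype.ext ?_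
    rw [integralClosure.coe_smul]
    show σ₀ ((x : K) : Qb) = (((τ • x : 𝒪) : K) : Qb)
    exact hσ₀ x
  -- the Galois group of `ℚ̄ / K` acting on all algebraic integers
  let H := K.fixingSubgroup
  have hHclosed : IsClosed (H : Set GQ) := K.fixingSubgroup_isClosed
  have : CompactSpace H := isCompact_iff_compactSpace.mp hHclosed.isCompact
  let _ : TopologicalSpace ZBar := ⊥
  have : DiscreteTopology ZBar := ⟨rfl⟩
  have : ContinuousSMul GQ ZBar := by
    rw [continuousSMul_iff_stabilizer_isOpen]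
    intro x
    have h := stabilizer_isOpen_of_isIntegral (K := ℚ) (x : Qb)
    convert h using 2
    ext g
    simp only [MulAction.mem_stabilizer_iff, Subtype.ext_iff, integralClosure.coe_smul]
  have : ContinuousSMul H ZBar :=
    ⟨(continuous_smul (M := GQ) (X := ZBar)).comp (continuous_subtype_val.prodMap continuous_id)⟩
  have hHfix : ∀ (g : H) (x : 𝒪), g • algebraMap 𝒪 ZBar x = algebraMap 𝒪 ZBar x := fun g x => by
    refine Subtype.ext ?_
    show ((g : GQ) • algebraMap 𝒪 ZBar x : ZBar).1 = _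
    rw [integralClosure.coe_smul]
    exact g.2 ⟨((x : K) : Qb), (x : K).2⟩
  have : SMulCommClass H 𝒪 ZBar := ⟨fun g x b => by
    rw [Algebra.smul_def, Algebra.smul_def, smul_mul', hHfix]⟩
  have : Algebra.IsInvariant 𝒪 ZBar H := by
    constructor
    intro b hb
    have hbK : (b : Qb) ∈ K := by
      rw [← InfiniteGalois.fixedField_fixingSubgroup K]
      intro g
      exact congrArg Subtype.val (hb g)
    refine ⟨⟨⟨(b : Qb), hbK⟩, ?_⟩, Subtype.ext rfl⟩
    exact (isIntegral_algebraMap_iff (B := Qb) (algebraMap K Qb).injective).mp b.2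
  -- `σ₀` can be corrected to fix the prime
  let Q := primeAt A
  have hunder : ∀ x : 𝒪, algebraMap 𝒪 ZBar x ∈ σ₀⁻¹ • Q ↔ algebraMap 𝒪 ZBar x ∈ Q := fun x => by
    rw [Ideal.mem_inv_pointwise_smul_iff, hσ₀']
    exact ⟨fun h => (hAP x).mpr (by simpa using P.sub_mem ((hAP _).mp h) (hτ x)),
      fun h => (hAP _).mpr (by simpa using P.add_mem (hτ x) ((hAP x).mp h))⟩
  obtain ⟨g, hg⟩ := Algebra.IsInvariant.exists_smul_of_under_eq_of_profinite (A := 𝒪) (G := H)
    Q (σ₀⁻¹ • Q) (Ideal.ext fun x => (hunder x).symm)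
  let σ₁ : GQ := σ₀ * (g : GQ)
  have hσ₁Q : σ₁ • Q = Q := by
    rw [show σ₁ • Q = σ₀ • ((g : GQ) • Q) from mul_smul _ _ _,
      show (g : GQ) • Q = σ₀⁻¹ • Q from hg.symm, smul_inv_smul]
  have hσ₁𝒪 : ∀ x : 𝒪, σ₁ • algebraMap 𝒪 ZBar x - algebraMap 𝒪 ZBar x ∈ Q := fun x => by
    rw [show σ₁ • algebraMap 𝒪 ZBar x = σ₀ • ((g : GQ) • algebraMap 𝒪 ZBar x) from mul_smul _ _ _,
      show (g : GQ) • algebraMap 𝒪 ZBar x = g • algebraMap 𝒪 ZBar x from rfl, hHfix, hσ₀', ← map_sub]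
    exact (hAP _).mpr (hτ x)
  -- correct again by an element of `Gal(ℚ̄ / K)` to get an element of inertia
  have : Q.LiesOver P := ⟨Ideal.ext fun x => (hAP x).symm⟩
  let e : (ZBar ⧸ Q) ≃ₐ[𝒪 ⧸ P] (ZBar ⧸ Q) :=
    AlgEquiv.ofRingEquiv (f := Ideal.quotientEquiv Q Q (MulSemiringAction.toRingEquiv GQ ZBar σ₁)
      hσ₁Q.symm) (by
      intro a
      obtain ⟨x, rfl⟩ := Ideal.Quotient.mk_surjective a
      show Ideal.Quotient.mk Q (σ₁ • algebraMap 𝒪 ZBar x) = Ideal.Quotient.mk Q (algebraMap 𝒪 ZBar x)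
      rw [Ideal.Quotient.eq]
      exact hσ₁𝒪 x)
  obtain ⟨⟨g', hg'Q⟩, hg'⟩ :=
    Ideal.Quotient.stabilizerHom_surjective_of_profinite (G := H) P Q e
  let σ : GQ := (g' : GQ)⁻¹ * σ₁
  have hg'' : ∀ b : ZBar, (g' : GQ) • b - σ₁ • b ∈ Q := fun b => by
    rw [← Ideal.Quotient.eq]
    exact AlgEquiv.congr_fun hg' (Ideal.Quotient.mk Q b)
  have hσ : ∀ b : ZBar, σ • b - b ∈ Q := fun b => by
    have h := hg'' b
    have hgg : (g' : GQ)⁻¹ • Q = Q := by
      rw [inv_smul_eq_iff]; exact hg'Q.symm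
    rw [← Ideal.neg_mem_iff, neg_sub] at h
    have := Ideal.smul_mem_pointwise_smul (g' : GQ)⁻¹ _ _ h
    rwa [hgg, smul_sub, inv_smul_smul, ← mul_smul] at this
  refine ⟨A, hA, σ, mem_inertiaSubgroupIn_of_forall hq hA hσ, fun y => ?_⟩
  have h1 : ∀ g : H, ∀ z : K, (g : GQ) (z : Qb) = (z : Qb) := fun g z => g.2 z
  have h2 : ∀ g : H, ∀ z : K, (g : GQ)⁻¹ (z : Qb) = (z : Qb) := fun g z => (g⁻¹).2 z
  show (g' : GQ)⁻¹ (σ₀ ((g : GQ) (y : Qb))) = _
  rw [h1, hσ₀, h2]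

end FA.Ext
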