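import Fermat.Agent.ExtVanish.Descent

/-!
# Admissible extensions split
-/

set_option autoImplicit false

noncomputable section

namespace FA.Ext

local notation "Qb" => AlgebraicClosure ℚ
local notation "GQ" => AlgebraicClosure ℚ ≃ₐ[ℚ] AlgebraicClosure ℚ

variable (p : ℕ) [Fact p.Prime] (V : Type) [AddCommGroup V] [Module (ZMod p) V]
  [DistribMulAction GQ V] [SMulCommClass GQ (ZMod p) V]

omit [DistribMulAction GQ V] [SMulCommClass GQ (ZMod p) V] in
/-- Coordinates adapted to a line in a plane. -/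
theorem exists_coordinates (C : Submodule (ZMod p) V) (hC : Nat.card C = p)
    (hV : Nat.card V = p ^ 2) :
    ∃ e v : V, e ∈ C ∧ (∀ x ∈ C, ∃ a : ZMod p, x = a • e) ∧
      Function.Bijective fun ab : ZMod p × ZMod p => ab.1 • v + ab.2 • e := by
  have hp : p.Prime := Fact.out
  have : Finite C := Nat.finite_of_card_ne_zero (by rw [hC]; exact hp.ne_zero)
  have : Finite V := Nat.finite_of_card_ne_zero (by rw [hV]; exact pow_ne_zero 2 hp.ne_zero)
  have : Nontrivial C := Finite.one_lt_card_iff_nontrivial.mp (by rw [hC]; exact hp.one_lt)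
  obtain ⟨e, he⟩ := exists_ne (0 : C)
  have hspan : ∀ x : C, ∃ a : ZMod p, a • e = x := fun x => by
    have hinj : Function.Injective fun a : ZMod p => a • e := smul_left_injective (ZMod p) he
    exact (hinj.bijective_of_nat_card_le (by rw [hC, Nat.card_zmod])).2 x
  obtain ⟨v, hv⟩ : ∃ v : V, v ∉ C := by
    by_contra h
    push Not at h
    have : Nat.card V ≤ Nat.card C := Nat.card_le_card_of_injective (fun x => (⟨x, h x⟩ : C))
      fun _ _ hxy => congrArg Subtype.val hxy
    rw [hV, hC, sq] at this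
    nlinarith [hp.two_le]
  refine ⟨e, v, e.2, fun x hx => ?_, ?_⟩
  · obtain ⟨a, ha⟩ := hspan ⟨x, hx⟩
    exact ⟨a, (congrArg Subtype.val ha).symm⟩
  have hinj : Function.Injective fun ab : ZMod p × ZMod p => ab.1 • v + ab.2 • (e : V) := by
    rintro ⟨a, b⟩ ⟨a', b'⟩ h
    simp only at h
    have h1 : (a - a') • v = (b' - b) • (e : V) := by
      rw [sub_smul, sub_smul, sub_eq_sub_iff_add_eq_add, h, add_comm]
    have ha : a = a' := by
      by_contra hne
      refine hv ?_
      have h2 := congrArg (fun x => (a - a')⁻¹ • x) h1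
      simp only [inv_smul_smul₀ (sub_ne_zero.mpr hne)] at h2
      rw [h2]
      exact C.smul_mem _ (C.smul_mem _ e.2)
    subst ha
    rw [sub_self, zero_smul, eq_comm, smul_eq_zero] at h1
    rcases h1 with h1 | h1
    · rw [sub_eq_zero.mp h1]
    · exact absurd (Subtype.ext h1) he
  exact hinj.bijective_of_nat_card_le (by rw [hV, Nat.card_prod, Nat.card_zmod, sq])

/-- An admissible extension with open kernel splits. -/
theorem splitsGlobally_of_admissible (h3 : 3 ≤ p) (C : Submodule (ZMod p) V)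
    (h : ExtCitation.IsAdmissibleExtension p V C)
    (hopen : IsOpen {σ : GQ | ∀ v : V, σ • v = v}) : ExtCitation.SplitsGlobally C := by
  have hp : p.Prime := Fact.out
  have : NeZero p := ⟨hp.ne_zero⟩
  obtain ⟨e, v, he, hspan, hbij⟩ := exists_coordinates p V C h.card_sub h.card_total
  have huniq : ∀ {a b a' b' : ZMod p}, a • v + b • e = a' • v + b' • e → a = a' ∧ b = b' :=
    fun hab => Prod.mk.inj (hbij.1 (a₁ := (_, _)) (a₂ := (_, _)) hab)
  have hev : ∀ σ : GQ, σ • e = e := fun σ => h.fixed_sub σ e he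
  have hex : ∀ σ : GQ, ∃ c : ZMod p, σ • v = (chiU p σ : ZMod p) • v + c • e := fun σ => by
    obtain ⟨a, ha⟩ := hspan _ (h.cyclo_quot σ v)
    refine ⟨a, ?_⟩
    rw [← cast_cycloExp, ← ha]
    abel
  choose c hc using hex
  have hsm : ∀ (σ : GQ) (a b : ZMod p), σ • (a • v + b • e)
      = (a * (chiU p σ : ZMod p)) • v + (a * c σ + b) • e := fun σ a b => by
    rw [smul_add, smul_comm σ a, smul_comm σ b, hev, hc, smul_add, smul_smul, smul_smul, add_smul,
      add_assoc]
  have hmul : ∀ σ τ, c (σ * τ) = (chiU p τ : ZMod p) * c σ + c τ := fun σ τ => by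
    have h1 := hc (σ * τ)
    rw [mul_smul, hc τ, hsm] at h1
    exact (huniq h1).2.symm
  have hker : ∀ σ : GQ, (∀ x : V, σ • x = x) ↔ (chiU p σ = 1 ∧ c σ = 0) := fun σ => by
    refine ⟨fun hσ => ?_, fun ⟨h1, h2⟩ x => ?_⟩
    · have h1 := (hc σ).symm.trans (hσ v)
      have h2 := huniq (a := (chiU p σ : ZMod p)) (b := c σ) (a' := 1) (b' := 0)
        (by rw [one_smul, zero_smul, add_zero]; exact h1)
      exact ⟨Units.ext h2.1, h2.2⟩
    · obtain ⟨⟨a, b⟩, rfl⟩ := hbij.2 x
      rw [hsm, h1, h2, Units.val_one, mul_one, mul_zero, zero_add]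
  have hres : ∀ σ : GQ, chiU p σ = 1 → c σ = 0 := by
    refine cocycle_eq_zero p h3 c hmul ?_ ?_
    · convert hopen using 2
      ext σ
      exact (hker σ).symm
    intro q hq A hA σ hσ hσ1
    by_cases hqp : q = p
    · subst hqp
      obtain ⟨C', hC', hcompl⟩ := h.locally_split A hA
      have hσd : σ ∈ A.decompositionSubgroup ℚ := by
        obtain ⟨τ, -, rfl⟩ := hσ
        exact τ.2
      obtain ⟨x, hx, w, hw, hxw⟩ := Submodule.mem_sup.mp
        (show v ∈ C ⊔ C' by rw [hcompl.codisjoint.eq_top]; trivial)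
      have h1 : σ • w - w = c σ • e := by
        have hwv : w = v - x := eq_sub_of_add_eq' hxw
        rw [hwv, smul_sub, h.fixed_sub σ x hx, hc, hσ1, Units.val_one, one_smul]
        abel
      have h2 : c σ • e = 0 := by
        refine Submodule.disjoint_def.mp hcompl.disjoint _ (C.smul_mem _ he) ?_
        rw [← h1]
        exact C'.sub_mem (hC' σ hσd w hw) hw
      exact (huniq (a := 0) (b := c σ) (a' := 0) (b' := 0) (by simp [h2])).2
    · exact ((hker σ).mp (h.unramified_outside q hq hqp A hA σ hσ)).2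
  -- an element of nontrivial character
  obtain ⟨τ, hτ⟩ : ∃ τ : GQ, chiU p τ ≠ 1 := by
    by_contra hall
    push Not at hall
    obtain ⟨ζ, hζ⟩ := HasEnoughRootsOfUnity.exists_primitiveRoot Qb p
    have hfix : ∀ σ : GQ, σ ζ = ζ := fun σ => by
      rw [apply_of_pow_eq_one p σ hζ.pow_eq_one, hall, Units.val_one, ZMod.val_one, pow_one]
    obtain ⟨q, hq⟩ := FA.Local.exists_ratCast_of_fixed ζ hfix
    have h1 : q ^ p = 1 := by
      have := hζ.pow_eq_one
      rw [← hq, ← Rat.cast_pow] at this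
      exact_mod_cast this
    rcases (pow_eq_one_iff_of_ne_zero hp.ne_zero).mp h1 with h2 | ⟨h2, heven⟩
    · exact hζ.ne_one hp.one_lt (by rw [← hq, h2, Rat.cast_one])
    · exact absurd ((hp.eq_two_or_odd'.resolve_left (by omega))) (Nat.not_odd_iff_even.mpr heven)
  set t := c τ * ((chiU p τ : ZMod p) - 1)⁻¹
  have hτ1 : (chiU p τ : ZMod p) - 1 ≠ 0 := sub_ne_zero.mpr fun h => hτ (Units.ext h)
  have hct : ∀ σ, c σ = t * ((chiU p σ : ZMod p) - 1) := fun σ => by
    have hn : chiU p (σ * τ * (τ * σ)⁻¹) = 1 := by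
      simp [mul_comm (chiU p σ) (chiU p τ)]
    have h1 := hmul (σ * τ * (τ * σ)⁻¹) (τ * σ)
    rw [inv_mul_cancel_right, hres _ hn, mul_zero, zero_add, hmul, hmul] at h1
    simp only [t]
    field_simp
    linear_combination h1
  refine ⟨Submodule.span (ZMod p) {v + t • e}, fun σ x hx => ?_, ?_⟩
  · obtain ⟨a, rfl⟩ := Submodule.mem_span_singleton.mp hx
    refine Submodule.mem_span_singleton.mpr ⟨a * (chiU p σ : ZMod p), ?_⟩
    have h1 := hsm σ a (a * t)
    rw [show a • v + (a * t) • e = a • (v + t • e) by rw [smul_add, smul_smul]] at h1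
    rw [h1, hct σ]
    module
  refine ⟨Submodule.disjoint_def.mpr fun x hxC hx => ?_, codisjoint_iff.mpr ?_⟩
  · obtain ⟨a, rfl⟩ := Submodule.mem_span_singleton.mp hx
    obtain ⟨b, hb⟩ := hspan _ hxC
    have h2 : a = 0 := (huniq (a := a) (b := a * t) (a' := 0) (b' := b)
      (by rw [← hb]; module)).1
    rw [h2, zero_smul]
  · refine eq_top_iff.mpr fun x _ => ?_
    obtain ⟨⟨a, b⟩, rfl⟩ := hbij.2 x
    refine Submodule.mem_sup.mpr ⟨(b - a * t) • e, C.smul_mem _ he, a • (v + t • e),
      Submodule.smul_mem _ _ (Submodule.mem_span_singleton_self _), ?_⟩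
    module

end FA.Ext
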