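import Mathlib.NumberTheory.NumberField.CanonicalEmbedding.NormLeOne
import Mathlib.Algebra.Module.ZLattice.Summable

/-!
# A Lipschitz partition of unity modulo units on the mixed space

For a number field `K` we build a weight `W` on the mixed space, scale invariant, whose sum over the
translates by the units (modulo torsion) is `1`, and such that
`x ↦ W x * N(x)^(-s)` varies slowly at infinity.
-/

set_option autoImplicit false

noncomputable section

open NumberField NumberField.mixedEmbedding NumberField.InfinitePlace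
open NumberField.Units NumberField.Units.dirichletUnitTheorem Module
open scoped Classical

namespace FA.Ext

/-- The hat function. -/
def hat (t : ℝ) : ℝ := max 0 (1 - |t|)

theorem hat_nonneg (t : ℝ) : 0 ≤ hat t := le_max_left _ _

theorem hat_le_one (t : ℝ) : hat t ≤ 1 :=
  max_le zero_le_one (by linarith [abs_nonneg t])

theorem hat_eq_zero {t : ℝ} (h : 1 ≤ |t|) : hat t = 0 :=
  max_eq_left (by linarith)

theorem abs_lt_one_of_hat_ne_zero {t : ℝ} (h : hat t ≠ 0) : |t| < 1 := by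
  by_contra hc
  exact h (hat_eq_zero (not_lt.mp hc))

theorem hat_lipschitz (a b : ℝ) : |hat a - hat b| ≤ |a - b| := by
  refine (abs_max_sub_max_le_max _ _ _ _).trans ?_
  rw [sub_self, abs_zero]
  refine max_le (abs_nonneg _) ?_
  rw [show (1 - |a|) - (1 - |b|) = |b| - |a| by ring, abs_sub_comm a b]
  exact abs_abs_sub_abs_le_abs_sub b a

theorem hat_tsum (t : ℝ) :
    ∑ n ∈ ({-⌊t⌋, -⌊t⌋ - 1} : Finset ℤ), hat (t + n) = 1 := by
  rw [Finset.sum_pair (by omega)]
  have h1 := Int.floor_le t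
  have h2 := Int.lt_floor_add_one t
  unfold hat
  push_cast
  rw [abs_of_nonneg (by linarith), abs_of_nonpos (by linarith)]
  rw [max_eq_right (by linarith), max_eq_right (by linarith)]
  ring

theorem hat_eq_zero_of_notMem (t : ℝ) {n : ℤ}
    (h : n ∉ ({-⌊t⌋, -⌊t⌋ - 1} : Finset ℤ)) : hat (t + n) = 0 := by
  simp only [Finset.mem_insert, Finset.mem_singleton, not_or] at h
  refine hat_eq_zero ?_
  have h1 := Int.floor_le t
  have h2 := Int.lt_floor_add_one t
  rcases lt_or_gt_of_ne h.1 with h3 | h3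
  · have h4 : (n : ℝ) ≤ -(⌊t⌋ : ℝ) - 2 := by
      have : n ≤ -⌊t⌋ - 2 := by omega
      exact_mod_cast this
    rw [abs_of_nonpos (by linarith)]
    linarith
  · have h4 : -(⌊t⌋ : ℝ) + 1 ≤ (n : ℝ) := by
      have : -⌊t⌋ + 1 ≤ n := by omega
      exact_mod_cast this
    rw [abs_of_nonneg (by linarith)]
    linarith

theorem hat_prod_tsum {ι : Type*} [Fintype ι] (t : ι → ℝ) :
    ∑' n : ι → ℤ, ∏ i, hat (t i + n i) = 1 := by
  classical
  rw [tsum_eq_sum (s := Fintype.piFinset fun i => ({-⌊t i⌋, -⌊t i⌋ - 1} : Finset ℤ)) ?_]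
  · rw [← Finset.prod_univ_sum (fun i => ({-⌊t i⌋, -⌊t i⌋ - 1} : Finset ℤ))
      (fun i (n : ℤ) => hat (t i + n))]
    exact Finset.prod_eq_one fun i _ => hat_tsum (t i)
  · intro n hn
    rw [Fintype.mem_piFinset, not_forall] at hn
    obtain ⟨i, hi⟩ := hn
    exact Finset.prod_eq_zero (Finset.mem_univ i) (hat_eq_zero_of_notMem _ hi)

theorem abs_prod_sub_prod_le {ι : Type*} (s : Finset ι) (a b : ι → ℝ)
    (ha0 : ∀ i ∈ s, 0 ≤ a i) (ha1 : ∀ i ∈ s, a i ≤ 1)
    (hb0 : ∀ i ∈ s, 0 ≤ b i) (hb1 : ∀ i ∈ s, b i ≤ 1) :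
    |∏ i ∈ s, a i - ∏ i ∈ s, b i| ≤ ∑ i ∈ s, |a i - b i| := by
  classical
  induction s using Finset.induction_on with
  | empty => simp
  | @insert j s hj ih =>
    rw [Finset.prod_insert hj, Finset.prod_insert hj, Finset.sum_insert hj]
    simp only [Finset.mem_insert, forall_eq_or_imp] at ha0 ha1 hb0 hb1
    have h0 : 0 ≤ ∏ i ∈ s, a i := Finset.prod_nonneg ha0.2
    have h1 : ∏ i ∈ s, a i ≤ 1 := Finset.prod_le_one ha0.2 ha1.2
    calc |a j * ∏ i ∈ s, a i - b j * ∏ i ∈ s, b i|
        = |(a j - b j) * ∏ i ∈ s, a i + b j * (∏ i ∈ s, a i - ∏ i ∈ s, b i)| := by ring_nf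
      _ ≤ |a j - b j| * ∏ i ∈ s, a i + b j * |∏ i ∈ s, a i - ∏ i ∈ s, b i| := by
          refine (abs_add_le _ _).trans ?_
          rw [abs_mul, abs_mul, abs_of_nonneg h0, abs_of_nonneg hb0.1]
      _ ≤ |a j - b j| * 1 + 1 * ∑ i ∈ s, |a i - b i| := by
          gcongr
          · exact hb1.1
          · exact ih ha0.2 ha1.2 hb0.2 hb1.2
      _ = _ := by ring

variable (K : Type*) [Field K] [NumberField K]

/-- Real basis of the log space coming from the fundamental system of units. -/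
def logBasis : Basis (Fin (Units.rank K)) ℝ (logSpace K) :=
  (basisUnitLattice K).ofZLatticeBasis ℝ _

variable {K}

open scoped Classical in
/-- The weight. -/
def weight (x : mixedSpace K) : ℝ :=
  if mixedEmbedding.norm x = 0 then 0 else ∏ i, hat ((logBasis K).repr (logMap x) i)

theorem weight_zero : weight (0 : mixedSpace K) = 0 := by simp [weight]

theorem weight_nonneg (x : mixedSpace K) : 0 ≤ weight x := by
  unfold weight; split_ifs
  · exact le_rfl
  · exact Finset.prod_nonneg fun i _ => hat_nonneg _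

theorem weight_le_one (x : mixedSpace K) : weight x ≤ 1 := by
  unfold weight; split_ifs
  · exact zero_le_one
  · exact Finset.prod_le_one (fun i _ => hat_nonneg _) fun i _ => hat_le_one _

theorem repr_logEmbedding_fundSystem_prod (n : Fin (Units.rank K) → ℤ) (ζ : torsion K) (i) :
    (logBasis K).repr
      (logEmbedding K (Additive.ofMul ((ζ : (𝓞 K)ˣ) * ∏ j, fundSystem K j ^ n j))) i = n i := by
  have h : logEmbedding K (Additive.ofMul ((ζ : (𝓞 K)ˣ) * ∏ j, fundSystem K j ^ n j))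
      = ∑ j, (n j : ℝ) • logBasis K j := by
    rw [ofMul_mul, map_add, logEmbedding_eq_zero_iff.mpr ζ.2, zero_add, ofMul_prod, map_sum]
    refine Finset.sum_congr rfl fun j _ => ?_
    rw [ofMul_zpow, map_zsmul, logEmbedding_fundSystem, Int.cast_smul_eq_zsmul, logBasis,
      Basis.ofZLatticeBasis_apply]
  rw [h, Basis.repr_sum_self]

/-- Summing the weight over a unit orbit gives the order of the torsion. -/
theorem tsum_weight_unit_smul (x : mixedSpace K) (hx : mixedEmbedding.norm x ≠ 0) :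
    ∑' u : (𝓞 K)ˣ, weight (u • x) = Units.torsionOrder K := by
  classical
  have : Fintype (torsion K) := Fintype.ofFinite _
  let e : torsion K × (Fin (Units.rank K) → ℤ) → (𝓞 K)ˣ :=
    fun ζn => (ζn.1 : (𝓞 K)ˣ) * ∏ j, fundSystem K j ^ ζn.2 j
  have he : Function.Bijective e := by
    constructor
    · intro a b hab
      obtain ⟨c, -, hc⟩ := exist_unique_eq_mul_prod K (e a)
      rw [hc a rfl, hc b hab]
    · intro u
      obtain ⟨c, hc, -⟩ := exist_unique_eq_mul_prod K u
      exact ⟨c, hc.symm⟩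
  rw [← (Equiv.ofBijective e he).tsum_eq]
  have key : ∀ ζn : torsion K × (Fin (Units.rank K) → ℤ),
      weight (e ζn • x) = ∏ i, hat ((logBasis K).repr (logMap x) i + ζn.2 i) := by
    intro ζn
    have hn : mixedEmbedding.norm (e ζn • x) ≠ 0 := by
      rwa [unitSMul_smul, map_mul, norm_unit, one_mul]
    rw [weight, if_neg hn]
    refine Finset.prod_congr rfl fun i _ => ?_
    rw [logMap_unit_smul _ hx, map_add, Finsupp.add_apply, repr_logEmbedding_fundSystem_prod,
      add_comm]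
  simp only [Equiv.ofBijective_apply, key]
  have hsum : Summable fun ζn : torsion K × (Fin (Units.rank K) → ℤ) =>
      ∏ i, hat ((logBasis K).repr (logMap x) i + ζn.2 i) := by
    refine summable_of_ne_finset_zero
      (s := Finset.univ ×ˢ Fintype.piFinset fun i =>
        ({-⌊(logBasis K).repr (logMap x) i⌋, -⌊(logBasis K).repr (logMap x) i⌋ - 1} : Finset ℤ))
      ?_
    intro ζn hn
    rw [Finset.mem_product, Fintype.mem_piFinset] at hn
    push Not at hn
    obtain ⟨i, hi⟩ := hn (Finset.mem_univ _)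
    exact Finset.prod_eq_zero (Finset.mem_univ i) (hat_eq_zero_of_notMem _ hi)
  rw [hsum.tsum_prod, tsum_fintype]
  simp only [hat_prod_tsum, Finset.sum_const, Finset.card_univ, Units.torsionOrder, Nat.card_eq_fintype_card,
    nsmul_eq_mul, mul_one]

theorem normAtPlace_le_norm (w : InfinitePlace K) (x : mixedSpace K) :
    normAtPlace w x ≤ ‖x‖ := by
  rw [norm_eq_sup'_normAtPlace]
  exact Finset.le_sup' (fun w => normAtPlace w x) (Finset.mem_univ w)

theorem abs_normAtPlace_add_sub (w : InfinitePlace K) (x t : mixedSpace K) :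
    |normAtPlace w (x + t) - normAtPlace w x| ≤ ‖t‖ := by
  have h1 := normAtPlace_add_le w x t
  have h2 := normAtPlace_add_le w (x + t) (-t)
  rw [normAtPlace_neg, add_neg_cancel_right] at h2
  rw [abs_le]
  constructor <;> linarith [normAtPlace_le_norm w t]

theorem log_norm_eq_sum (x : mixedSpace K) (hx : mixedEmbedding.norm x ≠ 0) :
    Real.log (mixedEmbedding.norm x) = ∑ w, (mult w : ℝ) * Real.log (normAtPlace w x) := by
  rw [mixedEmbedding.norm_apply, Real.log_prod fun w _ =>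
    pow_ne_zero _ (mixedEmbedding.norm_ne_zero_iff.mp hx w)]
  simp [Real.log_pow]

/-- On the support of the weight all the coordinates are comparable to the norm. -/
theorem exists_support_bound :
    ∃ c : ℝ, 0 < c ∧ c ≤ 1 ∧ ∀ x : mixedSpace K, weight x ≠ 0 →
      ∀ w, c * ‖x‖ ≤ normAtPlace w x := by
  classical
  set C₁ : ℝ := ∑ i, ‖logBasis K i‖ with hC₁
  have hC₁0 : 0 ≤ C₁ := Finset.sum_nonneg fun i _ => norm_nonneg _
  set d : ℝ := (finrank ℚ K : ℝ)
  have hd : 1 ≤ d := by simp [d, Nat.one_le_iff_ne_zero, finrank_pos.ne']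
  set C₂ : ℝ := d * C₁ with hC₂
  have hC₁₂ : C₁ ≤ C₂ := le_mul_of_one_le_left hC₁0 hd
  refine ⟨Real.exp (-(2 * C₂)), Real.exp_pos _, Real.exp_le_one_iff.mpr (by linarith), ?_⟩
  intro x hx
  have hn : mixedEmbedding.norm x ≠ 0 := fun h => hx (if_pos h)
  rw [weight, if_neg hn, Finset.prod_ne_zero_iff] at hx
  have hlog : ‖logMap x‖ ≤ C₁ := by
    rw [← (logBasis K).sum_repr (logMap x)]
    refine (norm_sum_le _ _).trans (Finset.sum_le_sum fun i _ => ?_)
    rw [_root_.norm_smul, Real.norm_eq_abs]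
    exact mul_le_of_le_one_left (norm_nonneg _)
      (abs_lt_one_of_hat_ne_zero (hx i (Finset.mem_univ i))).le
  set a : ℝ := Real.log (mixedEmbedding.norm x) * d⁻¹ with ha
  set ℓ : InfinitePlace K → ℝ := fun w => Real.log (normAtPlace w x) - a with hℓ
  have hsum : ∑ w, (mult w : ℝ) * ℓ w = 0 := by
    simp only [hℓ, mul_sub, Finset.sum_sub_distrib, ← Finset.sum_mul, ← log_norm_eq_sum x hn]
    rw [show ∑ w : InfinitePlace K, (mult w : ℝ) = d by simp [d, ← sum_mult_eq]]
    rw [ha]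
    field_simp
    ring
  have hℓ' : ∀ w ≠ w₀, |(mult w : ℝ) * ℓ w| ≤ C₁ := fun w hw => by
    have := (norm_le_pi_norm (logMap x) ⟨w, hw⟩).trans hlog
    simpa only [Real.norm_eq_abs, logMap_apply, hℓ, ha] using this
  have hm : ∀ w : InfinitePlace K, (1 : ℝ) ≤ mult w := fun w => by
    exact_mod_cast (one_le_mult (w := w))
  have habs : ∀ w, |ℓ w| ≤ C₂ := by
    intro w
    refine (le_mul_of_one_le_left (abs_nonneg _) (hm w)).trans ?_
    have e : (mult w : ℝ) * |ℓ w| = |(mult w : ℝ) * ℓ w| := by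
      rw [abs_mul, abs_of_nonneg (zero_le_one.trans (hm w))]
    rw [e]
    by_cases hw : w = w₀
    · subst hw
      rw [← Finset.add_sum_erase _ _ (Finset.mem_univ (w₀ : InfinitePlace K)),
        add_eq_zero_iff_eq_neg] at hsum
      rw [hsum, abs_neg]
      refine (Finset.abs_sum_le_sum_abs _ _).trans ?_
      refine (Finset.sum_le_sum fun w hw => hℓ' w (Finset.ne_of_mem_erase hw)).trans ?_
      rw [Finset.sum_const, nsmul_eq_mul, hC₂]
      refine mul_le_mul_of_nonneg_right ?_ hC₁0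
      calc ((Finset.univ.erase (w₀ : InfinitePlace K)).card : ℝ)
          ≤ (Finset.univ : Finset (InfinitePlace K)).card := by
            exact_mod_cast Finset.card_le_card (Finset.erase_subset _ _)
        _ = ∑ _w : InfinitePlace K, (1 : ℝ) := by simp
        _ ≤ ∑ w : InfinitePlace K, (mult w : ℝ) := Finset.sum_le_sum fun w _ => hm w
        _ = d := by simp [d, ← sum_mult_eq]
    · exact (hℓ' w hw).trans hC₁₂
  have hpos : ∀ w, 0 < normAtPlace w x := fun w =>
    lt_of_le_of_ne (normAtPlace_nonneg w x) (mixedEmbedding.norm_ne_zero_iff.mp hn w).symm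
  intro w
  obtain ⟨v, -, hv⟩ := Finset.exists_mem_eq_sup' Finset.univ_nonempty fun v => normAtPlace v x
  rw [norm_eq_sup'_normAtPlace, hv, ← Real.exp_log (hpos v), ← Real.exp_add,
    ← Real.le_log_iff_exp_le (hpos w)]
  have h1 := abs_le.mp (habs v)
  have h2 := abs_le.mp (habs w)
  simp only [hℓ] at h1 h2
  linarith

/-- The summand whose lattice sums give partial zeta functions. -/
def wterm (s : ℝ) (x : mixedSpace K) : ℝ := weight x * mixedEmbedding.norm x ^ (-s)

theorem wterm_nonneg (s : ℝ) (x : mixedSpace K) : 0 ≤ wterm s x :=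
  mul_nonneg (weight_nonneg x) (Real.rpow_nonneg (mixedEmbedding.norm_nonneg x) _)

theorem wterm_zero (s : ℝ) : wterm s (0 : mixedSpace K) = 0 := by
  simp [wterm, weight_zero]

theorem norm_lower_bound {c : ℝ} (hc : 0 < c) {x : mixedSpace K}
    (h : ∀ w, c * ‖x‖ ≤ normAtPlace w x) :
    (c * ‖x‖) ^ (finrank ℚ K) ≤ mixedEmbedding.norm x := by
  rw [mixedEmbedding.norm_apply, ← sum_mult_eq (K := K), ← Finset.prod_pow_eq_pow_sum]
  exact Finset.prod_le_prod (fun w _ => pow_nonneg (by positivity) _)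
    fun w _ => pow_le_pow_left₀ (by positivity) (h w) _

theorem rpow_norm_le {c s : ℝ} (hc : 0 < c) (hs : 0 ≤ s) {x : mixedSpace K} (hx : x ≠ 0)
    (h : ∀ w, c * ‖x‖ ≤ normAtPlace w x) :
    mixedEmbedding.norm x ^ (-s) ≤
      c ^ (-((finrank ℚ K : ℝ) * s)) * ‖x‖ ^ (-((finrank ℚ K : ℝ) * s)) := by
  have hx0 : 0 < c * ‖x‖ := mul_pos hc (norm_pos_iff.mpr hx)
  rw [← Real.mul_rpow hc.le (norm_nonneg x), ← mul_neg, Real.rpow_mul hx0.le,
    Real.rpow_natCast]
  exact Real.rpow_le_rpow_of_nonpos (pow_pos hx0 _) (norm_lower_bound hc h) (by linarith)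

/-- Global bound for the summand. -/
theorem exists_wterm_le :
    ∃ C : ℝ, ∀ s ∈ Set.Ioc (1 : ℝ) 2, ∀ x : mixedSpace K,
      wterm s x ≤ C * ‖x‖ ^ (-((finrank ℚ K : ℝ) * s)) := by
  obtain ⟨c, hc0, hc1, hc⟩ := exists_support_bound (K := K)
  refine ⟨c ^ (-((finrank ℚ K : ℝ) * 2)), fun s hs x => ?_⟩
  have hd : (0 : ℝ) < finrank ℚ K := by exact_mod_cast finrank_pos
  by_cases hx : weight x = 0
  · rw [wterm, hx, zero_mul]
    positivity
  have hx0 : x ≠ 0 := fun h => hx (by rw [h]; exact weight_zero)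
  calc wterm s x ≤ 1 * mixedEmbedding.norm x ^ (-s) :=
        mul_le_mul_of_nonneg_right (weight_le_one x) (Real.rpow_nonneg (mixedEmbedding.norm_nonneg x) _)
    _ ≤ c ^ (-((finrank ℚ K : ℝ) * s)) * ‖x‖ ^ (-((finrank ℚ K : ℝ) * s)) := by
        rw [one_mul]; exact rpow_norm_le hc0 (by linarith [hs.1]) hx0 (hc x hx)
    _ ≤ _ := by
        refine mul_le_mul_of_nonneg_right ?_ (Real.rpow_nonneg (norm_nonneg x) _)
        exact Real.rpow_le_rpow_of_exponent_ge hc0 hc1 (by nlinarith [hs.2])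

theorem abs_log_sub_log_le {a b m : ℝ} (hm : 0 < m) (ha : m ≤ a) (hb : m ≤ b) :
    |Real.log a - Real.log b| ≤ |a - b| / m := by
  have key : ∀ u v : ℝ, m ≤ u → m ≤ v → Real.log u - Real.log v ≤ |u - v| / m := by
    intro u v hu hv
    have hv0 : 0 < v := hm.trans_le hv
    have hu0 : 0 < u := hm.trans_le hu
    rw [← Real.log_div hu0.ne' hv0.ne']
    refine (Real.log_le_sub_one_of_pos (div_pos hu0 hv0)).trans ?_
    rw [div_sub_one hv0.ne']
    calc (u - v) / v ≤ |u - v| / v := div_le_div_of_nonneg_right (le_abs_self _) hv0.le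
      _ ≤ |u - v| / m := div_le_div_of_nonneg_left (abs_nonneg _) hm hv
  rw [abs_sub_le_iff]
  refine ⟨key a b ha hb, ?_⟩
  rw [abs_sub_comm]
  exact key b a hb ha

theorem exists_repr_bound : ∃ M : ℝ, 0 ≤ M ∧ ∀ (v : logSpace K) (i : Fin (Units.rank K)),
    |(logBasis K).repr v i| ≤ M * ‖v‖ := by
  refine ⟨‖((logBasis K).equivFunL).toContinuousLinearMap‖, norm_nonneg _, fun v i => ?_⟩
  have := norm_le_pi_norm ((logBasis K).equivFunL v) i
  simp only [Real.norm_eq_abs] at this
  refine this.trans ?_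
  exact ((logBasis K).equivFunL).toContinuousLinearMap.le_opNorm v

theorem abs_rpow_sub_rpow_le {s a b m : ℝ} (hs : 0 ≤ s) (hm : 0 < m) (ha : m ≤ a) (hb : m ≤ b) :
    |a ^ (-s) - b ^ (-s)| ≤ m ^ (-s) * (s * |Real.log a - Real.log b|) := by
  have key : ∀ u v : ℝ, m ≤ u → m ≤ v →
      u ^ (-s) - v ^ (-s) ≤ m ^ (-s) * (s * |Real.log u - Real.log v|) := by
    intro u v hu hv
    have hu0 : 0 < u := hm.trans_le hu
    have hv0 : 0 < v := hm.trans_le hv
    rw [Real.rpow_def_of_pos hu0, Real.rpow_def_of_pos hv0]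
    rcases le_total (Real.log u * -s) (Real.log v * -s) with h | h
    · exact le_trans (sub_nonpos.mpr (Real.exp_le_exp.mpr h)) (by positivity)
    have h1 : Real.exp (Real.log u * -s) - Real.exp (Real.log v * -s) ≤
        Real.exp (Real.log u * -s) * (Real.log u * -s - Real.log v * -s) := by
      have := Real.add_one_le_exp (Real.log v * -s - Real.log u * -s)
      have h3 : Real.exp (Real.log v * -s) =
          Real.exp (Real.log u * -s) * Real.exp (Real.log v * -s - Real.log u * -s) := by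
        rw [← Real.exp_add]; ring_nf
      rw [h3]
      nlinarith [Real.exp_pos (Real.log u * -s)]
    refine h1.trans (mul_le_mul ?_ ?_ (by linarith) (Real.rpow_nonneg hm.le _))
    · rw [← Real.rpow_def_of_pos hu0]
      exact Real.rpow_le_rpow_of_nonpos hm hu (by linarith)
    · nlinarith [le_abs_self (Real.log v - Real.log u), abs_sub_comm (Real.log u) (Real.log v)]
  rw [abs_sub_le_iff]
  refine ⟨key a b ha hb, ?_⟩
  rw [abs_sub_comm]
  exact key b a hb ha

/-- `wterm` varies slowly at infinity, uniformly for `s ∈ (1, 2]`. -/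
theorem exists_wterm_lipschitz (T : ℝ) :
    ∃ C R : ℝ, 0 ≤ C ∧ ∀ x t : mixedSpace K, ‖t‖ ≤ T → R ≤ ‖x‖ → ∀ s ∈ Set.Ioc (1 : ℝ) 2,
      |wterm s (x + t) - wterm s x| ≤ C * ‖x‖ ^ (-((finrank ℚ K : ℝ) + 1)) := by
  classical
  obtain ⟨c, hc0, hc1, hc⟩ := exists_support_bound (K := K)
  obtain ⟨M, hM0, hM⟩ := exists_repr_bound (K := K)
  set T₀ := max T 0
  have hT₀ : 0 ≤ T₀ := le_max_right _ _
  set d : ℝ := (finrank ℚ K : ℝ) with hd
  have hd1 : 1 ≤ d := by simp [hd, Nat.one_le_iff_ne_zero, finrank_pos.ne']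
  set c' : ℝ := c / 4 with hc'
  have hc'0 : 0 < c' := by positivity
  have hc'1 : c' ≤ 1 := by linarith
  set L : ℝ := T₀ / c'
  have hL0 : 0 ≤ L := by positivity
  set E : ℝ := c' ^ (-(d * 2))
  set r : ℝ := (Units.rank K : ℝ)
  have hr0 : 0 ≤ r := Nat.cast_nonneg _
  refine ⟨(r * M * (4 * d * L) + 2 * (d * L)) * E, max 1 (4 * T₀ / c), by positivity,
    fun x t ht hR s hs => ?_⟩
  have hx1 : 1 ≤ ‖x‖ := (le_max_left _ _).trans hR
  have hxT : 4 * T₀ ≤ c * ‖x‖ := by
    have := (le_max_right _ _).trans hR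
    rw [div_le_iff₀ hc0] at this
    linarith
  have ht' : ‖t‖ ≤ T₀ := ht.trans (le_max_left _ _)
  have hC0 : 0 ≤ (r * M * (4 * d * L) + 2 * (d * L)) * E * ‖x‖ ^ (-(d + 1)) := by positivity
  by_cases hsupp : weight x = 0 ∧ weight (x + t) = 0
  · rwa [wterm, wterm, hsupp.1, hsupp.2, zero_mul, zero_mul, sub_zero, abs_zero]
  -- all coordinates of both points are large
  have hboth : ∀ w, c' * ‖x‖ ≤ normAtPlace w x ∧ c' * ‖x‖ ≤ normAtPlace w (x + t) := by
    intro w
    have h1 := abs_le.mp ((abs_normAtPlace_add_sub w x t).trans ht')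
    by_cases h : weight x = 0
    · have h2 := hc _ (fun h' => hsupp ⟨h, h'⟩) w
      have h3 : ‖x‖ ≤ ‖x + t‖ + T₀ := by
        have := norm_sub_le (x + t) t
        rw [add_sub_cancel_right] at this
        linarith
      constructor <;> nlinarith
    · have h2 := hc _ h w
      constructor <;> nlinarith
  have hm : 0 < c' * ‖x‖ := by positivity
  have hδ : ∀ w, |Real.log (normAtPlace w (x + t)) - Real.log (normAtPlace w x)| ≤ L / ‖x‖ := by
    intro w
    refine (abs_log_sub_log_le hm (hboth w).2 (hboth w).1).trans ?_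
    rw [div_div]
    gcongr
    exact (abs_normAtPlace_add_sub w x t).trans ht'
  have hnx : mixedEmbedding.norm x ≠ 0 :=
    mixedEmbedding.norm_ne_zero_iff.mpr fun w => (hm.trans_le (hboth w).1).ne'
  have hnxt : mixedEmbedding.norm (x + t) ≠ 0 :=
    mixedEmbedding.norm_ne_zero_iff.mpr fun w => (hm.trans_le (hboth w).2).ne'
  have hN : |Real.log (mixedEmbedding.norm (x + t)) - Real.log (mixedEmbedding.norm x)| ≤
      d * (L / ‖x‖) := by
    rw [log_norm_eq_sum _ hnx, log_norm_eq_sum _ hnxt, ← Finset.sum_sub_distrib]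
    refine (Finset.abs_sum_le_sum_abs _ _).trans ?_
    rw [show d = ∑ w : InfinitePlace K, (mult w : ℝ) by simp [hd, ← sum_mult_eq], Finset.sum_mul]
    refine Finset.sum_le_sum fun w _ => ?_
    rw [← mul_sub, abs_mul, Nat.abs_cast]
    exact mul_le_mul_of_nonneg_left (hδ w) (Nat.cast_nonneg _)
  have hlog : ‖logMap (x + t) - logMap x‖ ≤ 4 * d * (L / ‖x‖) := by
    refine (pi_norm_le_iff_of_nonneg (by positivity)).mpr fun w => ?_
    rw [Pi.sub_apply, logMap_apply, logMap_apply, ← mul_sub, Real.norm_eq_abs, abs_mul,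
      Nat.abs_cast]
    have h2 : (mult w.1 : ℝ) ≤ 2 := by
      rcases isReal_or_isComplex w.1 with h | h
      · rw [mult_isReal ⟨_, h⟩]; norm_num
      · rw [mult_isComplex ⟨_, h⟩]; norm_num
    refine (mul_le_mul h2 (?_ : _ ≤ (L / ‖x‖) + L / ‖x‖) (abs_nonneg _) zero_le_two).trans ?_
    · rw [sub_sub_sub_comm, ← sub_mul, ← hd]
      refine (abs_sub _ _).trans (add_le_add (hδ _) ?_)
      rw [abs_mul, abs_of_nonneg (by positivity : (0 : ℝ) ≤ d⁻¹), ← div_eq_mul_inv,
        div_le_iff₀ (by positivity)]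
      linarith
    · nlinarith [div_nonneg hL0 (norm_nonneg x)]
  have hW : |weight (x + t) - weight x| ≤ r * M * (4 * d * (L / ‖x‖)) := by
    rw [weight, weight, if_neg hnx, if_neg hnxt]
    refine (abs_prod_sub_prod_le _ _ _ (fun i _ => hat_nonneg _) (fun i _ => hat_le_one _)
      (fun i _ => hat_nonneg _) (fun i _ => hat_le_one _)).trans ?_
    refine (Finset.sum_le_sum (g := fun _ => M * (4 * d * (L / ‖x‖))) fun i _ => ?_).trans ?_
    · refine (hat_lipschitz _ _).trans ?_
      rw [← Finsupp.sub_apply, ← map_sub]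
      exact (hM _ i).trans (mul_le_mul_of_nonneg_left hlog hM0)
    · simp [r, mul_assoc]
  have hlow : ∀ y : mixedSpace K, (∀ w, c' * ‖x‖ ≤ normAtPlace w y) →
      (c' * ‖x‖) ^ (finrank ℚ K) ≤ mixedEmbedding.norm y := by
    intro y hy
    rw [mixedEmbedding.norm_apply, ← sum_mult_eq (K := K), ← Finset.prod_pow_eq_pow_sum]
    exact Finset.prod_le_prod (fun w _ => pow_nonneg hm.le _)
      fun w _ => pow_le_pow_left₀ hm.le (hy w) _
  set m : ℝ := (c' * ‖x‖) ^ (finrank ℚ K) with hm'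
  have hm0 : 0 < m := pow_pos hm _
  have hpow : m ^ (-s) ≤ E * ‖x‖ ^ (-d) := by
    rw [hm', ← Real.rpow_natCast, ← Real.rpow_mul hm.le, ← hd, mul_neg,
      Real.mul_rpow hc'0.le (norm_nonneg x)]
    refine mul_le_mul ?_ ?_ (Real.rpow_nonneg (norm_nonneg x) _) (Real.rpow_nonneg hc'0.le _)
    · exact Real.rpow_le_rpow_of_exponent_ge hc'0 hc'1 (by nlinarith [hs.2])
    · exact Real.rpow_le_rpow_of_exponent_le hx1 (by nlinarith [hs.1])
  have hEx : 0 ≤ E * ‖x‖ ^ (-d) := le_trans (Real.rpow_nonneg hm0.le _) hpow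
  have hp1 : mixedEmbedding.norm (x + t) ^ (-s) ≤ E * ‖x‖ ^ (-d) :=
    (Real.rpow_le_rpow_of_nonpos hm0 (hlow _ fun w => (hboth w).2)
      (by linarith [hs.1])).trans hpow
  have hp2 : |mixedEmbedding.norm (x + t) ^ (-s) - mixedEmbedding.norm x ^ (-s)| ≤
      E * ‖x‖ ^ (-d) * (2 * (d * (L / ‖x‖))) := by
    refine (abs_rpow_sub_rpow_le (by linarith [hs.1]) hm0 (hlow _ fun w => (hboth w).2)
      (hlow _ fun w => (hboth w).1)).trans ?_
    exact mul_le_mul hpow (mul_le_mul hs.2 hN (abs_nonneg _) zero_le_two)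
      (mul_nonneg (by linarith [hs.1]) (abs_nonneg _)) hEx
  calc |wterm s (x + t) - wterm s x|
      = |(weight (x + t) - weight x) * mixedEmbedding.norm (x + t) ^ (-s) + weight x *
          (mixedEmbedding.norm (x + t) ^ (-s) - mixedEmbedding.norm x ^ (-s))| := by
        rw [wterm, wterm]; ring_nf
    _ ≤ r * M * (4 * d * (L / ‖x‖)) * (E * ‖x‖ ^ (-d)) +
          1 * (E * ‖x‖ ^ (-d) * (2 * (d * (L / ‖x‖)))) := by
        refine (abs_add_le _ _).trans (add_le_add ?_ ?_)
        · rw [abs_mul, abs_of_nonneg (Real.rpow_nonneg (mixedEmbedding.norm_nonneg _) _)]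
          exact mul_le_mul hW hp1 (Real.rpow_nonneg (mixedEmbedding.norm_nonneg _) _)
            (by positivity)
        · rw [abs_mul, abs_of_nonneg (weight_nonneg x)]
          exact mul_le_mul (weight_le_one x) hp2 (abs_nonneg _) zero_le_one
    _ = (r * M * (4 * d * L) + 2 * (d * L)) * E * ‖x‖ ^ (-(d + 1)) := by
        rw [neg_add, Real.rpow_add (by linarith), Real.rpow_neg_one]
        field_simp

end FA.Ext
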